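import Fermat.Agent.Thaine.FiniteLevel
import Fermat.Agent.EllP.InertiaLift
import Fermat.Prelude.Def_ExtCitation_AdmissibleExtension_v2

/-!
# Admissible extensions split

`extVanishing_main`: for `3 ≤ p` every admissible extension in the sense of
`ExtCitation.IsAdmissibleExtensionCts` splits globally (this is statement S14).  The cocycle of the
extension cuts out a finite Galois extension of `ℚ`; the local conditions at the places of `ℚ̄`
are transferred to it (`exists_place_over`, `exists_stabilizer_lift`), and a nonsplit extension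
contradicts `no_finite_extension`.
-/

set_option autoImplicit false

noncomputable section

open NumberField IsDedekindDomain
open scoped Classical Pointwise
open FLTAgent.EllP

namespace FLTAgent.Thaine

local notation "Qb" => AlgebraicClosure ℚ
local notation "OQ" => NumberField.RingOfIntegers (AlgebraicClosure ℚ)
local notation "GQ" => (AlgebraicClosure ℚ ≃ₐ[ℚ] AlgebraicClosure ℚ)

theorem centre_ext {A A' : ValuationSubring Qb} {q : ℕ} (hq : q.Prime) (hA : A.LiesOverPrime q)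
    (hA' : A'.LiesOverPrime q) (h : centre A = centre A') : A = A' := by
  have key : ∀ B B' : ValuationSubring Qb, B.LiesOverPrime q → centre B = centre B' → B ≤ B' := by
    intro B B' hB hc x hx
    obtain ⟨a, s, hs, hxs⟩ := exists_num_den hq hB hx
    rw [hc, mem_centre, ValuationSubring.mem_nonunits_iff_or, not_or, not_not] at hs
    have := mul_mem (mem_of_isIntegral_int B' a.2) hs.2
    change (a : Qb) * _ ∈ B' at this
    rwa [← hxs, mul_inv_cancel_right₀ hs.1] at this
  exact le_antisymm (key A A' hA h) (key A' A hA' h.symm)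

theorem nonunits_smul_iff {σ : GQ} {A : ValuationSubring Qb} {x : Qb} :
    σ x ∈ (σ • A).nonunits ↔ x ∈ A.nonunits := by
  rw [ValuationSubring.mem_nonunits_iff_or, ValuationSubring.mem_nonunits_iff_or, map_eq_zero,
    ← map_inv₀, ← AlgEquiv.smul_def, ValuationSubring.smul_mem_pointwise_smul_iff]

theorem centre_smul_place (σ : GQ) (A : ValuationSubring Qb) :
    centre (σ • A) = σ • centre A := by
  ext x
  rw [Ideal.mem_pointwise_smul_iff_inv_smul_mem, mem_centre, mem_centre, coe_smul_OQ,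
    ← nonunits_smul_iff (σ := σ) (A := A), AlgEquiv.smul_def, AlgEquiv.aut_inv,
    AlgEquiv.apply_symm_apply]

/-- An element of a decomposition group at finite level lifts to the decomposition group. -/
theorem exists_stabilizer_lift (L : IntermediateField ℚ Qb) [IsGalois ℚ L] (Q : Ideal OQ)
    [Q.IsPrime] (τ : L ≃ₐ[ℚ] L) (hτ : τ • Q.under (𝓞 L) = Q.under (𝓞 L)) :
    ∃ σ : GQ, σ • Q = Q ∧ ∀ x : L, σ (x : Qb) = ((τ x : L) : Qb) := by
  let : TopologicalSpace OQ := ⊥
  have : DiscreteTopology OQ := ⟨rfl⟩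
  have := continuousSMul_integral L
  set σ0 : GQ := τ.liftNormal Qb with hσ0
  have hσ0x : ∀ x : L, σ0 (x : Qb) = ((τ x : L) : Qb) := fun x => τ.liftNormal_commutes Qb x
  have hσ0a : ∀ a : 𝓞 L, σ0⁻¹ • algebraMap (𝓞 L) OQ a = algebraMap (𝓞 L) OQ (τ⁻¹ • a) := by
    intro a
    rw [inv_smul_eq_iff]
    refine NumberField.RingOfIntegers.ext ?_
    show (((a : L)) : Qb) = σ0 (((τ⁻¹ • a : 𝓞 L) : L) : Qb)
    rw [hσ0x]
    show ((a : L) : Qb) = ((τ (τ⁻¹ (a : L)) : L) : Qb)
    rw [← AlgEquiv.mul_apply, mul_inv_cancel, AlgEquiv.one_apply]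
  have hQ0 : (σ0 • Q).under (𝓞 L) = Q.under (𝓞 L) := by
    ext a
    conv_rhs => rw [← hτ, Ideal.mem_pointwise_smul_iff_inv_smul_mem, Ideal.under_def,
      Ideal.mem_comap]
    rw [Ideal.under_def, Ideal.mem_comap, Ideal.mem_pointwise_smul_iff_inv_smul_mem, hσ0a]
  obtain ⟨h, hh⟩ := Algebra.IsInvariant.exists_smul_of_under_eq_of_profinite
    (A := 𝓞 L) (G := (Qb ≃ₐ[L] Qb)) (σ0 • Q) Q hQ0
  refine ⟨h.restrictScalars ℚ * σ0, ?_, fun x => ?_⟩
  · rw [mul_smul]
    exact hh.symm
  · rw [AlgEquiv.mul_apply, hσ0x]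
    exact h.commutes (τ x)

theorem exists_place_over (L : IntermediateField ℚ Qb) [NumberField L]
    (w : HeightOneSpectrum (𝓞 L)) {q : ℕ} (hq : q.Prime) (hqw : (q : 𝓞 L) ∈ w.asIdeal) :
    ∃ A : ValuationSubring Qb, A.LiesOverPrime q ∧ (centre A).under (𝓞 L) = w.asIdeal := by
  have : Algebra.IsIntegral (𝓞 L) OQ := Algebra.IsIntegral.tower_top ℤ
  obtain ⟨Q, hQ, hQw⟩ := Ideal.exists_ideal_over_prime_of_isIntegral_of_isDomain (S := OQ)
    w.asIdeal (by
      rw [(RingHom.injective_iff_ker_eq_bot _).1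
        (FaithfulSMul.algebraMap_injective (𝓞 L) OQ)]
      exact bot_le)
  have hqQ : (q : OQ) ∈ Q := by
    rw [← map_natCast (algebraMap (𝓞 L) OQ), ← Ideal.mem_comap, hQw]
    exact hqw
  have := hQ
  obtain ⟨A, hA, hAQ⟩ := exists_centre_eq Q hq hqQ
  exact ⟨A, hA, by rw [hAQ]; exact hQw⟩

variable {p : ℕ} [hp : Fact p.Prime]

/-- The value of the cyclotomic character. -/
def chiQ (p : ℕ) [Fact p.Prime] (σ : GQ) : ZMod p := (ExtCitation.cycloExp p σ : ZMod p)

theorem chiQ_spec {z : Qb} (hz : z ^ p = 1) (σ : GQ) : σ z = z ^ (chiQ p σ).val := by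
  have : NeZero p := ⟨hp.out.ne_zero⟩
  let t : rootsOfUnity p Qb := rootsOfUnity.mkOfPowEq z hz
  have h := modularCyclotomicCharacter.spec (L := Qb) (ExtCitation.card_rootsOfUnity_eq_self p)
    (σ : Qb ≃+* Qb) (t := (t : Qbˣ)) t.2
  rw [chiQ, ExtCitation.cycloExp, ZMod.natCast_val, ZMod.cast_id]
  have h2 := h
  simp only [t, rootsOfUnity.val_mkOfPowEq_coe] at h2
  exact h2

theorem exists_chiQ_eq (a : (ZMod p)ˣ) : ∃ σ : GQ, chiQ p σ = a := by
  obtain ⟨ζ, hζ⟩ := HasEnoughRootsOfUnity.exists_primitiveRoot Qb p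
  let E : IntermediateField ℚ Qb := IntermediateField.adjoin ℚ {ζ}
  have : IsCyclotomicExtension {p} ℚ E := hζ.intermediateField_adjoin_isCyclotomicExtension ℚ
  have : NumberField E := IsCyclotomicExtension.numberField {p} ℚ E
  have : IsGalois ℚ E := IsCyclotomicExtension.isGalois {p} ℚ E
  refine ⟨(sg p E a).liftNormal Qb, ?_⟩
  have hz : (zK p E : Qb) ^ p = 1 := by
    have := congrArg (fun e : E => (e : Qb)) (zK_spec p E).pow_eq_one
    simpa using this
  have hprim : IsPrimitiveRoot ((zK p E : E) : Qb) p :=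
    (zK_spec p E).map_of_injective (f := algebraMap E Qb) (algebraMap E Qb).injective
  have h := chiQ_spec hz ((sg p E a).liftNormal Qb)
  have h2 := (sg p E a).liftNormal_commutes Qb (zK p E)
  rw [sg_apply_zK] at h2
  change (sg p E a).liftNormal Qb ((zK p E : E) : Qb) = ((zK p E ^ _ : E) : Qb) at h2
  rw [h] at h2
  push_cast at h2
  exact ZMod.val_injective _ (hprim.pow_inj (ZMod.val_lt _) (ZMod.val_lt _) h2)

/-- Every admissible extension splits globally for `3 ≤ p`. -/
theorem extVanishing_main (h3 : 3 ≤ p) (V : Type) [AddCommGroup V] [Module (ZMod p) V]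
    [DistribMulAction GQ V] [SMulCommClass GQ (ZMod p) V] (C : Submodule (ZMod p) V)
    (hadm : ExtCitation.IsAdmissibleExtensionCts p V C) : ExtCitation.SplitsGlobally C := by
  have : NeZero p := ⟨hp.out.ne_zero⟩
  -- basis
  obtain ⟨c0, hc0C, hc0⟩ : ∃ c0 ∈ C, c0 ≠ 0 := by
    refine (Submodule.ne_bot_iff C).1 fun h => ?_
    have := hadm.card_sub
    rw [h] at this
    simp at this
    exact hp.out.ne_one this.symm
  have : Finite C := Nat.finite_of_card_ne_zero (by rw [hadm.card_sub]; exact hp.out.ne_zero)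
  have : Finite V := Nat.finite_of_card_ne_zero (by
    rw [hadm.card_total]; exact pow_ne_zero _ hp.out.ne_zero)
  have hCspan : ∀ x ∈ C, ∃ k : ZMod p, x = k • c0 := by
    intro x hx
    have hinj : Function.Injective fun k : ZMod p => (⟨k • c0, C.smul_mem k hc0C⟩ : C) :=
      fun k l h => smul_left_injective (ZMod p) hc0 (congrArg Subtype.val h)
    obtain ⟨k, hk⟩ := ((Nat.bijective_iff_injective_and_card _).2
      ⟨hinj, by rw [Nat.card_zmod, hadm.card_sub]⟩).2 ⟨x, hx⟩
    exact ⟨k, (congrArg Subtype.val hk).symm⟩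
  obtain ⟨v0, hv0⟩ : ∃ v0 : V, v0 ∉ C := by
    by_contra hcon
    push Not at hcon
    have h := Nat.card_congr (Equiv.subtypeUnivEquiv hcon : C ≃ V)
    rw [hadm.card_sub, hadm.card_total] at h
    have := hp.out.two_le
    nlinarith
  have hindep : ∀ k l : ZMod p, k • v0 + l • c0 = 0 → k = 0 ∧ l = 0 := by
    intro k l h
    have hk : k = 0 := by
      by_contra hk
      apply hv0
      have hv : v0 = (-(k⁻¹ * l)) • c0 := by
        have h' := congrArg (fun z => k⁻¹ • z) h
        simp only [smul_add, smul_smul, inv_mul_cancel₀ hk, one_smul, smul_zero] at h'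
        rw [eq_neg_of_add_eq_zero_left h', neg_smul]
      exact hv ▸ C.smul_mem _ hc0C
    subst hk
    rw [zero_smul, zero_add] at h
    exact ⟨rfl, (smul_eq_zero.1 h).resolve_right hc0⟩
  have hspan : ∀ x : V, ∃ k l : ZMod p, x = k • v0 + l • c0 := by
    have hinj : Function.Injective fun kl : ZMod p × ZMod p => kl.1 • v0 + kl.2 • c0 := by
      intro a b h
      have h' : a.1 • v0 + a.2 • c0 = b.1 • v0 + b.2 • c0 := h
      obtain ⟨h1, h2⟩ := hindep (a.1 - b.1) (a.2 - b.2) (by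
        rw [sub_smul, sub_smul, sub_add_sub_comm, h', sub_self])
      exact Prod.ext (sub_eq_zero.1 h1) (sub_eq_zero.1 h2)
    have hb := (Nat.bijective_iff_injective_and_card _).2
      ⟨hinj, by rw [Nat.card_prod, Nat.card_zmod, hadm.card_total, sq]⟩
    intro x
    obtain ⟨⟨k, l⟩, hkl⟩ := hb.2 x
    exact ⟨k, l, hkl.symm⟩
  -- the cocycle
  have hbex : ∀ σ : GQ, ∃ k : ZMod p, σ • v0 = chiQ p σ • v0 + k • c0 := fun σ => by
    obtain ⟨k, hk⟩ := hCspan _ (hadm.cyclo_quot σ v0)
    exact ⟨k, by rw [← hk, chiQ]; abel⟩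
  choose b hb using hbex
  have hfix : ∀ (σ : GQ) (k : ZMod p), σ • (k • c0) = k • c0 := fun σ k =>
    hadm.fixed_sub σ _ (C.smul_mem k hc0C)
  have huniq : ∀ (σ : GQ) (a k : ZMod p), σ • v0 = a • v0 + k • c0 → a = chiQ p σ ∧ k = b σ := by
    intro σ a k h
    rw [hb σ] at h
    obtain ⟨h1, h2⟩ := hindep (chiQ p σ - a) (b σ - k) (by
      rw [sub_smul, sub_smul, sub_add_sub_comm, h, sub_self])
    exact ⟨(sub_eq_zero.1 h1).symm, (sub_eq_zero.1 h2).symm⟩
  have hmul : ∀ σ τ : GQ, chiQ p (σ * τ) = chiQ p τ * chiQ p σ ∧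
      b (σ * τ) = chiQ p τ * b σ + b τ := by
    intro σ τ
    obtain ⟨h1, h2⟩ := huniq (σ * τ) (chiQ p τ * chiQ p σ) (chiQ p τ * b σ + b τ) (by
      rw [mul_smul, hb τ, smul_add, hfix, smul_comm σ (chiQ p τ) v0, hb σ]
      module)
    exact ⟨h1.symm, h2.symm⟩
  have hone : chiQ p (1 : GQ) = 1 ∧ b (1 : GQ) = 0 := by
    obtain ⟨h1, h2⟩ := huniq 1 1 0 (by rw [one_smul, one_smul, zero_smul, add_zero])
    exact ⟨h1.symm, h2.symm⟩
  have hkey : ∀ σ : GQ, (∀ v : V, σ • v = v) ↔ chiQ p σ = 1 ∧ b σ = 0 := by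
    intro σ
    constructor
    · intro h
      obtain ⟨h1, h2⟩ := huniq σ 1 0 (by rw [h, one_smul, zero_smul, add_zero])
      exact ⟨h1.symm, h2.symm⟩
    · rintro ⟨h1, h2⟩ v
      obtain ⟨k, l, rfl⟩ := hspan v
      rw [smul_add, hfix, smul_comm σ k v0, hb σ, h1, h2, one_smul, zero_smul, add_zero]
  by_cases hres : ∀ σ : GQ, chiQ p σ = 1 → b σ = 0
  · -- the extension splits
    have h2 : Nat.Coprime 2 p := (Nat.coprime_primes Nat.prime_two hp.out).2 (by omega)
    obtain ⟨σ0, hσ0⟩ := exists_chiQ_eq (p := p) (ZMod.unitOfCoprime 2 h2)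
    rw [ZMod.coe_unitOfCoprime] at hσ0
    have hσ1 : chiQ p σ0 - 1 ≠ 0 := by
      rw [hσ0]; norm_num
    have hcomm : ∀ σ : GQ, b σ * (chiQ p σ0 - 1) = b σ0 * (chiQ p σ - 1) := by
      intro σ
      have hh : σ * σ0 = (σ0 * σ) * ((σ0 * σ)⁻¹ * (σ * σ0)) := by group
      have hχ : chiQ p ((σ0 * σ)⁻¹ * (σ * σ0)) = 1 := by
        have e1 := (hmul (σ0 * σ) ((σ0 * σ)⁻¹ * (σ * σ0))).1
        rw [← hh, (hmul σ σ0).1, (hmul σ0 σ).1] at e1
        have hne : chiQ p σ * chiQ p σ0 ≠ 0 := by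
          intro h0
          have e2 := (hmul (σ0 * σ)⁻¹ (σ0 * σ)).1
          rw [inv_mul_cancel, hone.1, (hmul σ0 σ).1, h0, zero_mul] at e2
          exact one_ne_zero e2
        exact mul_right_cancel₀ hne (by rw [one_mul]; linear_combination -e1)
      have e2 := (hmul (σ0 * σ) ((σ0 * σ)⁻¹ * (σ * σ0))).2
      rw [← hh, hχ, hres _ hχ, one_mul, add_zero, (hmul σ σ0).2, (hmul σ0 σ).2] at e2
      linear_combination e2
    set t := b σ0 / (chiQ p σ0 - 1) with ht
    set w := v0 + t • c0 with hw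
    have hstab : ∀ σ : GQ, σ • w = chiQ p σ • w := by
      intro σ
      have hbt : b σ + t = chiQ p σ * t := by
        have : t * (chiQ p σ0 - 1) = b σ0 := div_mul_cancel₀ _ hσ1
        refine mul_right_cancel₀ hσ1 ?_
        linear_combination hcomm σ + (1 - chiQ p σ) * this
      rw [hw, smul_add, hfix, hb, smul_add, smul_smul, add_assoc, ← add_smul, hbt]
    refine ⟨Submodule.span (ZMod p) {w}, fun σ x hx => ?_, ?_⟩
    · obtain ⟨k, rfl⟩ := Submodule.mem_span_singleton.1 hx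
      rw [smul_comm, hstab]
      exact Submodule.smul_mem _ _ (Submodule.smul_mem _ _ (Submodule.mem_span_singleton_self w))
    · rw [isCompl_iff]
      refine ⟨Submodule.disjoint_def.2 fun x hxC hxw => ?_, codisjoint_iff.2 ((Submodule.eq_top_iff'.2) ?_)⟩
      · obtain ⟨k, rfl⟩ := Submodule.mem_span_singleton.1 hxw
        obtain ⟨l, hl⟩ := hCspan _ hxC
        obtain ⟨hk, -⟩ := hindep k (k * t - l) (by
          rw [hw] at hl
          rw [sub_smul, ← hl]
          module)
        rw [hk, zero_smul]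
      · intro x
        obtain ⟨k, l, rfl⟩ := hspan x
        rw [Submodule.mem_sup]
        refine ⟨(l - k * t) • c0, C.smul_mem _ hc0C, k • w,
          Submodule.smul_mem _ _ (Submodule.mem_span_singleton_self w), ?_⟩
        rw [hw]; module
  -- the nonsplit case is impossible
  exfalso
  push Not at hres
  obtain ⟨σ2, hσ2χ, hσ2b⟩ := hres
  let N : Subgroup GQ :=
    { carrier := {σ | ∀ v : V, σ • v = v}
      mul_mem' := fun {a c} ha hc v => by rw [mul_smul, hc, ha]
      one_mem' := fun v => one_smul _ v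
      inv_mem' := fun {a} ha v => by
        conv_lhs => rw [← ha v]
        exact inv_smul_smul a v }
  have hNn : N.Normal := ⟨fun n hn g v => by
    rw [mul_smul, mul_smul, hn (g⁻¹ • v), smul_inv_smul]⟩
  have hNopen : IsOpen (N : Set GQ) := hadm.open_kernel
  let NC : ClosedSubgroup GQ := ⟨N, N.isClosed_of_isOpen hNopen⟩
  let F : IntermediateField ℚ Qb := IntermediateField.fixedField (NC : Subgroup GQ)
  have : FiniteDimensional ℚ F :=
    (InfiniteGalois.isOpen_iff_finite F).1 (by rwa [InfiniteGalois.fixingSubgroup_fixedField])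
  have : NumberField F := NumberField.of_module_finite ℚ F
  have : IsGalois ℚ F := (InfiniteGalois.normal_iff_isGalois F).1 (by
    rw [InfiniteGalois.fixingSubgroup_fixedField]; exact hNn)
  have hNfix : ∀ σ : GQ, (∀ x : F, σ (x : Qb) = x) → σ ∈ N := by
    intro σ h
    have h1 : σ ∈ F.fixingSubgroup := (IntermediateField.mem_fixingSubgroup_iff F σ).2
      fun x hx => h ⟨x, hx⟩
    rwa [InfiniteGalois.fixingSubgroup_fixedField] at h1
  have hres2 : ∀ (σ σ' : GQ), (∀ x : F, σ (x : Qb) = σ' (x : Qb)) →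
      chiQ p σ = chiQ p σ' ∧ b σ = b σ' := by
    intro σ σ' h
    have hn : σ'⁻¹ * σ ∈ N := hNfix _ fun x => by
      rw [AlgEquiv.mul_apply, h, ← AlgEquiv.mul_apply, inv_mul_cancel, AlgEquiv.one_apply]
    obtain ⟨hn1, hn2⟩ := (hkey _).1 hn
    have e := hmul σ' (σ'⁻¹ * σ)
    rw [mul_inv_cancel_left, hn1, hn2, one_mul, one_mul, add_zero] at e
    exact e
  obtain ⟨ζ0, hζ0⟩ := HasEnoughRootsOfUnity.exists_primitiveRoot Qb p
  have hζF : ζ0 ∈ F := by
    rw [IntermediateField.mem_fixedField_iff]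
    intro n hn
    rw [chiQ_spec hζ0.pow_eq_one n, ((hkey n).1 hn).1, ZMod.val_one, pow_one]
  have hζ : IsPrimitiveRoot (⟨ζ0, hζF⟩ : F) p :=
    IsPrimitiveRoot.of_map_of_injective (f := algebraMap F Qb) (by exact hζ0)
      (algebraMap F Qb).injective
  let lift : Gal(F/ℚ) → GQ := fun τ => τ.liftNormal Qb
  have hlift : ∀ (τ : Gal(F/ℚ)) (x : F), lift τ (x : Qb) = ((τ x : F) : Qb) := fun τ x =>
    τ.liftNormal_commutes Qb x
  set n0 := ((b σ2)⁻¹).val
  set σ1 := σ2 ^ n0
  have hσ1 : chiQ p σ1 = 1 ∧ b σ1 = 1 := by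
    have : ∀ n : ℕ, chiQ p (σ2 ^ n) = 1 ∧ b (σ2 ^ n) = n * b σ2 := by
      intro n
      induction n with
      | zero => simp [hone]
      | succ n ih =>
        rw [pow_succ, (hmul _ _).1, (hmul _ _).2, ih.1, ih.2, hσ2χ]
        push_cast
        exact ⟨one_mul _, by ring⟩
    refine ⟨(this n0).1, ?_⟩
    rw [(this n0).2, ZMod.natCast_val, ZMod.cast_id, inv_mul_cancel₀ hσ2b]
  refine no_finite_extension h3 hζ (fun τ => chiQ p (lift τ)) (fun τ => b (lift τ)) ?_ ?_ ?_
    (σ1.restrictNormal F) ?_ ?_ ?_ ?_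
  · intro τ
    refine Subtype.ext ?_
    rw [← hlift]
    push_cast
    exact chiQ_spec hζ0.pow_eq_one (lift τ)
  · intro σ τ
    show b (lift (σ * τ)) = chiQ p (lift τ) * b (lift σ) + b (lift τ)
    rw [← (hmul (lift σ) (lift τ)).2]
    exact (hres2 _ _ fun x => by
      rw [hlift, AlgEquiv.mul_apply (lift σ), hlift, hlift]; rfl).2
  · intro τ h1 h2
    refine AlgEquiv.ext fun x => Subtype.ext ?_
    rw [← hlift]
    have hmem : lift τ ∈ N := (hkey _).2 ⟨h1, h2⟩
    rw [AlgEquiv.one_apply]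
    exact (IntermediateField.mem_fixedField_iff (H := (NC : Subgroup GQ)) _).1 x.2 _ hmem
  · exact ((hres2 _ σ1 fun x => by
      rw [hlift]; exact AlgEquiv.restrictNormal_commutes σ1 F x).1).trans hσ1.1
  · exact ((hres2 _ σ1 fun x => by
      rw [hlift]; exact AlgEquiv.restrictNormal_commutes σ1 F x).2).trans hσ1.2
  · -- unramified outside `p`
    intro ℓ hℓ hℓp w hw
    obtain ⟨A, hA, hAw⟩ := exists_place_over F w hℓ hw
    rw [eq_bot_iff]
    intro τ hτ
    rw [Subgroup.mem_bot]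
    obtain ⟨σ, hσ, hσx⟩ := exists_inertia_lift F (centre A) τ (hAw.symm ▸ hτ)
    have hσN : σ ∈ N := hadm.unramified_outside ℓ hℓ hℓp A hA σ
      ((FLTAgent.EllP.mem_inertiaSubgroupIn_iff hℓ hA).2 hσ)
    refine AlgEquiv.ext fun x => Subtype.ext ?_
    rw [← hσx, AlgEquiv.one_apply]
    exact (IntermediateField.mem_fixedField_iff (H := (NC : Subgroup GQ)) _).1 x.2 _ hσN
  · -- split at `p`
    intro w hw τ hτ hχτ
    obtain ⟨A, hA, hAw⟩ := exists_place_over F w hp.out hw
    obtain ⟨σ, hσ, hσx⟩ := exists_stabilizer_lift F (centre A) τ (by rw [hAw]; exact hτ)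
    have hσD : σ ∈ A.decompositionSubgroup ℚ := by
      rw [MulAction.mem_stabilizer_iff]
      have hσA : (σ • A).LiesOverPrime p := by
        unfold ValuationSubring.LiesOverPrime at *
        rwa [← map_natCast σ p, nonunits_smul_iff]
      exact centre_ext hp.out hσA hA (by rw [centre_smul_place, hσ])
    have e := hres2 σ (lift τ) fun x => by rw [hσx, hlift]
    obtain ⟨C', hC', hcompl⟩ := hadm.locally_split A hA
    have hb0 : b σ = 0 := by
      obtain ⟨c, hc, u, hu, hcu⟩ := Submodule.mem_sup.1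
        (show v0 ∈ C ⊔ C' from hcompl.sup_eq_top.symm ▸ Submodule.mem_top)
      have h1 : σ • u - u ∈ C' := sub_mem (hC' σ hσD u hu) hu
      have h2 : σ • u - u = b σ • c0 := by
        have h3 := hb σ
        rw [e.1, show chiQ p (lift τ) = 1 from hχτ, one_smul] at h3
        nth_rw 1 [← hcu] at h3
        rw [smul_add, hadm.fixed_sub σ c hc, ← hcu] at h3
        rw [sub_eq_iff_eq_add]
        exact add_left_cancel (a := c) (by rw [h3]; abel)
      have h4 : b σ • c0 = 0 :=
        (Submodule.disjoint_def.1 hcompl.disjoint) _ (C.smul_mem _ hc0C) (h2 ▸ h1)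
      exact (smul_eq_zero.1 h4).resolve_right hc0
    have hσN : σ ∈ N := (hkey σ).2 ⟨e.1.trans hχτ, hb0⟩
    refine AlgEquiv.ext fun x => Subtype.ext ?_
    rw [← hσx, AlgEquiv.one_apply]
    exact (IntermediateField.mem_fixedField_iff (H := (NC : Subgroup GQ)) _).1 x.2 _ hσN

end FLTAgent.Thaine
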