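import Mathlib

/-!
# Eigen-units modulo `p`-th powers are proportional

For a Galois number field `K` with cyclic group generated by `σ` and `[K : ℚ] < p`,
`unit_eigen_proportional` shows: two units on which `σ` acts as the same exponent `l` modulo `p`-th
powers are proportional modulo torsion and `p`-th powers, the second not being trivial there.
Idea: by Minkowski's units the operator on units modulo torsion has characteristic polynomial
`1 + X + ... + X ^ r` (`charpoly_eq_of_orbit`, `umtOp_orbit_indep`), which is separable mod `p`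
(`eigen_mod_proportional`).
-/

set_option autoImplicit false

noncomputable section

open NumberField Polynomial Module NumberField.Units NumberField.InfinitePlace
open scoped Classical

namespace FLTAgent.Thaine

/-- Integral linear algebra: if `P` has simple roots mod `p`, eigenvectors mod `p` are
proportional. -/
theorem eigen_mod_proportional {p : ℕ} [Fact p.Prime] {M : Type*} [AddCommGroup M] {ι : Type*}
    [Fintype ι] [DecidableEq ι] (b : Basis ι ℤ M) (T : M →ₗ[ℤ] M)
    (hsep : (T.toMatrix b b).charpoly.map (Int.castRingHom (ZMod p)) |>.Separable) (l : ℤ)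
    {x y : M} (hx : ∃ z, T x - l • x = (p : ℤ) • z) (hy : ∃ z, T y - l • y = (p : ℤ) • z)
    (hy0 : ¬ ∃ z, y = (p : ℤ) • z) :
    ∃ (k : ℕ) (z : M), x = (k : ℤ) • y + (p : ℤ) • z := by
  set N : Matrix ι ι (ZMod p) := (T.toMatrix b b).map (Int.castRingHom (ZMod p))
  let r : M → ι → ZMod p := fun v i => (b.repr v i : ZMod p)
  have hr : ∀ v, r v = 0 ↔ ∃ z, v = (p : ℤ) • z := by
    intro v
    constructor
    · intro h
      have hd : ∀ i, (p : ℤ) ∣ b.repr v i := fun i =>
        (ZMod.intCast_zmod_eq_zero_iff_dvd _ _).1 (congrFun h i)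
      choose q hq using hd
      refine ⟨∑ i, q i • b i, ?_⟩
      rw [Finset.smul_sum]
      conv_lhs => rw [← b.sum_repr v]
      exact Finset.sum_congr rfl fun i _ => by rw [hq i, mul_smul]
    · rintro ⟨z, rfl⟩
      funext i
      simp [r]
  have hT : ∀ v, N.mulVec (r v) = r (T v) := by
    intro v
    funext i
    have := congrFun (LinearMap.toMatrix_mulVec_repr b b T v) i
    simp only [r, ← this, Matrix.mulVec, dotProduct, N, Matrix.map_apply]
    push_cast
    simp
  have hmem : ∀ v, (∃ z, T v - l • v = (p : ℤ) • z) →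
      r v ∈ Module.End.eigenspace (Matrix.toLin' N) (l : ZMod p) := by
    intro v hv
    rw [Module.End.mem_eigenspace_iff, Matrix.toLin'_apply, hT]
    have h := (hr _).2 hv
    funext i
    have := congrFun h i
    simpa [r, sub_eq_zero] using this
  set W := Module.End.eigenspace (Matrix.toLin' N) (l : ZMod p)
  have hdim : finrank (ZMod p) W ≤ 1 := by
    refine (LinearMap.finrank_eigenspace_le _ _).trans ?_
    rw [Matrix.charpoly_toLin']
    refine rootMultiplicity_le_one_of_separable ?_ _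
    rwa [show N = (T.toMatrix b b).map (Int.castRingHom (ZMod p)) from rfl, Matrix.charpoly_map]
  have hy1 : (⟨r y, hmem y hy⟩ : W) ≠ 0 := fun h => hy0 ((hr y).1 (congrArg Subtype.val h))
  obtain ⟨c, hc⟩ := exists_smul_eq_of_finrank_eq_one (le_antisymm hdim
    (Nat.one_le_iff_ne_zero.2 fun h => hy1 (by
      have := Module.finrank_zero_iff.1 h
      exact Subsingleton.elim _ _))) hy1 (⟨r x, hmem x hx⟩ : W)
  refine ⟨c.val, ?_⟩
  have : r (x - (c.val : ℤ) • y) = 0 := by
    funext i
    have hi : c * r y i = r x i := congrFun (congrArg Subtype.val hc) i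
    show ((b.repr (x - (c.val : ℤ) • y) i : ℤ) : ZMod p) = 0
    rw [map_sub, map_zsmul, Finsupp.sub_apply, Finsupp.smul_apply, smul_eq_mul, Int.cast_sub,
      Int.cast_mul, Int.cast_natCast, ZMod.natCast_val, ZMod.cast_id, sub_eq_zero]
    exact hi.symm
  obtain ⟨z, hz⟩ := (hr _).1 this
  exact ⟨z, by rw [← hz]; abel⟩

/-- A monic polynomial of the same degree killing an independent orbit is the characteristic
polynomial. -/
theorem charpoly_eq_of_orbit {R M : Type*} [CommRing R] [Nontrivial R] [AddCommGroup M]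
    [Module R M] [Module.Free R M] [Module.Finite R M] (T : M →ₗ[R] M) (P : R[X]) (hP : P.Monic)
    (v : M) (hdeg : P.natDegree = finrank R M) (hv : aeval T P v = 0)
    (hind : ∀ c : Fin (finrank R M) → R, ∑ i, c i • (T ^ (i : ℕ)) v = 0 → c = 0) :
    T.charpoly = P := by
  set D := T.charpoly - P with hD
  have hcdeg : T.charpoly.natDegree = finrank R M := LinearMap.charpoly_natDegree _
  have hlt : D.degree < finrank R M := by
    have h1 : T.charpoly.degree = P.degree := by
      rw [degree_eq_natDegree (LinearMap.charpoly_monic T).ne_zero,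
        degree_eq_natDegree hP.ne_zero, hcdeg, hdeg]
    calc D.degree < T.charpoly.degree :=
          degree_sub_lt_left h1 (LinearMap.charpoly_monic T).ne_zero
            ((LinearMap.charpoly_monic T).trans hP.symm)
      _ = _ := by rw [degree_eq_natDegree (LinearMap.charpoly_monic T).ne_zero, hcdeg]
  have hDv : aeval T D v = 0 := by
    rw [hD, map_sub, LinearMap.sub_apply, LinearMap.aeval_self_charpoly, hv]; simp
  have := hind (fun i => D.coeff i) (by
    rw [← hDv, aeval_endomorphism]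
    rcases eq_or_ne D 0 with h | h
    · simp [h]
    · rw [sum_over_range' D (fun n => by simp) (finrank R M) ((natDegree_lt_iff_degree_lt h).2 hlt),
        Finset.sum_range])
  rw [← sub_eq_zero, ← hD]
  ext n
  rcases lt_or_ge n (finrank R M) with h | h
  · simpa using congrFun this ⟨n, h⟩
  · exact coeff_eq_zero_of_degree_lt (lt_of_lt_of_le hlt (by exact_mod_cast h))

variable {K : Type*} [Field K] [NumberField K]

/-- The units modulo torsion, written additively. -/
abbrev UnitsModTors (K : Type*) [Field K] [NumberField K] : Type _ :=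
  Additive ((𝓞 K)ˣ ⧸ torsion K)

instance instAddCommGroupUnitsModTors : AddCommGroup (UnitsModTors K) :=
  @Additive.addCommGroup _ (QuotientGroup.Quotient.commGroup (torsion K))

/-- Mathlib's basis of the units modulo torsion. -/
def umtBasis (K : Type*) [Field K] [NumberField K] :
    Basis (Fin (rank K)) ℤ (UnitsModTors K) := basisModTorsion K

/-- The weighted logarithm of a unit at a place. -/
def placeLog (u : (𝓞 K)ˣ) (w : InfinitePlace K) : ℝ := w.mult * Real.log (w (u : K))

theorem placeLog_mul (u v : (𝓞 K)ˣ) (w : InfinitePlace K) :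
    placeLog (u * v) w = placeLog u w + placeLog v w := by
  simp only [placeLog, Units.val_mul, map_mul]
  rw [Real.log_mul (by simp) (by simp), mul_add]

theorem placeLog_one (w : InfinitePlace K) : placeLog (1 : (𝓞 K)ˣ) w = 0 := by
  simp [placeLog]

theorem placeLog_prod {ι : Type*} (s : Finset ι) (f : ι → (𝓞 K)ˣ) (w : InfinitePlace K) :
    placeLog (∏ i ∈ s, f i) w = ∑ i ∈ s, placeLog (f i) w := by
  induction s using Finset.induction with
  | empty => simp [placeLog_one]
  | insert a s ha ih => rw [Finset.prod_insert ha, Finset.sum_insert ha, placeLog_mul, ih]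

theorem placeLog_zpow (u : (𝓞 K)ˣ) (k : ℤ) (w : InfinitePlace K) :
    placeLog (u ^ k) w = k * placeLog u w :=
  (map_zsmul (AddMonoidHom.mk' (fun a : Additive (𝓞 K)ˣ => placeLog a.toMul w)
    (fun _ _ => placeLog_mul _ _ _)) k (Additive.ofMul u)).trans (zsmul_eq_mul _ _)

theorem placeLog_smul (σ : Gal(K/ℚ)) (u : (𝓞 K)ˣ) (w : InfinitePlace K) :
    placeLog (Units.map (MulSemiringAction.toRingHom Gal(K/ℚ) (𝓞 K) σ).toMonoidHom u) w =
      placeLog u (σ⁻¹ • w) := by
  have hm : (σ⁻¹ • w).mult = w.mult := by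
    unfold InfinitePlace.mult
    simp only [isReal_smul_iff]
  rw [placeLog, placeLog, hm, InfinitePlace.smul_apply]
  rfl

theorem mem_torsion_iff_placeLog {u : (𝓞 K)ˣ} :
    u ∈ torsion K ↔ ∀ w, placeLog u w = 0 := by
  rw [NumberField.Units.mem_torsion]
  refine forall_congr' fun w => ?_
  rw [placeLog, mul_eq_zero, or_iff_right (by exact_mod_cast mult_ne_zero)]
  constructor
  · intro h; rw [h, Real.log_one]
  · intro h
    have hpos : 0 < w (u : K) := pos_iff.2 (coe_ne_zero u)
    rw [← Real.exp_log hpos, h, Real.exp_zero]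

section Orbit

variable {G W : Type*} [Group G] [Finite G] [MulAction G W] [Fintype W] (τ : G) (w₁ : W)

/-- A single orbit of a finite cyclic group. -/
theorem orbit_index (horb : ∀ w, ∃ j : ℕ, τ ^ j • w₁ = w) :
    Function.Bijective (fun i : Fin (Fintype.card W) => τ ^ (i : ℕ) • w₁) ∧
      ∀ j : ℕ, τ ^ j • w₁ = τ ^ (j % Fintype.card W) • w₁ := by
  set m := Function.minimalPeriod (τ • ·) w₁ with hm
  have hm0 : 0 < m := by
    refine Function.IsPeriodicPt.minimalPeriod_pos (orderOf_pos τ) ?_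
    show (τ • ·)^[orderOf τ] w₁ = w₁
    rw [smul_iterate, pow_orderOf_eq_one]
    exact one_smul _ w₁
  have hmod : ∀ j : ℕ, τ ^ j • w₁ = τ ^ (j % m) • w₁ := fun j => by
    conv_lhs => rw [← Nat.mod_add_div j m, pow_add, mul_smul]
    congr 1
    exact MulAction.pow_smul_eq_iff_minimalPeriod_dvd.2 (dvd_mul_right _ _)
  have he : Function.Bijective (fun i : Fin m => τ ^ (i : ℕ) • w₁) := by
    refine ⟨fun i j hij => ?_, fun w => ?_⟩
    · ext
      refine Function.iterate_injOn_Iio_minimalPeriod (f := (τ • ·)) (x := w₁) i.2 j.2 ?_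
      simpa only [smul_iterate] using hij
    · obtain ⟨j, rfl⟩ := horb w
      exact ⟨⟨j % m, Nat.mod_lt _ hm0⟩, (hmod j).symm⟩
  have hcard : Fintype.card W = m := by rw [← Fintype.card_of_bijective he, Fintype.card_fin]
  rw [hcard]
  exact ⟨he, hmod⟩

theorem sum_orbit (horb : ∀ w, ∃ j : ℕ, τ ^ j • w₁ = w) (f : W → ℝ) (j : ℕ) :
    ∑ i : Fin (Fintype.card W), f (τ ^ (i : ℕ) • τ ^ j • w₁) = ∑ w, f w := by
  refine Fintype.sum_bijective
    (fun i : Fin (Fintype.card W) => τ ^ (i : ℕ) • τ ^ j • w₁) ?_ _ _ (fun i => rfl)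
  have : (fun i : Fin (Fintype.card W) => τ ^ (i : ℕ) • τ ^ j • w₁) =
      (fun w => τ ^ j • w) ∘ (fun i : Fin (Fintype.card W) => τ ^ (i : ℕ) • w₁) := by
    funext i
    simp only [Function.comp, ← mul_smul, ← pow_add, add_comm]
  rw [this]
  exact (MulAction.bijective (τ ^ j)).comp (orbit_index τ w₁ horb).1

/-- Translates of a function which is negative away from one point and has sum zero satisfy only
the constant relation. -/
theorem circulant_const (horb : ∀ w, ∃ j : ℕ, τ ^ j • w₁ = w) (f : W → ℝ)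
    (hsum : ∑ w, f w = 0) (hneg : ∀ w, w ≠ w₁ → f w < 0) (a : Fin (Fintype.card W) → ℝ)
    (hrel : ∀ w, ∑ i, a i * f (τ ^ (i : ℕ) • w) = 0) (i j : Fin (Fintype.card W)) :
    a i = a j := by
  have : Nonempty (Fin (Fintype.card W)) := ⟨i⟩
  obtain ⟨he, hmod⟩ := orbit_index τ w₁ horb
  obtain ⟨i₀, hi₀⟩ := Finite.exists_max a
  have key := hrel (τ ^ (Fintype.card W - i₀) • w₁)
  have hf := (sum_orbit τ w₁ horb f (Fintype.card W - i₀)).trans hsum
  have hzero : ∑ k : Fin (Fintype.card W),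
      (a k - a i₀) * f (τ ^ (k : ℕ) • τ ^ (Fintype.card W - i₀) • w₁) = 0 := by
    simp only [sub_mul, Finset.sum_sub_distrib, ← Finset.mul_sum, hf, key, mul_zero, sub_zero]
  have hn : ∀ k : Fin (Fintype.card W), k ≠ i₀ →
      f (τ ^ (k : ℕ) • τ ^ (Fintype.card W - i₀) • w₁) < 0 := by
    intro k hk
    refine hneg _ fun h => hk ?_
    rw [← mul_smul, ← pow_add, hmod] at h
    have hpos : 0 < Fintype.card W := Fin.pos k
    have h0 : ((k : ℕ) + (Fintype.card W - i₀)) % Fintype.card W = 0 := by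
      have := @he.1 ⟨_, Nat.mod_lt _ hpos⟩ ⟨0, hpos⟩ (by simpa using h)
      exact Fin.mk.inj_iff.1 this
    obtain ⟨q, hq⟩ := Nat.dvd_of_mod_eq_zero h0
    have h1 := k.2
    have h2 := i₀.2
    have : q = 1 := by
      rcases q with _ | _ | q
      · omega
      · rfl
      · have : Fintype.card W * 2 ≤ Fintype.card W * (q + 1 + 1) :=
          Nat.mul_le_mul_left _ (by omega)
        omega
    subst this
    exact Fin.ext (by omega)
  have hall : ∀ k, a k = a i₀ := by
    intro k
    rcases eq_or_ne k i₀ with rfl | hk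
    · rfl
    have hz := (Finset.sum_eq_zero_iff_of_nonneg (fun l _ => ?_)).1 hzero k (Finset.mem_univ _)
    · rcases mul_eq_zero.1 hz with h | h
      · linarith
      · exact absurd h (hn k hk).ne
    · rcases eq_or_ne l i₀ with rfl | hl
      · simp
      · exact mul_nonneg_of_nonpos_of_nonpos (by linarith [hi₀ l]) (hn l hl).le
  rw [hall i, hall j]

end Orbit

/-- The class of a unit modulo torsion. -/
def mkU (x : (𝓞 K)ˣ) : UnitsModTors K := Additive.ofMul (QuotientGroup.mk x)

theorem mkU_mul (x y : (𝓞 K)ˣ) : mkU (x * y) = mkU x + mkU y := rfl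

theorem mkU_one : mkU (1 : (𝓞 K)ˣ) = 0 := rfl

theorem mkU_surjective (a : UnitsModTors K) : ∃ x, mkU x = a := by
  obtain ⟨x, hx⟩ := QuotientGroup.mk_surjective (Additive.toMul a)
  exact ⟨x, by simp only [mkU, hx]; rfl⟩

theorem mkU_eq_zero {x : (𝓞 K)ˣ} : mkU x = 0 ↔ x ∈ torsion K := QuotientGroup.eq_one_iff x

theorem mkU_pow (x : (𝓞 K)ˣ) (n : ℕ) : mkU (x ^ n) = (n : ℤ) • mkU x := by
  induction n with
  | zero => simp [mkU_one]
  | succ n ih => rw [pow_succ, mkU_mul, ih, Nat.cast_succ, add_smul, one_smul]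

theorem mkU_zpow (x : (𝓞 K)ˣ) (k : ℤ) : mkU (x ^ k) = k • mkU x := by
  rcases Int.eq_nat_or_neg k with ⟨n, rfl | rfl⟩
  · rw [zpow_natCast, mkU_pow]
  · have : mkU ((x ^ n)⁻¹) + mkU (x ^ n) = 0 := by rw [← mkU_mul, inv_mul_cancel, mkU_one]
    rw [zpow_neg, zpow_natCast, neg_smul, ← mkU_pow]
    exact eq_neg_of_add_eq_zero_left this

theorem mkU_prod {ι : Type*} (t : Finset ι) (f : ι → (𝓞 K)ˣ) :
    mkU (∏ i ∈ t, f i) = ∑ i ∈ t, mkU (f i) := by
  induction t using Finset.induction with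
  | empty => simp [mkU_one]
  | insert a t ha ih => rw [Finset.sum_insert ha, Finset.prod_insert ha, mkU_mul, ih]

/-- The automorphism of the units induced by a field automorphism. -/
def unitsAut (σ : Gal(K/ℚ)) : (𝓞 K)ˣ →* (𝓞 K)ˣ :=
  Units.map (MulSemiringAction.toRingHom Gal(K/ℚ) (𝓞 K) σ).toMonoidHom

theorem torsion_le_comap (σ : Gal(K/ℚ)) : torsion K ≤ (torsion K).comap (unitsAut σ) :=
  fun x hx => by
    rw [Subgroup.mem_comap, mem_torsion_iff_placeLog]
    intro w
    rw [unitsAut, placeLog_smul]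
    exact mem_torsion_iff_placeLog.1 hx _

/-- The induced operator on units modulo torsion. -/
def umtOp (σ : Gal(K/ℚ)) : UnitsModTors K →ₗ[ℤ] UnitsModTors K :=
  (MonoidHom.toAdditive
    (QuotientGroup.map (torsion K) (torsion K) (unitsAut σ) (torsion_le_comap σ))).toIntLinearMap

theorem umtOp_mkU (σ : Gal(K/ℚ)) (x : (𝓞 K)ˣ) : umtOp σ (mkU x) = mkU (unitsAut σ x) := rfl

theorem umtOp_pow_mkU (σ : Gal(K/ℚ)) (x : (𝓞 K)ˣ) (i : ℕ) :
    (umtOp σ ^ i) (mkU x) = mkU ((unitsAut σ)^[i] x) := by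
  induction i with
  | zero => simp
  | succ i ih => rw [pow_succ', Module.End.mul_apply, ih, umtOp_mkU, Function.iterate_succ_apply']

theorem placeLog_iterate (σ : Gal(K/ℚ)) (x : (𝓞 K)ˣ) (i : ℕ) (w : InfinitePlace K) :
    placeLog ((unitsAut σ)^[i] x) w = placeLog x (σ⁻¹ ^ i • w) := by
  induction i generalizing w with
  | zero => simp
  | succ i ih =>
    rw [Function.iterate_succ_apply', unitsAut, placeLog_smul, ← unitsAut, ih, ← mul_smul,
      ← pow_succ]

theorem umtOp_geomSum [IsGalois ℚ K] (σ : Gal(K/ℚ)) (w₁ : InfinitePlace K)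
    (horb : ∀ w, ∃ j : ℕ, σ⁻¹ ^ j • w₁ = w) (a : UnitsModTors K) :
    aeval (umtOp σ) (∑ i ∈ Finset.range (Fintype.card (InfinitePlace K)), (X : ℤ[X]) ^ i) a
      = 0 := by
  obtain ⟨x, rfl⟩ := mkU_surjective a
  simp only [map_sum, map_pow, aeval_X, LinearMap.sum_apply, umtOp_pow_mkU, ← mkU_prod]
  rw [mkU_eq_zero, mem_torsion_iff_placeLog]
  intro w
  obtain ⟨j, rfl⟩ := horb w
  simp only [placeLog_prod, placeLog_iterate]
  rw [Finset.sum_range, sum_orbit σ⁻¹ w₁ horb (placeLog x) j]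
  exact sum_mult_mul_log x

theorem umtBasis_finrank :
    finrank ℤ (UnitsModTors K) = Fintype.card (InfinitePlace K) - 1 := by
  rw [Module.finrank_eq_card_basis (umtBasis K), Fintype.card_fin]
  rfl

theorem umtOp_orbit_indep (σ : Gal(K/ℚ)) (w₁ : InfinitePlace K)
    (horb : ∀ w, ∃ j : ℕ, σ⁻¹ ^ j • w₁ = w) (v : (𝓞 K)ˣ)
    (hv : ∀ w, w ≠ w₁ → Real.log (w (v : K)) < 0)
    (a : Fin (finrank ℤ (UnitsModTors K)) → ℤ)
    (ha : ∑ i, a i • (umtOp σ ^ (i : ℕ)) (mkU v) = 0) : a = 0 := by
  simp only [umtOp_pow_mkU, ← mkU_zpow, ← mkU_prod] at ha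
  rw [mkU_eq_zero, mem_torsion_iff_placeLog] at ha
  simp only [placeLog_prod, placeLog_zpow, placeLog_iterate] at ha
  have hr := umtBasis_finrank (K := K)
  have hpos : 0 < Fintype.card (InfinitePlace K) := Fintype.card_pos
  let a' : Fin (Fintype.card (InfinitePlace K)) → ℝ := fun i =>
    if h : (i : ℕ) < finrank ℤ (UnitsModTors K) then (a ⟨i, h⟩ : ℝ) else 0
  have hrel : ∀ w, ∑ i, a' i * placeLog v (σ⁻¹ ^ (i : ℕ) • w) = 0 := by
    intro w
    rw [← ha w]
    symm
    refine Finset.sum_of_injOn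
      (fun i => (⟨i, by have := i.2; omega⟩ : Fin (Fintype.card (InfinitePlace K))))
      (fun i _ j _ h => Fin.ext (Fin.mk.inj_iff.1 h)) (fun i _ => Finset.mem_univ _)
      (fun i _ hi => ?_) (fun i _ => ?_)
    · have : ¬ (i : ℕ) < finrank ℤ (UnitsModTors K) := fun h =>
        hi ⟨⟨i, h⟩, Finset.mem_univ _, rfl⟩
      simp [a', dif_neg this]
    · simp [a', i.2]
  have hneg : ∀ w, w ≠ w₁ → placeLog v w < 0 := fun w hw =>
    mul_neg_of_pos_of_neg (by exact_mod_cast mult_pos) (hv w hw)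
  funext i
  have := circulant_const σ⁻¹ w₁ horb (placeLog v) (sum_mult_mul_log v) hneg a' hrel
    ⟨i, by have := i.2; omega⟩ ⟨Fintype.card (InfinitePlace K) - 1, by omega⟩
  simpa [a', hr, show (i : ℕ) < Fintype.card (InfinitePlace K) - 1 from by have := i.2; omega] using this

/-- Eigenunits are proportional modulo torsion and `p`-th powers. -/
theorem unit_eigen_proportional [IsGalois ℚ K] {p : ℕ} [Fact p.Prime]
    (hdeg : finrank ℚ K < p) (σ : Gal(K/ℚ)) (hσ : ∀ τ, τ ∈ Subgroup.zpowers σ) (l : ℕ)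
    (u c : (𝓞 K)ˣ) (hu : ∃ w, unitsAut σ u = u ^ l * w ^ p)
    (hc : ∃ w, unitsAut σ c = c ^ l * w ^ p)
    (hc' : ¬ ∃ η ∈ torsion K, ∃ w, c = η * w ^ p) :
    ∃ k : ℕ, ∃ η ∈ torsion K, ∃ w, u = η * c ^ k * w ^ p := by
  obtain ⟨w₁⟩ := (inferInstance : Nonempty (InfinitePlace K))
  have horb : ∀ w : InfinitePlace K, ∃ j : ℕ, σ⁻¹ ^ j • w₁ = w := fun w => by
    obtain ⟨g, hg⟩ := InfinitePlace.exists_smul_eq_of_comap_eq
      (w := w₁) (w' := w) (k := ℚ) (Subsingleton.elim _ _)
    obtain ⟨j, hj⟩ : g ∈ Submonoid.powers σ⁻¹ :=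
      (isOfFinOrder_of_finite σ⁻¹).mem_powers_iff_mem_zpowers.2 (by
        rw [Subgroup.zpowers_inv]; exact hσ g)
    refine ⟨j, ?_⟩
    rw [← hg, ← hj]
  set m := Fintype.card (InfinitePlace K) with hm
  have hm0 : 0 < m := Fintype.card_pos
  have hmp : m < p := by
    refine lt_of_le_of_lt ?_ hdeg
    rw [hm, card_eq_nrRealPlaces_add_nrComplexPlaces, ← card_add_two_mul_card_eq_rank K]
    omega
  have : Module.Free ℤ (UnitsModTors K) := Module.Free.of_basis (umtBasis K)
  have : Module.Finite ℤ (UnitsModTors K) := Module.Finite.of_basis (umtBasis K)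
  obtain ⟨v, hv⟩ := NumberField.Units.dirichletUnitTheorem.exists_unit K w₁
  set Pm : ℤ[X] := ∑ i ∈ Finset.range m, X ^ i
  have hPm : Pm * (X - C 1) = X ^ m - C 1 := by
    simp only [Pm, map_one, geom_sum_mul]
  have hchar : (umtOp σ).charpoly = Pm := by
    refine charpoly_eq_of_orbit (umtOp σ) Pm (monic_geom_sum_X hm0.ne') (mkU v) ?_
      (umtOp_geomSum σ w₁ horb _) (umtOp_orbit_indep σ w₁ horb v hv)
    rw [umtBasis_finrank]
    have h2 := congrArg natDegree hPm
    rw [natDegree_mul (monic_geom_sum_X hm0.ne').ne_zero (X_sub_C_ne_zero 1), natDegree_X_sub_C,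
      natDegree_X_pow_sub_C] at h2
    exact Nat.eq_sub_of_add_eq h2
  have hsep : (((umtOp σ).toMatrix (umtBasis K) (umtBasis K)).charpoly.map
      (Int.castRingHom (ZMod p))).Separable := by
    rw [LinearMap.charpoly_toMatrix, hchar]
    refine Separable.of_dvd (f := X ^ m - C 1) (separable_X_pow_sub_C 1 ?_ one_ne_zero) ?_
    · rw [Ne, ZMod.natCast_eq_zero_iff m p]
      exact fun h => absurd (Nat.le_of_dvd hm0 h) (not_le.2 hmp)
    · refine ⟨X - C 1, ?_⟩
      simp only [Pm, Polynomial.map_sum, Polynomial.map_pow, map_X, map_one, geom_sum_mul]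
  have heig : ∀ x : (𝓞 K)ˣ, (∃ w, unitsAut σ x = x ^ l * w ^ p) →
      ∃ z, umtOp σ (mkU x) - (l : ℤ) • mkU x = (p : ℤ) • z := by
    rintro x ⟨w, hw⟩
    exact ⟨mkU w, by rw [umtOp_mkU, hw, mkU_mul, mkU_pow, mkU_pow, add_sub_cancel_left]⟩
  obtain ⟨k, z, hz⟩ := eigen_mod_proportional (umtBasis K) (umtOp σ) hsep l (heig u hu)
    (heig c hc) (by
      rintro ⟨z, hz⟩
      obtain ⟨w, rfl⟩ := mkU_surjective z
      rw [← mkU_pow] at hz
      refine hc' ⟨c * (w ^ p)⁻¹, ?_, w, by simp⟩
      exact (QuotientGroup.eq_one_iff _).1 (by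
        rw [QuotientGroup.mk_mul, QuotientGroup.mk_inv]
        exact mul_inv_eq_one.2 hz))
  obtain ⟨w, rfl⟩ := mkU_surjective z
  rw [← mkU_pow, ← mkU_pow, ← mkU_mul] at hz
  refine ⟨k, u * (c ^ k * w ^ p)⁻¹, ?_, w, by
    rw [mul_assoc (u * _), mul_assoc, inv_mul_cancel, mul_one]⟩
  exact (QuotientGroup.eq_one_iff _).1 (by
    rw [QuotientGroup.mk_mul, QuotientGroup.mk_inv]
    exact mul_inv_eq_one.2 hz)

end FLTAgent.Thaine
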