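import Fermat.Agent.Thaine.Split
import Fermat.Agent.Thaine.Units

/-!
# No singular elements in the eigenspace of the square of the cyclotomic character

`eigen_class_eq_one`: a class of `ℚ(μ_p)` killed by `p` on which `sg a` acts by `a ^ 2` is trivial
(a character detecting it is killed by `classChar_eq_one`; for `p = 3` the class group is trivial).
`no_singular`: an element `α` prime to `p` with `(α)` a `p`-th power, in that eigenspace modulo
`p`-th powers and congruent to a `p`-th power modulo `piK ^ 3`, is a `p`-th power: its unit part is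
a power of the cyclotomic unit by `unit_eigen_proportional`, and `qK` kills the exponent.
-/

set_option autoImplicit false

noncomputable section

open NumberField IsDedekindDomain
open scoped Classical Pointwise

namespace FLTAgent.Thaine

variable {p : ℕ} [hp : Fact p.Prime] {K : Type} [Field K] [NumberField K]
  [IsCyclotomicExtension {p} ℚ K]

omit [IsCyclotomicExtension {p} ℚ K] in
theorem smul_ideal_eq_map (σ : Gal(K/ℚ)) (I : Ideal (𝓞 K)) :
    σ • I = Ideal.map (MulSemiringAction.toRingHom Gal(K/ℚ) (𝓞 K) σ) I :=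
  Ideal.pointwise_smul_def I

omit [IsCyclotomicExtension {p} ℚ K] in
theorem smul_ideal_mul (σ : Gal(K/ℚ)) (I J : Ideal (𝓞 K)) : σ • (I * J) = σ • I * σ • J := by
  simp only [smul_ideal_eq_map, Ideal.map_mul]

omit [IsCyclotomicExtension {p} ℚ K] in
theorem smul_ideal_span (σ : Gal(K/ℚ)) (x : 𝓞 K) :
    σ • Ideal.span ({x} : Set (𝓞 K)) = Ideal.span {σ • x} := by
  rw [smul_ideal_eq_map, Ideal.map_span, Set.image_singleton]
  rfl

omit [IsCyclotomicExtension {p} ℚ K] in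
theorem smul_ideal_ne_bot (σ : Gal(K/ℚ)) {I : Ideal (𝓞 K)} (hI : I ≠ ⊥) : σ • I ≠ ⊥ := fun h =>
  hI (by rw [← inv_smul_smul σ I, h, smul_ideal_eq_map, Ideal.map_bot])

omit [IsCyclotomicExtension {p} ℚ K] in
theorem cls_span {x : 𝓞 K} (hx : x ≠ 0) : cls (Ideal.span ({x} : Set (𝓞 K))) = 1 :=
  (cls_eq_one_iff (by simpa using hx)).2 ⟨⟨x, rfl⟩⟩

omit [IsCyclotomicExtension {p} ℚ K] in
theorem cls_smul_congr (σ : Gal(K/ℚ)) {I J : Ideal (𝓞 K)} (hI : I ≠ ⊥) (hJ : J ≠ ⊥)
    (h : cls I = cls J) : cls (σ • I) = cls (σ • J) := by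
  rw [cls, cls, dif_pos hI, dif_pos hJ, ClassGroup.mk0_eq_mk0_iff] at h
  obtain ⟨x, y, hx, hy, hxy⟩ := h
  have h2 := congrArg (fun A => cls (σ • A)) hxy
  have hσx : σ • x ≠ 0 := (smul_ne_zero_iff_ne σ).2 hx
  have hσy : σ • y ≠ 0 := (smul_ne_zero_iff_ne σ).2 hy
  simp only [smul_ideal_mul, smul_ideal_span] at h2
  rwa [cls_mul (by simpa using hσx) (smul_ideal_ne_bot σ hI),
    cls_mul (by simpa using hσy) (smul_ideal_ne_bot σ hJ), cls_span hσx, cls_span hσy, one_mul,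
    one_mul] at h2

/-- The action of an automorphism on the class group. -/
def actC (σ : Gal(K/ℚ)) : ClassGroup (𝓞 K) →* ClassGroup (𝓞 K) :=
  MonoidHom.mk' (fun C => cls (σ • (exists_cls_eq C).choose)) fun A B => by
    obtain ⟨hA, hA'⟩ := (exists_cls_eq A).choose_spec
    obtain ⟨hB, hB'⟩ := (exists_cls_eq B).choose_spec
    obtain ⟨hAB, hAB'⟩ := (exists_cls_eq (A * B)).choose_spec
    rw [← cls_mul (smul_ideal_ne_bot σ hA) (smul_ideal_ne_bot σ hB), ← smul_ideal_mul]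
    exact cls_smul_congr σ hAB (mul_ne_zero hA hB) (by rw [hAB', cls_mul hA hB, hA', hB'])

omit [IsCyclotomicExtension {p} ℚ K] in
theorem actC_cls (σ : Gal(K/ℚ)) {I : Ideal (𝓞 K)} (hI : I ≠ ⊥) :
    actC σ (cls I) = cls (σ • I) := by
  obtain ⟨hA, hA'⟩ := (exists_cls_eq (cls I)).choose_spec
  exact cls_smul_congr σ hA hI hA'

omit [IsCyclotomicExtension {p} ℚ K] in
theorem actC_actC (σ τ : Gal(K/ℚ)) (C : ClassGroup (𝓞 K)) :
    actC σ (actC τ C) = actC (σ * τ) C := by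
  obtain ⟨I, hI, rfl⟩ := exists_cls_eq C
  rw [actC_cls τ hI, actC_cls σ (smul_ideal_ne_bot τ hI), actC_cls _ hI, mul_smul]

theorem pow_congr_of_pow_eq_one {M : Type*} [Monoid M] {x : M} {n : ℕ} (hx : x ^ n = 1) {a b : ℕ}
    (h : (a : ZMod n) = b) : x ^ a = x ^ b := by
  rw [pow_eq_pow_mod a hx, pow_eq_pow_mod b hx, ← ZMod.val_natCast n a, ← ZMod.val_natCast n b, h]

/-- A class in the eigenspace yields a character in the eigenspace. -/
theorem exists_eigenChar (x₀ : ClassGroup (𝓞 K)) (hx : x₀ ^ p = 1) (hx1 : x₀ ≠ 1)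
    (heig : ∀ a : (ZMod p)ˣ, actC (sg p K a) x₀ = x₀ ^ (a : ZMod p).val ^ 2) :
    ∃ χ : ClassGroup (𝓞 K) →* ℂ, χ ≠ 1 ∧ (∀ C, χ C ^ p = 1) ∧
      ∀ (a : (ZMod p)ˣ) C, χ (actC (sg p K a) C) = χ C ^ (a : ZMod p).val ^ 2 := by
  set N := Fintype.card (ClassGroup (𝓞 K)) with hN
  obtain ⟨k, m, hm, hNm⟩ :=
    Nat.exists_eq_pow_mul_and_not_dvd (Fintype.card_ne_zero : N ≠ 0) p hp.out.ne_one
  set T : (ZMod p)ˣ → ℕ := fun a => (a : ZMod p).val ^ (2 * p ^ k) with hT
  have hTp : ∀ a, (T a : ZMod p) = (a : ZMod p) ^ 2 := by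
    intro a
    simp only [hT, Nat.cast_pow, ZMod.natCast_val, ZMod.cast_id', id, pow_mul, ZMod.pow_card_pow]
  have hTmul : ∀ a b, (T (a * b) : ZMod (p ^ k)) = (T a * T b : ℕ) := by
    intro a b
    rw [ZMod.natCast_eq_natCast_iff, Nat.modEq_iff_dvd]
    have h0 : ((p : ℤ)) ∣ ((((a : ZMod p).val * (b : ZMod p).val) ^ 2 : ℕ) : ℤ) -
        ((((a * b : (ZMod p)ˣ) : ZMod p).val ^ 2 : ℕ) : ℤ) := by
      rw [← ZMod.intCast_zmod_eq_zero_iff_dvd]
      push_cast
      simp only [ZMod.natCast_val, ZMod.cast_id', id, sub_self]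
    have h1 := dvd_sub_pow_of_dvd_sub h0 k
    refine (dvd_trans ?_ h1).trans (dvd_of_eq ?_)
    · rw [Nat.cast_pow]; exact pow_dvd_pow _ (Nat.le_succ k)
    · simp only [hT]; push_cast; ring
  let E : ClassGroup (𝓞 K) →* ClassGroup (𝓞 K) :=
    MonoidHom.mk' (fun C => ∏ a : (ZMod p)ˣ, actC (sg p K a) (C ^ m) ^ T a⁻¹) fun A B => by
      simp only [mul_pow, map_mul, Finset.prod_mul_distrib]
  have hkill : ∀ C : ClassGroup (𝓞 K), (C ^ m) ^ p ^ k = 1 := fun C => by
    rw [← pow_mul, mul_comm, ← hNm]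
    exact pow_card_eq_one
  have hEk : ∀ C, E C ^ p ^ k = 1 := fun C => by
    show (∏ a : (ZMod p)ˣ, actC (sg p K a) (C ^ m) ^ T a⁻¹) ^ p ^ k = 1
    rw [← Finset.prod_pow]
    refine Finset.prod_eq_one fun a _ => ?_
    rw [← pow_mul, mul_comm, pow_mul, ← map_pow, hkill, map_one, one_pow]
  have hEeq : ∀ b C, E (actC (sg p K b) C) = E C ^ T b := by
    intro b C
    show ∏ a : (ZMod p)ˣ, actC (sg p K a) (actC (sg p K b) C ^ m) ^ T a⁻¹ =
      (∏ a : (ZMod p)ˣ, actC (sg p K a) (C ^ m) ^ T a⁻¹) ^ T b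
    rw [← Finset.prod_pow]
    refine Fintype.prod_equiv (Equiv.mulRight b) _ _ fun a => ?_
    rw [← map_pow (actC (sg p K b)), actC_actC, ← sg_mul, ← pow_mul]
    refine pow_congr_of_pow_eq_one (n := p ^ k) ?_ ?_
    · rw [← map_pow, hkill, map_one]
    · simp only [Equiv.coe_mulRight]
      rw [← hTmul, mul_inv_rev, mul_comm b⁻¹, mul_assoc, inv_mul_cancel, mul_one]
  -- the class does not die
  have hx0 : E x₀ ≠ 1 := by
    show (∏ a : (ZMod p)ˣ, actC (sg p K a) (x₀ ^ m) ^ T a⁻¹) ≠ 1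
    have : ∀ a : (ZMod p)ˣ, actC (sg p K a) (x₀ ^ m) ^ T a⁻¹ =
        x₀ ^ ((a : ZMod p).val ^ 2 * m * T a⁻¹) := fun a => by
      rw [map_pow, heig, ← pow_mul, ← pow_mul, mul_assoc]
    simp only [this, Finset.prod_pow_eq_pow_sum]
    intro h
    have h' := orderOf_dvd_of_pow_eq_one h
    rw [orderOf_eq_prime hx hx1, ← ZMod.natCast_eq_zero_iff] at h'
    push_cast at h'
    simp only [hTp, ZMod.natCast_val, ZMod.cast_id', id] at h'
    have h2 : ∀ a : (ZMod p)ˣ,
        (a : ZMod p) ^ 2 * (m : ZMod p) * ((a⁻¹ : (ZMod p)ˣ) : ZMod p) ^ 2 = m := fun a => by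
      rw [mul_comm ((a : ZMod p) ^ 2), mul_assoc, ← mul_pow, Units.mul_inv, one_pow, mul_one]
    rw [Finset.sum_congr rfl fun a _ => h2 a, Finset.sum_const, Finset.card_univ, ZMod.card_units,
      nsmul_eq_mul, Nat.cast_sub hp.out.one_le, ZMod.natCast_self, Nat.cast_one, zero_sub,
      neg_one_mul, neg_eq_zero, ZMod.natCast_eq_zero_iff] at h'
    exact hm h'
  obtain ⟨ψ, hψ⟩ :=
    CommGroup.exists_apply_ne_one_of_hasEnoughRootsOfUnity (ClassGroup (𝓞 K)) ℂ hx0
  set χ₀ : ClassGroup (𝓞 K) →* ℂ := ((Units.coeHom ℂ).comp ψ).comp E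
  have hχ₀ : χ₀ x₀ ≠ 1 := fun h => hψ (Units.ext h)
  have hex : ∃ j, ∀ C, χ₀ C ^ p ^ j = 1 := ⟨k, fun C => by
    show ((ψ (E C) : ℂˣ) : ℂ) ^ p ^ k = 1
    rw [← Units.val_pow_eq_pow_val, ← map_pow, hEk, map_one, Units.val_one]⟩
  have hj0 : Nat.find hex ≠ 0 := fun h0 => hχ₀ (by
    have := Nat.find_spec hex x₀
    rwa [h0, pow_zero, pow_one] at this)
  set j := Nat.find hex with hj
  set χ : ClassGroup (𝓞 K) →* ℂ := (powMonoidHom (p ^ (j - 1))).comp χ₀ with hχ
  have hχp : ∀ C, χ C ^ p = 1 := fun C => by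
    show (χ₀ C ^ p ^ (j - 1)) ^ p = 1
    rw [← pow_mul, ← pow_succ, Nat.sub_add_cancel (Nat.pos_of_ne_zero hj0)]
    exact Nat.find_spec hex C
  refine ⟨χ, fun h => ?_, hχp, fun a C => ?_⟩
  · refine Nat.find_min hex (m := j - 1) (by omega) fun C => ?_
    exact DFunLike.congr_fun h C
  · have h1 : χ (actC (sg p K a) C) = χ C ^ T a := by
      show χ₀ (actC (sg p K a) C) ^ _ = (χ₀ C ^ _) ^ T a
      rw [show χ₀ (actC (sg p K a) C) = χ₀ C ^ T a from by
        show ((ψ (E (actC (sg p K a) C)) : ℂˣ) : ℂ) = _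
        rw [hEeq, map_pow, Units.val_pow_eq_pow_val]; rfl, ← pow_mul, ← pow_mul, mul_comm]
    rw [h1]
    refine pow_congr_of_pow_eq_one (hχp C) ?_
    rw [hTp]; push_cast; simp

theorem exists_units_eq_of_pow {x : K} {u : (𝓞 K)ˣ} {n : ℕ} (hn : 0 < n)
    (hx : x ^ n = ((u : 𝓞 K) : K)) : ∃ w : (𝓞 K)ˣ, ((w : 𝓞 K) : K) = x ∧ w ^ n = u := by
  have hint : IsIntegral ℤ x := IsIntegral.of_pow hn (hx ▸ RingOfIntegers.isIntegral_coe _)
  let xi : 𝓞 K := ⟨x, hint⟩
  have hxi : xi ^ n = (u : 𝓞 K) := RingOfIntegers.ext hx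
  have hu : IsUnit xi := (isUnit_pow_iff hn.ne').1 (hxi ▸ u.isUnit)
  exact ⟨hu.unit, rfl, Units.ext hxi⟩

theorem cycUnit_not_pow (h5 : 5 ≤ p) (hp2 : p ≠ 2) (x : K) :
    x ^ p ≠ ((cycUnit p K hp2 : 𝓞 K) : K) := fun h => by
  obtain ⟨w, -, hw⟩ := exists_units_eq_of_pow hp.out.pos h
  exact cycUnit_not_torsion_mul_pow (K := K) h5 ⟨1, one_mem _, w, by rw [one_mul, hw]⟩

/-- A class killed by `p` and in the eigenspace of the square of the cyclotomic character is
trivial. -/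
theorem eigen_class_eq_one (h3 : 3 ≤ p) (x₀ : ClassGroup (𝓞 K)) (hx : x₀ ^ p = 1)
    (heig : ∀ a : (ZMod p)ˣ, actC (sg p K a) x₀ = x₀ ^ (a : ZMod p).val ^ 2) : x₀ = 1 := by
  rcases Nat.lt_or_ge p 5 with h | h5
  · have hp3 : p = 3 := by
      by_contra hne
      have h4 : p = 4 := by omega
      have := hp.out
      rw [h4] at this
      norm_num at this
    subst hp3
    have := IsCyclotomicExtension.Rat.three_pid K
    obtain ⟨I, hI, rfl⟩ := exists_cls_eq x₀
    exact (cls_eq_one_iff hI).2 inferInstance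
  · by_contra hx1
    obtain ⟨χ, hχ, hχp, hχeq⟩ := exists_eigenChar x₀ hx hx1 heig
    refine hχ (classChar_eq_one (p := p) (by omega) χ hχp (fun a v => ?_)
      (cycUnit_not_pow h5 _))
    show χ (cls (sg p K a • v.asIdeal)) = χ (cls v.asIdeal) ^ _
    rw [← actC_cls _ v.ne_bot, hχeq]

theorem zI_pow_eq_one_of_pow {j : ℕ} (hp2 : p ≠ 2) {x : K} (hx : x ^ p = zK p K ^ j) : p ∣ j := by
  have hodd : Odd p := hp.out.odd_of_ne_two hp2
  have hfin : IsOfFinOrder x := by
    refine isOfFinOrder_iff_pow_eq_one.2 ⟨p * p, Nat.mul_pos hp.out.pos hp.out.pos, ?_⟩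
    rw [pow_mul, hx, ← pow_mul, mul_comm, pow_mul, (zK_spec p K).pow_eq_one, one_pow]
  obtain ⟨r, -, hr⟩ := (zK_spec p K).exists_pow_or_neg_mul_pow_of_isOfFinOrder hodd hfin
  have hzr : (zK p K ^ r) ^ p = 1 := by
    rw [← pow_mul, mul_comm, pow_mul, (zK_spec p K).pow_eq_one, one_pow]
  have h2 : zK p K ^ (2 * j) = 1 := by
    rw [mul_comm, pow_mul, ← hx]
    rcases hr with rfl | rfl
    · rw [hzr, one_pow]
    · rw [neg_pow, hzr, mul_one, hodd.neg_one_pow, neg_one_sq]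
  have h3 := ((zK_spec p K).pow_eq_one_iff_dvd _).1 h2
  exact (Nat.Coprime.dvd_mul_left ((Nat.coprime_primes hp.out Nat.prime_two).2 hp2)).1 h3

/-- The main algebraic statement: there are no singular elements in the eigenspace of the square
of the cyclotomic character which are `p`-th powers locally at `p`. -/
theorem no_singular (h3 : 3 ≤ p) (α : 𝓞 K) (hα0 : α ≠ 0) (I : Ideal (𝓞 K))
    (hI : Ideal.span {α} = I ^ p)
    (heig : ∀ a : (ZMod p)ˣ, ∃ γ : K,
      sg p K a (α : K) = (α : K) ^ (a : ZMod p).val ^ 2 * γ ^ p)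
    (hπ : ¬ piK p K ∣ α) (hloc : ∃ y : 𝓞 K, piK p K ^ 3 ∣ α - y ^ p) :
    ∃ γ : K, γ ^ p = α := by
  have hp2 : p ≠ 2 := by omega
  have hI0 : I ≠ ⊥ := fun h => hα0 (by
    rw [h, ← Submodule.zero_eq_bot, zero_pow hp.out.ne_zero, Submodule.zero_eq_bot,
      Ideal.span_singleton_eq_bot] at hI
    exact hI)
  have hclp : cls I ^ p = 1 := by
    have : ∀ n, cls (I ^ n) = cls I ^ n := by
      intro n
      induction n with
      | zero => rw [pow_zero, pow_zero, Ideal.one_eq_top, (cls_eq_one_iff top_ne_bot).2 inferInstance]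
      | succ n ih => rw [pow_succ, cls_mul (pow_ne_zero _ hI0) hI0, ih, pow_succ]
    rw [← this, ← hI, cls_span hα0]
  have hcls : cls I = 1 := by
    refine eigen_class_eq_one h3 _ hclp fun a => ?_
    obtain ⟨γ, hγ⟩ := heig a
    obtain ⟨n, d, hd, rfl⟩ := IsFractionRing.div_surjective (A := 𝓞 K) γ
    have hd0 : d ≠ 0 := nonZeroDivisors.ne_zero hd
    set σ := sg p K a
    set e := (a : ZMod p).val ^ 2
    have hK : σ • α * d ^ p = α ^ e * n ^ p := by
      refine RingOfIntegers.ext ?_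
      have hdK : (d : K) ≠ 0 := RingOfIntegers.coe_ne_zero_iff.2 hd0
      simp only [RingOfIntegers.coe_eq_algebraMap] at hγ hdK
      simp only [map_mul, map_pow]
      show σ (algebraMap (𝓞 K) K α) * _ = _
      rw [hγ, mul_assoc, ← mul_pow, div_mul_cancel₀ _ hdK]
    have hn0 : n ≠ 0 := fun h => by
      rw [h, zero_pow hp.out.ne_zero, mul_zero, mul_eq_zero] at hK
      exact hK.elim ((smul_ne_zero_iff_ne σ).2 hα0) (pow_ne_zero _ hd0)
    have h1 := congrArg (fun x : 𝓞 K => Ideal.span ({x} : Set (𝓞 K))) hK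
    simp only [← Ideal.span_singleton_mul_span_singleton, ← Ideal.span_singleton_pow,
      ← smul_ideal_span, hI] at h1
    have hsp : σ • (I ^ p) = (σ • I) ^ p := by simp only [smul_ideal_eq_map, Ideal.map_pow]
    rw [hsp, ← mul_pow, ← pow_mul, mul_comm p e, pow_mul, ← mul_pow] at h1
    have h2 : σ • I * Ideal.span {d} = I ^ e * Ideal.span {n} :=
      dvd_antisymm
        ((UniqueFactorizationMonoid.pow_dvd_pow_iff_dvd hp.out.ne_zero).1 (dvd_of_eq h1))
        ((UniqueFactorizationMonoid.pow_dvd_pow_iff_dvd hp.out.ne_zero).1 (dvd_of_eq h1.symm))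
    have h4 := congrArg cls h2
    rw [cls_mul (smul_ideal_ne_bot σ hI0) (by simpa using hd0),
      cls_mul (pow_ne_zero _ hI0) (by simpa using hn0), cls_span hd0, cls_span hn0, mul_one,
      mul_one, ← actC_cls σ hI0] at h4
    rw [h4]
    clear * - hI0
    induction e with
    | zero => rw [pow_zero, pow_zero, Ideal.one_eq_top, (cls_eq_one_iff top_ne_bot).2 inferInstance]
    | succ n ih => rw [pow_succ, cls_mul (pow_ne_zero _ hI0) hI0, ih, pow_succ]
  obtain ⟨g, hg⟩ := ((cls_eq_one_iff hI0).1 hcls).principal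
  change I = Ideal.span {g} at hg
  rw [hg, Ideal.span_singleton_pow, Ideal.span_singleton_eq_span_singleton] at hI
  obtain ⟨u, hu⟩ := hI.symm
  have hg0 : g ≠ 0 := fun h => hα0 (by rw [← hu, h, zero_pow hp.out.ne_zero, zero_mul])
  have hgK : (g : K) ≠ 0 := RingOfIntegers.coe_ne_zero_iff.2 hg0
  have hαK : (α : K) = (g : K) ^ p * ((u : 𝓞 K) : K) := by
    rw [← hu]; simp
  -- the unit is an eigenvector
  have hueig : ∀ a : (ZMod p)ˣ, ∃ w,
      unitsAut (sg p K a) u = u ^ (a : ZMod p).val ^ 2 * w ^ p := by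
    intro a
    obtain ⟨γ, hγ⟩ := heig a
    set σ := sg p K a
    set e := (a : ZMod p).val ^ 2
    have hσg : σ (g : K) ≠ 0 := by simpa using hgK
    rw [hαK, map_mul, map_pow, mul_pow, ← pow_mul, mul_comm p e, pow_mul] at hγ
    have h1 : ((g : K) ^ e * γ / σ (g : K)) ^ p =
        (((unitsAut σ u * (u ^ e)⁻¹ : (𝓞 K)ˣ) : 𝓞 K) : K) := by
      have hue : (((u : 𝓞 K) : K)) ^ e ≠ 0 := pow_ne_zero _ (NumberField.Units.coe_ne_zero u)
      have hinv : (((((u ^ e)⁻¹ : (𝓞 K)ˣ)) : 𝓞 K) : K) = (((u : 𝓞 K) : K) ^ e)⁻¹ := by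
        rw [← inv_pow, ← inv_pow]
        simp
      simp only [Units.val_mul, RingOfIntegers.coe_eq_algebraMap, map_mul] at hinv ⊢
      rw [hinv]
      show _ = σ ((u : 𝓞 K) : K) * _
      rw [div_pow, mul_pow]
      field_simp
      linear_combination -hγ
    obtain ⟨w, -, hw⟩ := exists_units_eq_of_pow hp.out.pos h1
    exact ⟨w, by rw [hw, mul_comm, mul_assoc, inv_mul_cancel, mul_one]⟩
  have hceig : ∀ a : (ZMod p)ˣ, ∃ w, unitsAut (sg p K a) (cycUnit p K hp2) =
      cycUnit p K hp2 ^ (a : ZMod p).val ^ 2 * w ^ p := fun a => cycUnit_eigen hp2 a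
  have hodd : Odd p := hp.out.odd_of_ne_two hp2
  -- decomposition
  obtain ⟨j, k, G, hG, hk⟩ : ∃ (j k : ℕ) (G : K),
      (α : K) = zK p K ^ j * ((cycUnit p K hp2 : 𝓞 K) : K) ^ k * G ^ p ∧ (p < 5 → k = 0) := by
    obtain ⟨k, η, hη, w, huw, hk⟩ : ∃ (k : ℕ), ∃ η ∈ NumberField.Units.torsion K,
        ∃ w, u = η * cycUnit p K hp2 ^ k * w ^ p ∧ (p < 5 → k = 0) := by
      rcases Nat.lt_or_ge p 5 with h | h5
      · refine ⟨0, u, ?_, 1, by simp, fun _ => rfl⟩
        have hfr : Module.finrank ℚ K = 2 := by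
          have hp3 : p = 3 := by
            by_contra hne
            have h4 : p = 4 := by omega
            have := hp.out
            rw [h4] at this
            norm_num at this
          rw [IsCyclotomicExtension.Rat.finrank p, Nat.totient_prime hp.out, hp3]
        rw [NumberField.Units.mem_torsion]
        intro w
        have : NumberField.IsTotallyComplex K :=
          IsCyclotomicExtension.Rat.isTotallyComplex K (n := p) (by omega)
        have hcard : Fintype.card (InfinitePlace K) = 1 := by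
          rw [InfinitePlace.card_eq_nrRealPlaces_add_nrComplexPlaces,
            NumberField.IsTotallyComplex.nrRealPlaces_eq_zero, zero_add]
          have := InfinitePlace.card_add_two_mul_card_eq_rank K
          rw [NumberField.IsTotallyComplex.nrRealPlaces_eq_zero, hfr] at this
          omega
        have hsum := NumberField.Units.sum_mult_mul_log u
        obtain ⟨w', hw'⟩ := Fintype.card_eq_one_iff.1 hcard
        rw [Finset.sum_eq_single w (fun b _ hb => (hb ((hw' b).trans (hw' w).symm)).elim)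
          (fun h => (h (Finset.mem_univ w)).elim), mul_eq_zero] at hsum
        have hpos : 0 < w ((u : 𝓞 K) : K) :=
          InfinitePlace.pos_iff.2 (NumberField.Units.coe_ne_zero u)
        rcases hsum with h' | h'
        · exact absurd h' (by exact_mod_cast InfinitePlace.mult_ne_zero)
        · rw [← Real.exp_log hpos, h', Real.exp_zero]
      · have : IsGalois ℚ K := IsCyclotomicExtension.isGalois {p} ℚ K
        obtain ⟨g₀, hg₀⟩ := IsCyclic.exists_generator (α := (ZMod p)ˣ)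
        have hgen : ∀ τ : Gal(K/ℚ), τ ∈ Subgroup.zpowers (sg p K g₀) := by
          intro τ
          obtain ⟨b, rfl⟩ := exists_sg p K τ
          obtain ⟨z, rfl⟩ := hg₀ b
          exact ⟨z, (map_zpow (IsCyclotomicExtension.Rat.galEquivZMod p K).symm g₀ z).symm⟩
        have hdeg : Module.finrank ℚ K < p := by
          rw [IsCyclotomicExtension.Rat.finrank p, Nat.totient_prime hp.out]; omega
        obtain ⟨k, η, hη, w, hw⟩ := unit_eigen_proportional hdeg (sg p K g₀) hgen _ u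
          (cycUnit p K hp2) (hueig g₀) (hceig g₀) (cycUnit_not_torsion_mul_pow h5)
        exact ⟨k, η, hη, w, hw, fun h => absurd h (by omega)⟩
    have hfin : IsOfFinOrder ((η : 𝓞 K) : K) :=
      ((algebraMap (𝓞 K) K).toMonoidHom.comp (Units.coeHom (𝓞 K))).isOfFinOrder
        ((CommGroup.mem_torsion η).1 hη)
    obtain ⟨r, -, hr⟩ := (zK_spec p K).exists_pow_or_neg_mul_pow_of_isOfFinOrder hodd hfin
    rcases hr with hr | hr
    · refine ⟨r, k, (g : K) * ((w : 𝓞 K) : K), ?_, hk⟩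
      rw [hαK, huw]
      simp only [Units.val_mul, Units.val_pow_eq_pow_val, RingOfIntegers.coe_eq_algebraMap,
        map_mul, map_pow] at hr ⊢
      rw [hr, mul_pow]
      ring
    · refine ⟨r, k, -((g : K) * ((w : 𝓞 K) : K)), ?_, hk⟩
      rw [hαK, huw]
      simp only [Units.val_mul, Units.val_pow_eq_pow_val, RingOfIntegers.coe_eq_algebraMap,
        map_mul, map_pow] at hr ⊢
      rw [hr, hodd.neg_pow, mul_pow]
      ring
  set cK := ((cycUnit p K hp2 : 𝓞 K) : K)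
  have hcK : cK ≠ 0 := NumberField.Units.coe_ne_zero _
  have hzK : zK p K ≠ 0 := (zK_spec p K).ne_zero hp.out.ne_zero
  have hG0 : G ≠ 0 := fun h => by
    rw [h, zero_pow hp.out.ne_zero, mul_zero] at hG
    exact RingOfIntegers.coe_ne_zero_iff.2 hα0 hG
  -- the root of unity disappears
  have hj : p ∣ j := by
    have h2 : Nat.Coprime 2 p := (Nat.coprime_primes Nat.prime_two hp.out).2 (Ne.symm hp2)
    set a := ZMod.unitOfCoprime 2 h2
    have hav : (a : ZMod p).val = 2 := by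
      rw [ZMod.coe_unitOfCoprime, ZMod.val_natCast_of_lt (by omega)]
    obtain ⟨γ, hγ⟩ := heig a
    obtain ⟨wc, hwc⟩ := hceig a
    have hwcK := congrArg (fun x : (𝓞 K)ˣ => ((x : 𝓞 K) : K)) hwc
    simp only [Units.val_mul, Units.val_pow_eq_pow_val, map_mul, map_pow] at hwcK
    change sg p K a cK = cK ^ _ * _ at hwcK
    rw [hG, map_mul, map_mul, map_pow, map_pow, map_pow, sg_apply_zK, hwcK, hav] at hγ
    set W := ((wc : 𝓞 K) : K)
    have hW : W ≠ 0 := NumberField.Units.coe_ne_zero _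
    have hσG : sg p K a G ≠ 0 := by simpa using hG0
    have h4 : zK p K ^ (2 * j) = ((W ^ k * sg p K a G / (G ^ 4 * γ))) ^ p := by
      have hγ0 : γ ≠ 0 := fun h => by
        rw [h, zero_pow hp.out.ne_zero, mul_zero] at hγ
        simp [hzK, hcK, hσG] at hγ
      rw [div_pow, mul_pow, mul_pow, eq_div_iff (by simp [hG0, hγ0])]
      have h5 : zK p K ^ (2 * j) * cK ^ (4 * k) * ((W ^ k) ^ p * sg p K a G ^ p) =
          zK p K ^ (2 * j) * cK ^ (4 * k) * (zK p K ^ (2 * j) * ((G ^ 4) ^ p * γ ^ p)) := by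
        linear_combination hγ
      exact (mul_left_cancel₀ (mul_ne_zero (pow_ne_zero _ hzK) (pow_ne_zero _ hcK)) h5).symm
    exact (Nat.Coprime.dvd_mul_left h2.symm).1 (zI_pow_eq_one_of_pow hp2 h4.symm)
  obtain ⟨t, rfl⟩ := hj
  rw [pow_mul, (zK_spec p K).pow_eq_one, one_pow, one_mul] at hG
  rcases Nat.lt_or_ge p 5 with h | h5
  · exact ⟨G, by rw [hG, hk h, pow_zero, one_mul]⟩
  -- the cyclotomic unit disappears
  suffices hkp : p ∣ k by
    obtain ⟨t, rfl⟩ := hkp
    exact ⟨cK ^ t * G, by rw [hG, mul_pow, ← pow_mul, mul_comm t p]⟩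
  obtain ⟨n, d, hd, rfl⟩ := IsFractionRing.div_surjective (A := 𝓞 K) G
  have hd0 : d ≠ 0 := nonZeroDivisors.ne_zero hd
  have hn0 : n ≠ 0 := fun h => hG0 (by simp [h])
  have hπi : Irreducible (piK p K) := (prime_piK p K).irreducible
  obtain ⟨r, d', hd', rfl⟩ := WfDvdMonoid.max_power_factor hd0 hπi
  obtain ⟨s, n', hn', rfl⟩ := WfDvdMonoid.max_power_factor hn0 hπi
  have hK : α * (piK p K ^ r) ^ p * d' ^ p =
      (cycUnit p K hp2 : 𝓞 K) ^ k * (piK p K ^ s) ^ p * n' ^ p := by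
    refine RingOfIntegers.ext ?_
    have hdK : ((piK p K ^ r * d' : 𝓞 K) : K) ≠ 0 := RingOfIntegers.coe_ne_zero_iff.2 hd0
    simp only [RingOfIntegers.coe_eq_algebraMap] at hG hdK
    rw [div_pow, ← mul_div_assoc, eq_div_iff (pow_ne_zero _ hdK)] at hG
    simp only [map_mul, map_pow] at hG ⊢
    linear_combination hG
  have hc' : ¬ piK p K ∣ (cycUnit p K hp2 : 𝓞 K) ^ k :=
    not_piK_dvd_of_isUnit p K ((cycUnit p K hp2).isUnit.pow k)
  have hπ0 : piK p K ≠ 0 := (prime_piK p K).ne_zero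
  have hA : ¬ piK p K ∣ α * d' ^ p := fun h => ((prime_piK p K).dvd_or_dvd h).elim hπ
    fun h' => hd' ((prime_piK p K).dvd_of_dvd_pow h')
  have hB : ¬ piK p K ∣ (cycUnit p K hp2 : 𝓞 K) ^ k * n' ^ p := fun h =>
    ((prime_piK p K).dvd_or_dvd h).elim hc' fun h' => hn' ((prime_piK p K).dvd_of_dvd_pow h')
  have hK' : piK p K ^ (r * p) * (α * d' ^ p) =
      piK p K ^ (s * p) * ((cycUnit p K hp2 : 𝓞 K) ^ k * n' ^ p) := by
    rw [pow_mul, pow_mul]; linear_combination hK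
  have hrs : r * p = s * p := by
    have key : ∀ (a b : ℕ) (x y : 𝓞 K), piK p K ^ a * x = piK p K ^ b * y →
        ¬ piK p K ∣ x → a < b → False := by
      intro a b x y h hx hab
      rw [show b = a + (b - a) by omega, pow_add, mul_assoc] at h
      exact hx (mul_left_cancel₀ (pow_ne_zero _ hπ0) h ▸
        (dvd_pow_self _ (by omega)).mul_right _)
    rcases Nat.lt_trichotomy (r * p) (s * p) with h | h | h
    · exact (key _ _ _ _ hK' hA h).elim
    · exact h
    · exact (key _ _ _ _ hK'.symm hB h).elim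
  rw [hrs] at hK'
  have heq := congrArg (qK p K) (mul_left_cancel₀ (pow_ne_zero _ hπ0) hK')
  obtain ⟨y, hy⟩ := hloc
  have hy' : ¬ piK p K ∣ y := fun h => hπ (by
    have := dvd_add ((dvd_pow_self (piK p K) (by norm_num : 3 ≠ 0)).trans hy)
      (dvd_pow h hp.out.ne_zero)
    simpa using this)
  have hc1 : ¬ piK p K ∣ (cycUnit p K hp2 : 𝓞 K) :=
    not_piK_dvd_of_isUnit p K (cycUnit p K hp2).isUnit
  rw [qK_mul h5 hπ (fun h => hd' ((prime_piK p K).dvd_of_dvd_pow h)), qK_pow_p h5 hd', add_zero,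
    qK_mul h5 hc' (fun h => hn' ((prime_piK p K).dvd_of_dvd_pow h)), qK_pow_p h5 hn', add_zero,
    qK_congr h5 hy, qK_pow_p h5 hy', qK_pow h5 hc1, qK_cycUnit h5] at heq
  rw [← ZMod.natCast_eq_zero_iff]
  rcases mul_eq_zero.1 heq.symm with h | h
  · exact h
  · exact absurd (neg_eq_zero.1 h) (qK_one_add_zI_ne_zero h5)

end FLTAgent.Thaine
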