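import Mathlib

/-!
# The `p`-th cyclotomic field

Notation for a cyclotomic extension `K` of `ℚ` of prime order `p`: the root of unity `zK`/`zI`, the
prime element `piK = ζ - 1`, and the automorphism `sg a` with `ζ ↦ ζ ^ a` for `a : (ZMod p)ˣ`.
Also proved: every integer of `K` is an integral polynomial in `ζ` (`exists_aeval_zI`), two such
polynomials differ by a multiple of the cyclotomic polynomial, and `1 + ζ` is a unit for `p ≠ 2`.
-/

set_option autoImplicit false

noncomputable section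

open NumberField Polynomial

namespace FLTAgent.Thaine

variable (p : ℕ) [hp : Fact p.Prime] (K : Type*) [Field K] [NumberField K]
  [IsCyclotomicExtension {p} ℚ K]

/-- A fixed primitive `p`-th root of unity in `K`. -/
def zK : K := IsCyclotomicExtension.zeta p ℚ K

theorem zK_spec : IsPrimitiveRoot (zK p K) p := IsCyclotomicExtension.zeta_spec p ℚ K

/-- The same root of unity as an algebraic integer. -/
def zI : 𝓞 K := (zK_spec p K).toInteger

theorem coe_zI : (zI p K : K) = zK p K := rfl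

theorem zI_spec : IsPrimitiveRoot (zI p K) p := (zK_spec p K).toInteger_isPrimitiveRoot

theorem zI_pow_p : zI p K ^ p = 1 := (zI_spec p K).pow_eq_one

/-- The uniformiser `ζ - 1` at `p`. -/
def piK : 𝓞 K := zI p K - 1

theorem prime_piK : Prime (piK p K) := (zK_spec p K).zeta_sub_one_prime'

theorem piK_dvd_p : piK p K ∣ (p : 𝓞 K) := (zK_spec p K).toInteger_sub_one_dvd_prime'

theorem associated_natCast_pow_piK :
    Associated (p : 𝓞 K) (piK p K ^ (p - 1)) := by
  have hη := zI_spec p K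
  have h := congrArg (eval 1) (cyclotomic_eq_prod_X_sub_primitiveRoots hη)
  rw [eval_one_cyclotomic_prime, eval_prod] at h
  simp only [eval_sub, eval_X, eval_C] at h
  rw [h]
  have hcard : (primitiveRoots p (𝓞 K)).card = p - 1 := by
    rw [hη.card_primitiveRoots, Nat.totient_prime hp.out]
  rw [← hcard, ← Finset.prod_const]
  refine Associated.prod _ _ _ fun μ hμ => ?_
  rw [mem_primitiveRoots hp.out.pos] at hμ
  obtain ⟨j, -, hj, rfl⟩ := (hη.isPrimitiveRoot_iff (k := p)).1 hμ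
  refine (Associated.trans ?_ (hη.associated_sub_one_pow_sub_one_of_coprime hj).symm)
  exact ⟨-1, by simp⟩

/-- The automorphism with `ζ ↦ ζ ^ a`. -/
def sg (a : (ZMod p)ˣ) : Gal(K/ℚ) := (IsCyclotomicExtension.Rat.galEquivZMod p K).symm a

theorem sg_mul (a b : (ZMod p)ˣ) : sg p K (a * b) = sg p K a * sg p K b := map_mul _ _ _

theorem sg_one : sg p K 1 = 1 := map_one _

theorem sg_apply_zK (a : (ZMod p)ˣ) : sg p K a (zK p K) = zK p K ^ (a : ZMod p).val := by
  rw [sg, IsCyclotomicExtension.Rat.galEquivZMod_apply_of_pow_eq p K _ (zK_spec p K).pow_eq_one,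
    MulEquiv.apply_symm_apply]

theorem sg_smul_zI (a : (ZMod p)ˣ) : sg p K a • zI p K = zI p K ^ (a : ZMod p).val := by
  rw [sg, IsCyclotomicExtension.Rat.galEquivZMod_smul_of_pow_eq p K _ (zI_pow_p p K),
    MulEquiv.apply_symm_apply]

theorem coe_smul_int (σ : Gal(K/ℚ)) (x : 𝓞 K) : ((σ • x : 𝓞 K) : K) = σ (x : K) := rfl

theorem exists_sg (σ : Gal(K/ℚ)) : ∃ a, sg p K a = σ :=
  ⟨_, MulEquiv.symm_apply_apply _ σ⟩

theorem exists_aeval_zI (x : 𝓞 K) : ∃ f : ℤ[X], aeval (zI p K) f = x := by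
  obtain ⟨f, hf⟩ := (zK_spec p K).integralPowerBasis.exists_eq_aeval' x
  rw [IsPrimitiveRoot.integralPowerBasis_gen] at hf
  exact ⟨f, hf.symm⟩

theorem cyclotomic_dvd_of_aeval_eq_zero {f : ℤ[X]} (h : aeval (zI p K) f = 0) :
    cyclotomic p ℤ ∣ f := by
  rw [cyclotomic_eq_minpoly (zK_spec p K) hp.out.pos]
  refine minpoly.isIntegrallyClosed_dvd ((zK_spec p K).isIntegral hp.out.pos) ?_
  have := congrArg (algebraMap (𝓞 K) K) h
  rwa [← aeval_algebraMap_apply, map_zero] at this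

theorem sg_smul_aeval (a : (ZMod p)ˣ) (f : ℤ[X]) :
    sg p K a • aeval (zI p K) f = aeval (zI p K) (f.comp (X ^ (a : ZMod p).val)) := by
  rw [aeval_comp, map_pow, aeval_X, ← sg_smul_zI]
  exact (aeval_algHom_apply
    (MulSemiringAction.toAlgHom ℤ (𝓞 K) (sg p K a)) (zI p K) f).symm

theorem isUnit_one_add_zI (hp2 : p ≠ 2) : IsUnit (1 + zI p K) := by
  have hc : Nat.Coprime 2 p := (Nat.coprime_primes Nat.prime_two hp.out).2 (Ne.symm hp2)
  have := (zI_spec p K).associated_sub_one_pow_sub_one_of_coprime hc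
  obtain ⟨u, hu⟩ := this
  have h1 : zI p K ^ 2 - 1 = (1 + zI p K) * (zI p K - 1) := by ring
  rw [h1, mul_comm _ (zI p K - 1)] at hu
  exact ⟨u, mul_left_cancel₀ (prime_piK p K).ne_zero hu⟩

theorem not_piK_dvd_of_isUnit {x : 𝓞 K} (h : IsUnit x) : ¬ piK p K ∣ x := fun h' =>
  (prime_piK p K).not_isUnit (isUnit_of_dvd_unit h' h)

theorem piK_dvd_smul (σ : Gal(K/ℚ)) {x : 𝓞 K} (h : piK p K ∣ x) : piK p K ∣ σ • x := by
  obtain ⟨a, rfl⟩ := exists_sg p K σ
  obtain ⟨y, rfl⟩ := h
  rw [smul_mul']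
  refine Dvd.dvd.mul_right ?_ _
  rw [piK, smul_sub, smul_one, sg_smul_zI]
  exact sub_one_dvd_pow_sub_one _ _

end FLTAgent.Thaine
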