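import Fermat.Agent.Thaine.PartialZeta

/-!
# An analytic criterion for class group characters

`classChar_eq_one_of_split`: let `χ` be a character of the class group of `K` and `K'` a number
field with at least `m * c(ℓ)` degree one primes over almost every `ℓ`, where `3 ≤ m` and `c(ℓ)`
counts the degree one primes of `K` over `ℓ` with `χ ≠ 1`; then `χ = 1`.  The proof expands
`log |L(χ, s)|` in Euler factors (`norm_classL_eq`) and compares with the boundedness of
`classL χ` and with the logarithmic growth of the zeta functions.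
-/

set_option autoImplicit false

noncomputable section

open NumberField Filter Topology FLTAgent.Density IsDedekindDomain
open scoped Classical nonZeroDivisors

namespace FLTAgent.Thaine

variable {K : Type*} [Field K] [NumberField K]

/-- `χ` on ideals. -/
def chiI (χ : ClassGroup (𝓞 K) →* ℂ) (I : Ideal (𝓞 K)) : ℂ := χ (cls I)

theorem chiI_boxIdeal (χ : ClassGroup (𝓞 K) →* ℂ) (T : Finset (HeightOneSpectrum (𝓞 K)))
    (e : T → ℕ) : chiI χ (boxIdeal K T e) = ∏ P : T, chiI χ P.1.asIdeal ^ e P := by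
  rw [boxIdeal]
  suffices h : ∀ S : Finset T, chiI χ (∏ P ∈ S, P.1.asIdeal ^ e P) =
      ∏ P ∈ S, chiI χ P.1.asIdeal ^ e P from h _
  intro S
  induction S using Finset.induction with
  | empty =>
    rw [Finset.prod_empty, Finset.prod_empty, chiI, Ideal.one_eq_top,
      (cls_eq_one_iff top_ne_bot).2 inferInstance, map_one]
  | insert P S hP ih =>
    rw [Finset.prod_insert hP, Finset.prod_insert hP, ← ih]
    have hpow : ∀ n : ℕ, chiI χ (P.1.asIdeal ^ n) = chiI χ P.1.asIdeal ^ n := by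
      intro n
      induction n with
      | zero =>
        rw [pow_zero, pow_zero, chiI, Ideal.one_eq_top,
          (cls_eq_one_iff top_ne_bot).2 inferInstance, map_one]
      | succ n ihn =>
        rw [pow_succ, pow_succ, ← ihn, chiI, chiI, chiI,
          cls_mul (pow_ne_zero _ P.1.ne_bot) P.1.ne_bot, map_mul]
    rw [← hpow, chiI, cls_mul (pow_ne_zero _ P.1.ne_bot)
      (Finset.prod_ne_zero_iff.2 fun Q _ => pow_ne_zero _ Q.1.ne_bot), map_mul]
    rfl

/-- The real logarithm of the size of an Euler factor. -/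
def logFactor (χ : ClassGroup (𝓞 K) →* ℂ) (s : ℝ) (P : HeightOneSpectrum (𝓞 K)) : ℝ :=
  - Real.log ‖1 - chiI χ P.asIdeal * (normRpow K s P.asIdeal : ℂ)‖

theorem re_chi_sub_le_logFactor (χ : ClassGroup (𝓞 K) →* ℂ) {s : ℝ} (hs : 1 ≤ s)
    (P : HeightOneSpectrum (𝓞 K)) :
    (chiI χ P.asIdeal).re * normRpow K s P.asIdeal - normRpow K s P.asIdeal ^ 2 ≤
      logFactor χ s P ∧ |logFactor χ s P| ≤ 2 * normRpow K s P.asIdeal := by
  set x := normRpow K s P.asIdeal
  set z := chiI χ P.asIdeal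
  have hz : ‖z‖ = 1 := norm_classChar χ _
  have hx0 : 0 ≤ x := normRpow_nonneg K s _
  have hx : x ≤ 1 / 2 := normRpow_le_half K hs P
  set r := ‖1 - z * (x : ℂ)‖
  have hzx : ‖z * (x : ℂ)‖ = x := by simp [hz, abs_of_nonneg hx0]
  have hr1 : 1 - x ≤ r := by
    have := norm_sub_norm_le (1 : ℂ) (z * (x : ℂ))
    rw [hzx, norm_one] at this
    exact this
  have hr2 : r ≤ 1 + x := by
    have := norm_sub_le (1 : ℂ) (z * (x : ℂ))
    rw [hzx, norm_one] at this
    exact this
  have hr0 : 0 < r := by linarith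
  have hsq : r ^ 2 = 1 - 2 * z.re * x + x ^ 2 := by
    have h1 : z.re * z.re + z.im * z.im = 1 := by
      rw [← Complex.normSq_apply, ← Complex.sq_norm, hz, one_pow]
    rw [Complex.sq_norm, Complex.normSq_apply]
    simp only [Complex.sub_re, Complex.one_re, Complex.mul_re, Complex.ofReal_re,
      Complex.ofReal_im, mul_zero, sub_zero, Complex.sub_im, Complex.one_im, Complex.mul_im,
      zero_add, zero_sub]
    linear_combination x ^ 2 * h1
  refine ⟨?_, ?_⟩
  · have h1 : 2 * Real.log r ≤ r ^ 2 - 1 := by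
      have := Real.log_le_sub_one_of_pos (pow_pos hr0 2)
      rwa [Real.log_pow, Nat.cast_ofNat] at this
    show _ ≤ - Real.log r
    nlinarith
  · show |(- Real.log r)| ≤ _
    rw [abs_neg, abs_le]
    constructor
    · have h1 := Real.one_sub_inv_le_log_of_pos hr0
      have h2 : r⁻¹ ≤ 1 + 2 * x := by
        rw [inv_le_iff_one_le_mul₀ hr0]
        nlinarith
      linarith
    · have h1 := Real.log_le_sub_one_of_pos hr0
      linarith

theorem norm_sum_box_sub_le (χ : ClassGroup (𝓞 K) →* ℂ) {s : ℝ}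
    (hsum : Summable fun I : {I : Ideal (𝓞 K) // I ≠ ⊥} => normRpow K s I.1)
    (T : Finset (HeightOneSpectrum (𝓞 K))) (B : Finset (T → ℕ)) :
    ‖(∑ e ∈ B, chiI χ (boxIdeal K T e) * (normRpow K s (boxIdeal K T e) : ℂ)) - classL χ s‖ ≤
      idealZeta K s - ∑ e ∈ B, normRpow K s (boxIdeal K T e) := by
  let ι : (T → ℕ) ↪ {I : Ideal (𝓞 K) // I ≠ ⊥} :=
    ⟨fun e => ⟨boxIdeal K T e, boxIdeal_ne_bot K T e⟩,
      fun a b h => boxIdeal_injective K T (congrArg Subtype.val h)⟩
  set f : {I : Ideal (𝓞 K) // I ≠ ⊥} → ℂ := fun I => χ (cls I.1) * (normRpow K s I.1 : ℂ)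
  set g : {I : Ideal (𝓞 K) // I ≠ ⊥} → ℝ := fun I => normRpow K s I.1
  have hfn : ∀ I, ‖f I‖ = g I := fun I => by
    rw [norm_mul, norm_classChar, one_mul, Complex.norm_real,
      Real.norm_of_nonneg (normRpow_nonneg K s _)]
  have hf : Summable f := Summable.of_norm (hsum.congr fun I => (hfn I).symm)
  have h1 : classL χ s = ∑' I, f I := rfl
  have h2 : idealZeta K s = ∑' I, g I := rfl
  have h3 : (∑ e ∈ B, chiI χ (boxIdeal K T e) * (normRpow K s (boxIdeal K T e) : ℂ)) =
      ∑ I ∈ B.map ι, f I := by rw [Finset.sum_map]; rfl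
  have h4 : (∑ e ∈ B, normRpow K s (boxIdeal K T e)) = ∑ I ∈ B.map ι, g I := by
    rw [Finset.sum_map]; rfl
  rw [h1, h2, h3, h4, ← hf.sum_add_tsum_compl (s := B.map ι),
    ← hsum.sum_add_tsum_compl (s := B.map ι), sub_add_cancel_left, add_sub_cancel_left, norm_neg]
  exact tsum_of_norm_bounded (hsum.subtype _).hasSum fun I => le_of_eq (hfn I)

theorem norm_classL_eq (χ : ClassGroup (𝓞 K) →* ℂ) {s : ℝ} (hs : 1 ≤ s)
    (hsum : Summable fun I : {I : Ideal (𝓞 K) // I ≠ ⊥} => normRpow K s I.1)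
    (hpos : 0 < idealZeta K s) :
    Summable (logFactor χ s) ∧ ‖classL χ s‖ = Real.exp (∑' P, logFactor χ s P) := by
  have hE := hasSum_eulerLog K hs hsum hpos
  have hx : ∀ P : HeightOneSpectrum (𝓞 K), normRpow K s P.asIdeal < 1 := fun P =>
    lt_of_le_of_lt (normRpow_le_half K hs P) (by norm_num)
  have hsummA : Summable (logFactor χ s) := by
    refine Summable.of_norm_bounded (hE.summable.mul_left 2) fun P => ?_
    rw [Real.norm_eq_abs]
    exact (re_chi_sub_le_logFactor χ hs P).2.trans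
      (mul_le_mul_of_nonneg_left (eulerLog_bounds K hs P).1 two_pos.le)
  refine ⟨hsummA, ?_⟩
  set p : Finset (HeightOneSpectrum (𝓞 K)) → ℂ := fun T =>
    ∏ P : T, (1 - chiI χ P.1.asIdeal * (normRpow K s P.1.asIdeal : ℂ))⁻¹
  set q : Finset (HeightOneSpectrum (𝓞 K)) → ℝ := fun T =>
    ∏ P : T, (1 - normRpow K s P.1.asIdeal)⁻¹
  have hpq : ∀ T, ‖p T - classL χ s‖ ≤ idealZeta K s - q T := by
    intro T
    have hlim1 : Tendsto (fun n => ∏ P : T, ∑ j ∈ Finset.range n,
        (chiI χ P.1.asIdeal * (normRpow K s P.1.asIdeal : ℂ)) ^ j) atTop (𝓝 (p T)) :=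
      tendsto_finsetProd _ fun P _ => (hasSum_geometric_of_norm_lt_one (by
        rw [norm_mul, show ‖chiI χ P.1.asIdeal‖ = 1 from norm_classChar χ _, one_mul,
          Complex.norm_real, Real.norm_of_nonneg (normRpow_nonneg K s _)]
        exact hx P.1)).tendsto_sum_nat
    have hlim2 : Tendsto (fun n => ∏ P : T, ∑ j ∈ Finset.range n, normRpow K s P.1.asIdeal ^ j)
        atTop (𝓝 (q T)) :=
      tendsto_finsetProd _ fun P _ =>
        (hasSum_geometric_of_lt_one (normRpow_nonneg K s _) (hx P.1)).tendsto_sum_nat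
    refine le_of_tendsto_of_tendsto' (hlim1.sub_const _).norm (hlim2.const_sub _) fun n => ?_
    have h1 : ∏ P : T, ∑ j ∈ Finset.range n, normRpow K s P.1.asIdeal ^ j =
        ∑ e ∈ Fintype.piFinset (fun _ : T => Finset.range n), normRpow K s (boxIdeal K T e) := by
      rw [Finset.prod_univ_sum]
      exact Finset.sum_congr rfl fun e _ => by simp [boxIdeal, map_prod, map_pow]
    have h2 : ∏ P : T, ∑ j ∈ Finset.range n,
          (chiI χ P.1.asIdeal * (normRpow K s P.1.asIdeal : ℂ)) ^ j =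
        ∑ e ∈ Fintype.piFinset (fun _ : T => Finset.range n),
          chiI χ (boxIdeal K T e) * (normRpow K s (boxIdeal K T e) : ℂ) := by
      rw [Finset.prod_univ_sum]
      refine Finset.sum_congr rfl fun e _ => ?_
      rw [chiI_boxIdeal, boxIdeal, map_prod, Complex.ofReal_prod, ← Finset.prod_mul_distrib]
      exact Finset.prod_congr rfl fun P _ => by rw [map_pow, Complex.ofReal_pow, mul_pow]
    rw [h1, h2]
    exact norm_sum_box_sub_le χ hsum T _
  have hq : Tendsto q atTop (𝓝 (idealZeta K s)) := by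
    have h1 : Tendsto (fun T : Finset (HeightOneSpectrum (𝓞 K)) =>
        Real.exp (∑ P ∈ T, eulerLog K s P)) atTop (𝓝 (Real.exp (Real.log (idealZeta K s)))) :=
      (Real.continuous_exp.tendsto _).comp hE
    rw [Real.exp_log hpos] at h1
    refine h1.congr fun T => ?_
    rw [Real.exp_sum, ← Finset.prod_coe_sort T]
    exact Finset.prod_congr rfl fun P _ => (geom_eq_exp_eulerLog K hs P.1).symm
  have hp : Tendsto p atTop (𝓝 (classL χ s)) := by
    rw [tendsto_iff_norm_sub_tendsto_zero]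
    refine squeeze_zero (fun T => norm_nonneg _) hpq ?_
    simpa using hq.const_sub (idealZeta K s)
  refine tendsto_nhds_unique hp.norm ?_
  have h1 : Tendsto (fun T : Finset (HeightOneSpectrum (𝓞 K)) =>
      Real.exp (∑ P ∈ T, logFactor χ s P)) atTop (𝓝 (Real.exp (∑' P, logFactor χ s P))) :=
    (Real.continuous_exp.tendsto _).comp hsummA.hasSum
  refine h1.congr fun T => ?_
  rw [Real.exp_sum, norm_prod, ← Finset.prod_coe_sort T]
  refine Finset.prod_congr rfl fun P _ => ?_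
  rw [norm_inv, logFactor, Real.exp_neg, Real.exp_log]
  rw [norm_pos_iff, sub_ne_zero]
  intro h
  have := congrArg (‖·‖) h
  simp only [norm_one, norm_mul, chiI, norm_classChar, one_mul, Complex.norm_real,
    Real.norm_of_nonneg (normRpow_nonneg K s _)] at this
  linarith [hx P.1]

/-- Primes of norm `ℓ` with a given property. -/
def degOneCountOf (Q : HeightOneSpectrum (𝓞 K) → Prop) (ℓ : ℕ) : ℕ :=
  Nat.card {P : HeightOneSpectrum (𝓞 K) // Ideal.absNorm P.asIdeal = ℓ ∧ Q P}

/-- The sum over degree one primes with a property, grouped by rational prime. -/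
theorem tsum_degOne_indicator (Q : HeightOneSpectrum (𝓞 K) → Prop) {s : ℝ}
    (hsum : Summable fun P : HeightOneSpectrum (𝓞 K) => normRpow K s P.asIdeal) :
    Summable (fun ℓ : Nat.Primes => (degOneCountOf Q ℓ : ℝ) * (ℓ : ℝ) ^ (-s)) ∧
      ∑' ℓ : Nat.Primes, (degOneCountOf Q ℓ : ℝ) * (ℓ : ℝ) ^ (-s) =
        ∑' P, {P : HeightOneSpectrum (𝓞 K) | (Ideal.absNorm P.asIdeal).Prime ∧ Q P}.indicator
          (fun P => normRpow K s P.asIdeal) P := by
  set D := {P : HeightOneSpectrum (𝓞 K) | (Ideal.absNorm P.asIdeal).Prime ∧ Q P}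
  have hfin : ∀ p : Nat.Primes, Finite {P : HeightOneSpectrum (𝓞 K) //
      Ideal.absNorm P.asIdeal = p ∧ Q P} := by
    intro p
    have : Finite {I : Ideal (𝓞 K) // Ideal.absNorm I = p} :=
      (Ideal.finite_setOfPred_absNorm_eq (p : ℕ)).to_subtype
    exact Finite.of_injective
      (fun P => (⟨P.1.asIdeal, P.2.1⟩ : {I : Ideal (𝓞 K) // Ideal.absNorm I = p}))
      (fun a b hab => Subtype.ext (HeightOneSpectrum.ext (congrArg Subtype.val hab :)))
  let e : (Σ p : Nat.Primes, {P : HeightOneSpectrum (𝓞 K) //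
      Ideal.absNorm P.asIdeal = p ∧ Q P}) ≃ D :=
    { toFun := fun x => ⟨x.2.1, by rw [x.2.2.1]; exact x.1.2, x.2.2.2⟩
      invFun := fun P => ⟨⟨_, P.2.1⟩, ⟨P.1, rfl, P.2.2⟩⟩
      left_inv := fun ⟨⟨p, hp⟩, ⟨P, hP, hQ⟩⟩ => by
        change Ideal.absNorm P.asIdeal = p at hP
        subst hP
        rfl
      right_inv := fun P => rfl }
  have hsig := e.summable_iff.2 (hsum.comp_injective (Subtype.val_injective (p := (· ∈ D))))
  have hinner : ∀ p : Nat.Primes,
      ∑' P : {P : HeightOneSpectrum (𝓞 K) // Ideal.absNorm P.asIdeal = p ∧ Q P},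
        normRpow K s P.1.asIdeal = (degOneCountOf Q p : ℝ) * (p : ℝ) ^ (-s) := by
    intro p
    have := hfin p
    have := Fintype.ofFinite {P : HeightOneSpectrum (𝓞 K) // Ideal.absNorm P.asIdeal = p ∧ Q P}
    rw [tsum_fintype, Finset.sum_congr rfl (g := fun _ => (p : ℝ) ^ (-s))
      (fun P _ => by rw [normRpow_apply, P.2.1])]
    simp [degOneCountOf]
  refine ⟨((summable_sigma_of_nonneg (fun x => normRpow_nonneg K s _)).1 hsig).2.congr hinner, ?_⟩
  rw [← tsum_subtype, ← e.tsum_eq]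
  exact (tsum_congr hinner).symm.trans (Summable.tsum_sigma'
    (fun p => by have := hfin p; exact Summable.of_finite) hsig).symm

/-- A class group character is trivial if the degree one primes where it is nontrivial split at
least threefold in another field. -/
theorem classChar_eq_one_of_split {K' : Type*} [Field K'] [NumberField K'] {m : ℕ} (hm : 3 ≤ m)
    (χ : ClassGroup (𝓞 K) →* ℂ) (S : Finset ℕ)
    (hsplit : ∀ ℓ : ℕ, ℓ.Prime → ℓ ∉ S →
      m * degOneCountOf (fun P => chiI χ P.asIdeal ≠ 1) ℓ ≤ degOneCount K' ℓ) :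
    χ = 1 := by
  by_contra hχ
  obtain ⟨B, hB⟩ := exists_classL_bound hχ
  obtain ⟨C₁, hC₁⟩ := eventually_log_idealZeta K
  obtain ⟨C₂, hC₂⟩ := eventually_abs_degOne_sub_log_le K
  obtain ⟨C₃, hC₃⟩ := eventually_abs_degOne_sub_log_le K'
  set Q : HeightOneSpectrum (𝓞 K) → Prop := fun P => chiI χ P.asIdeal ≠ 1
  set Sp : Finset Nat.Primes := S.subtype Nat.Prime
  set A : ℝ := ∑ ℓ ∈ Sp, (degOneCountOf Q ℓ : ℝ)
  set C₄ : ℝ := ∑' P : HeightOneSpectrum (𝓞 K), 2 * ((baseP K P : ℝ) ^ 2)⁻¹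
  set c : ℝ := 1 - 2 / m with hc
  have hc0 : 0 < c := by
    rw [hc, sub_pos, div_lt_one (by positivity)]
    exact_mod_cast (by omega : 2 < m)
  have hL : Tendsto (fun s : ℝ => c * Real.log (1 / (s - 1))) (𝓝[>] 1) atTop := by
    refine Tendsto.const_mul_atTop hc0 (Real.tendsto_log_atTop.comp ?_)
    simp only [one_div]
    refine tendsto_inv_nhdsGT_zero.comp (tendsto_nhdsWithin_iff.2 ⟨?_, ?_⟩)
    · exact (tendsto_id.mono_left nhdsWithin_le_nhds).sub_const 1 |>.trans (by simp)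
    · filter_upwards [self_mem_nhdsWithin] with s hs using sub_pos.2 (Set.mem_Ioi.1 hs)
  obtain ⟨s, h1, h2, h3, h4, hs1, h5⟩ :=
    (hC₁.and (hC₂.and (hC₃.and (hB.and ((self_mem_nhdsWithin : Set.Ioi (1 : ℝ) ∈ 𝓝[>] (1 : ℝ)) |>
      fun hmem => (eventually_of_mem hmem fun x hx => hx).and
        (hL.eventually_gt_atTop (Real.log (max B 1) + C₂ + 2 * C₃ / m + 2 * A + C₄))))))).exists
  have hs1' : (1 : ℝ) ≤ s := le_of_lt hs1
  obtain ⟨hAs, hnorm⟩ := norm_classL_eq χ hs1' h1.1 h1.2.1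
  have hxs : Summable fun P : HeightOneSpectrum (𝓞 K) => normRpow K s P.asIdeal :=
    (hasSum_eulerLog K hs1' h1.1 h1.2.1).summable.of_nonneg_of_le
      (fun P => normRpow_nonneg K s _) fun P => (eulerLog_bounds K hs1' P).1
  set D := {P : HeightOneSpectrum (𝓞 K) | (Ideal.absNorm P.asIdeal).Prime ∧ True}
  set E := {P : HeightOneSpectrum (𝓞 K) | (Ideal.absNorm P.asIdeal).Prime ∧ Q P}
  set x := fun P : HeightOneSpectrum (𝓞 K) => normRpow K s P.asIdeal
  have hpt : ∀ P, D.indicator x P - 2 * E.indicator x P - 2 * ((baseP K P : ℝ) ^ 2)⁻¹ ≤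
      logFactor χ s P := by
    intro P
    refine le_trans ?_ (re_chi_sub_le_logFactor χ hs1' P).1
    obtain ⟨hp, -, hle, hnp⟩ := baseP_spec K P
    have hpos : (0 : ℝ) < baseP K P := by exact_mod_cast hp.pos
    have hx0 : 0 ≤ x P := normRpow_nonneg K s _
    have hN : x P ≤ (Ideal.absNorm P.asIdeal : ℝ)⁻¹ := by
      simp only [x, normRpow_apply, ← Real.rpow_neg_one]
      exact Real.rpow_le_rpow_of_exponent_le
        (by exact_mod_cast (two_le_absNorm K P).trans' one_le_two) (by linarith)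
    have hxb : x P ≤ (baseP K P : ℝ)⁻¹ := hN.trans (inv_anti₀ hpos (by exact_mod_cast hle))
    have hx2 : x P ^ 2 ≤ ((baseP K P : ℝ) ^ 2)⁻¹ := by
      rw [← inv_pow]; exact pow_le_pow_left₀ hx0 hxb 2
    have hre : -1 ≤ (chiI χ P.asIdeal).re := by
      have h := Complex.abs_re_le_norm (chiI χ P.asIdeal)
      rw [show ‖chiI χ P.asIdeal‖ = 1 from norm_classChar χ _] at h
      exact (abs_le.1 h).1
    have hm1 : -x P ≤ (chiI χ P.asIdeal).re * x P := by nlinarith
    show _ ≤ (chiI χ P.asIdeal).re * x P - x P ^ 2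
    by_cases hD : (Ideal.absNorm P.asIdeal).Prime
    · rw [Set.indicator_of_mem (show P ∈ D from ⟨hD, trivial⟩)]
      by_cases hQ : Q P
      · rw [Set.indicator_of_mem (show P ∈ E from ⟨hD, hQ⟩)]
        nlinarith [inv_nonneg.2 (sq_nonneg (baseP K P : ℝ))]
      · rw [Set.indicator_of_notMem (show P ∉ E from fun h => hQ h.2)]
        have : chiI χ P.asIdeal = 1 := not_not.1 hQ
        rw [this, Complex.one_re, one_mul]
        nlinarith [inv_nonneg.2 (sq_nonneg (baseP K P : ℝ))]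
    · rw [Set.indicator_of_notMem (show P ∉ D from fun h => hD h.1),
        Set.indicator_of_notMem (show P ∉ E from fun h => hD h.1)]
      have : x P ≤ ((baseP K P : ℝ) ^ 2)⁻¹ :=
        hN.trans (inv_anti₀ (pow_pos hpos 2) (by exact_mod_cast hnp hD))
      have hx1 : x P ≤ 1 / 2 := normRpow_le_half K hs1' P
      nlinarith
  have hDs : Summable (D.indicator x) := hxs.indicator D
  have hEs : Summable (E.indicator x) := hxs.indicator E
  have hbs := (summable_baseP_sq K).mul_left 2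
  have hlow : (∑' P, D.indicator x P) - 2 * (∑' P, E.indicator x P) - C₄ ≤
      ∑' P, logFactor χ s P := by
    rw [← tsum_mul_left, ← Summable.tsum_sub hDs (hEs.mul_left 2),
      ← Summable.tsum_sub (hDs.sub (hEs.mul_left 2)) hbs]
    exact ((hDs.sub (hEs.mul_left 2)).sub hbs).tsum_le_tsum hpt hAs
  obtain ⟨hcD, htD⟩ := tsum_degOne_indicator (K := K) (fun _ => True) hxs
  obtain ⟨hcE, htE⟩ := tsum_degOne_indicator (K := K) Q hxs
  rw [← htD, ← htE] at hlow
  have hdeg : ∀ ℓ, degOneCountOf (K := K) (fun _ => True) ℓ = degOneCount K ℓ := fun ℓ =>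
    Nat.card_congr (Equiv.subtypeEquivRight fun P => by simp)
  simp only [hdeg] at hlow
  have hm0 : (0 : ℝ) < m := by positivity
  set w : Nat.Primes → ℝ := fun ℓ =>
    if ℓ ∈ Sp then (degOneCountOf Q ℓ : ℝ) else 0 with hw
  have hws : HasSum w A := by
    have : A = ∑ ℓ ∈ Sp, w ℓ := Finset.sum_congr rfl fun ℓ hℓ => (if_pos hℓ).symm
    rw [this]
    exact hasSum_sum_of_ne_finset_zero fun ℓ hℓ => if_neg hℓ
  have hEle : (∑' ℓ : Nat.Primes, (degOneCountOf Q ℓ : ℝ) * (ℓ : ℝ) ^ (-s)) ≤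
      A + (1 / m) * ∑' ℓ : Nat.Primes, (degOneCount K' ℓ : ℝ) * (ℓ : ℝ) ^ (-s) := by
    rw [← hws.tsum_eq, ← tsum_mul_left, ← Summable.tsum_add hws.summable (h3.1.mul_left _)]
    refine hcE.tsum_le_tsum (fun ℓ => ?_) (hws.summable.add (h3.1.mul_left _))
    have hl0 : (0 : ℝ) ≤ (ℓ : ℝ) ^ (-s) := Real.rpow_nonneg (Nat.cast_nonneg _) _
    have hnn : 0 ≤ 1 / (m : ℝ) * ((degOneCount K' ℓ : ℝ) * (ℓ : ℝ) ^ (-s)) := by positivity
    by_cases hS : ℓ ∈ Sp
    · simp only [hw, if_pos hS]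
      have : (ℓ : ℝ) ^ (-s) ≤ 1 := Real.rpow_le_one_of_one_le_of_nonpos
        (by exact_mod_cast ℓ.2.one_le) (by linarith)
      have : (degOneCountOf Q ℓ : ℝ) * (ℓ : ℝ) ^ (-s) ≤ degOneCountOf Q ℓ :=
        mul_le_of_le_one_right (Nat.cast_nonneg _) this
      linarith
    · simp only [hw, if_neg hS, zero_add]
      have := hsplit ℓ ℓ.2 (fun h => hS (Finset.mem_subtype.2 h))
      have : (m : ℝ) * degOneCountOf Q ℓ ≤ degOneCount K' ℓ := by exact_mod_cast this
      rw [← mul_assoc]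
      refine mul_le_mul_of_nonneg_right ?_ hl0
      rw [one_div_mul_eq_div, le_div_iff₀ hm0, mul_comm]
      exact this
  have e2 := (abs_le.1 h2.2).1
  have e3 := (abs_le.1 h3.2).2
  have hub : ∑' P, logFactor χ s P ≤ Real.log (max B 1) := by
    rw [Real.le_log_iff_exp_le (lt_max_of_lt_right one_pos), ← hnorm]
    exact h4.trans (le_max_left _ _)
  set L := Real.log (1 / (s - 1))
  set U := ∑' ℓ : Nat.Primes, (degOneCount K' ℓ : ℝ) * (ℓ : ℝ) ^ (-s)
  have hU : 1 / (m : ℝ) * U ≤ 1 / m * (L + C₃) :=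
    mul_le_mul_of_nonneg_left (by linarith) (by positivity)
  have : c * L = L - 2 * (1 / m * L) := by rw [hc]; ring
  have : 2 * C₃ / m = 2 * (1 / m * C₃) := by ring
  linarith

end FLTAgent.Thaine
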