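import Fermat.Agent.Thaine.Core

/-!
# No extensions of `μ_p` by the trivial character at finite level

`no_finite_extension`: there is no finite Galois extension of `ℚ` containing `μ_p`, given by a
twisted cocycle `b` nonzero on the kernel of the cyclotomic character `χ`, which is unramified
outside `p` and completely split over `ℚ(μ_p)` at `p`.  Kummer theory (`exists_kummer_generator`)
turns such an extension into a singular element of `ℚ(μ_p)` which is locally a `p`-th power at `p`,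
excluded by `no_singular`.
-/

set_option autoImplicit false

noncomputable section

open NumberField IsDedekindDomain
open FLTAgent.Density
open scoped Classical Pointwise

namespace FLTAgent.Thaine

variable {F : Type} [Field F] [NumberField F] [IsGalois ℚ F]

/-- A Kummer generator for a twisted cocycle. -/
theorem exists_kummer_generator {p : ℕ} [hp : Fact p.Prime] {ζ : F} (hζ : IsPrimitiveRoot ζ p)
    (χ b : Gal(F/ℚ) → ZMod p) (hχ : ∀ σ, σ ζ = ζ ^ (χ σ).val)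
    (hb : ∀ σ τ, b (σ * τ) = χ τ * b σ + b τ) (hker : ∀ σ, χ σ = 1 → b σ = 0 → σ = 1)
    (τ₁ : Gal(F/ℚ)) (hτ₁ : χ τ₁ = 1) (hτ₁b : b τ₁ = 1) :
    ∃ β : 𝓞 F, β ≠ 0 ∧
      ∀ τ, χ τ = 1 → τ ((β : F)) = ζ ^ (b τ).val * (β : F) := by
  have hχinj : ∀ {a c : ZMod p}, ζ ^ a.val = ζ ^ c.val → a = c := fun h =>
    ZMod.val_injective _ (hζ.pow_inj (ZMod.val_lt _) (ZMod.val_lt _) h)
  have hχ1 : χ 1 = 1 := hχinj (by rw [← hχ, AlgEquiv.one_apply, ZMod.val_one, pow_one])
  have hb1 : b 1 = 0 := by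
    have := hb 1 1
    rw [mul_one, hχ1, one_mul] at this
    simpa using this
  have hζfix : ∀ n : ℕ, (τ₁ ^ n) ζ = ζ := fun n => by
    induction n with
    | zero => simp
    | succ n ih => rw [pow_succ, AlgEquiv.mul_apply, hχ τ₁, hτ₁, ZMod.val_one, pow_one, ih]
  have hχn : ∀ n : ℕ, χ (τ₁ ^ n) = 1 := fun n =>
    hχinj (by rw [← hχ, hζfix, ZMod.val_one, pow_one])
  have hbn : ∀ n : ℕ, b (τ₁ ^ n) = n := fun n => by
    induction n with
    | zero => simp [hb1]
    | succ n ih => rw [pow_succ, hb, hτ₁, hτ₁b, ih, one_mul, Nat.cast_succ]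
  have hτp : τ₁ ^ p = 1 := hker _ (hχn p) (by rw [hbn, ZMod.natCast_self])
  -- independence of the powers
  have hinj : Function.Injective fun i : Fin p =>
      ((τ₁ ^ (i : ℕ) : Gal(F/ℚ)) : F →* F) := by
    intro i j hij
    have h1 : τ₁ ^ (i : ℕ) = τ₁ ^ (j : ℕ) := AlgEquiv.ext fun x => DFunLike.congr_fun hij x
    have h2 := congrArg b h1
    rw [hbn, hbn] at h2
    have h3 := congrArg ZMod.val h2
    rw [ZMod.val_natCast_of_lt i.2, ZMod.val_natCast_of_lt j.2] at h3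
    exact Fin.ext h3
  have hind := (linearIndependent_monoidHom F F).comp _ hinj
  obtain ⟨x, hx⟩ : ∃ x : F,
      ∑ i : Fin p, ζ ^ ((p - 1) * (i : ℕ)) * (τ₁ ^ (i : ℕ)) x ≠ 0 := by
    by_contra hcon
    push Not at hcon
    have h0 := Fintype.linearIndependent_iff.1 hind (fun i => ζ ^ ((p - 1) * (i : ℕ))) (by
      funext x
      simpa [Finset.sum_apply] using hcon x) ⟨0, hp.out.pos⟩
    simp at h0
  set S : ℕ → F := fun i => ζ ^ ((p - 1) * i) * (τ₁ ^ i) x
  set β₀ := ∑ i ∈ Finset.range p, S i with hβ₀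
  have hβ0 : β₀ ≠ 0 := by rw [hβ₀, Finset.sum_range]; exact hx
  have hstep : ∀ i, τ₁ (S i) = ζ * S (i + 1) := by
    intro i
    simp only [S, map_mul, map_pow, hχ τ₁, hτ₁, ZMod.val_one, pow_one]
    rw [← mul_assoc, ← pow_succ', pow_succ' τ₁, AlgEquiv.mul_apply]
    congr 1
    rw [show (p - 1) * (i + 1) + 1 = (p - 1) * i + p by
      rw [mul_add, mul_one]; have := hp.out.one_le; omega, pow_add, hζ.pow_eq_one, mul_one]
  have hτβ : τ₁ β₀ = ζ * β₀ := by
    rw [hβ₀, map_sum, Finset.mul_sum, Finset.sum_congr rfl fun i _ => hstep i, ← Finset.mul_sum,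
      ← Finset.mul_sum]
    congr 1
    have h1 := Finset.sum_range_succ' S p
    rw [Finset.sum_range_succ, show S p = S 0 by
      show ζ ^ ((p - 1) * p) * (τ₁ ^ p) x = ζ ^ ((p - 1) * 0) * (τ₁ ^ 0) x
      rw [hτp, mul_zero, pow_zero, pow_zero, mul_comm (p - 1) p, pow_mul, hζ.pow_eq_one,
        one_pow]] at h1
    exact (add_right_cancel h1).symm
  have hiter : ∀ n : ℕ, (τ₁ ^ n) β₀ = ζ ^ n * β₀ := fun n => by
    induction n with
    | zero => simp
    | succ n ih => rw [pow_succ, AlgEquiv.mul_apply, hτβ, map_mul, hζfix, ih]; ring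
  have hall : ∀ τ, χ τ = 1 → τ β₀ = ζ ^ (b τ).val * β₀ := by
    intro τ hτ
    set n := (b τ).val
    set m := (p - 1) * n
    have hk : τ₁ ^ m * τ = 1 := by
      refine hker _ (hχinj ?_) ?_
      · rw [← hχ, AlgEquiv.mul_apply, hχ τ, hτ, ZMod.val_one, pow_one, hζfix]
      · rw [hb, hτ, one_mul, hbn]
        simp only [m, n, Nat.cast_mul, Nat.cast_sub hp.out.one_le, ZMod.natCast_self,
          Nat.cast_one, ZMod.natCast_val, ZMod.cast_id', id]
        ring
    have h2 : τ = τ₁ ^ n := by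
      have h3 : τ₁ ^ n * (τ₁ ^ m * τ) = τ₁ ^ n := by rw [hk, mul_one]
      rw [← mul_assoc, ← pow_add, show n + m = p * n by
        simp only [m]
        conv_rhs => rw [← Nat.sub_add_cancel hp.out.one_le, add_mul, one_mul]
        ring,
        pow_mul, hτp, one_pow, one_mul] at h3
      exact h3
    conv_lhs => rw [h2]
    exact hiter n
  obtain ⟨N, hN⟩ := IsIntegral.exists_multiple_integral_of_isLocalization (nonZeroDivisors ℤ) β₀
    (IsIntegral.of_finite ℚ β₀)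
  have hN0 : ((N : ℤ) : F) ≠ 0 := Int.cast_ne_zero.2 (nonZeroDivisors.coe_ne_zero N)
  refine ⟨⟨(N : ℤ) • β₀, hN⟩, fun h => ?_, fun τ hτ => ?_⟩
  · have h1 : (N : ℤ) • β₀ = 0 := congrArg (fun z : 𝓞 F => (z : F)) h
    rw [zsmul_eq_mul] at h1
    exact mul_ne_zero hN0 hβ0 h1
  · show τ ((N : ℤ) • β₀) = _ * ((N : ℤ) • β₀)
    rw [map_zsmul, hall τ hτ, mul_smul_comm]

/-- Inertia trivial implies unramified over an intermediate field. -/
theorem ordAt_algebraMap_of_inertia_eq_bot (E : IntermediateField ℚ F)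
    (v : HeightOneSpectrum (𝓞 E)) (w : HeightOneSpectrum (𝓞 F))
    [w.asIdeal.LiesOver v.asIdeal] (h : w.asIdeal.inertia Gal(F/ℚ) = ⊥) {x : 𝓞 E} (hx : x ≠ 0) :
    ordAt w (algebraMap (𝓞 E) (𝓞 F) x) = ordAt v x := by
  have : Nat.card (w.asIdeal.inertia (F ≃ₐ[E] F)) = 1 := by
    rw [Nat.card_eq_one_iff_unique]
    refine ⟨⟨fun a c => Subtype.ext ?_⟩, inferInstance⟩
    have key : ∀ σ : F ≃ₐ[E] F, σ ∈ w.asIdeal.inertia (F ≃ₐ[E] F) → σ = 1 := fun σ hσ => by
      have h1 : σ.restrictScalars ℚ ∈ w.asIdeal.inertia Gal(F/ℚ) := fun y => hσ y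
      rw [h, Subgroup.mem_bot] at h1
      exact AlgEquiv.ext fun y => DFunLike.congr_fun h1 y
    rw [key _ a.2, key _ c.2]
  rw [Ideal.card_inertia_eq_ramificationIdxIn v.asIdeal w.asIdeal,
    Ideal.ramificationIdxIn_eq_ramificationIdx v.asIdeal w.asIdeal (F ≃ₐ[E] F),
    ← Ideal.ramificationIdx'_eq_ramificationIdx v.asIdeal w.asIdeal v.ne_bot] at this
  have hinj : Function.Injective (algebraMap (𝓞 E) (𝓞 F)) :=
    FaithfulSMul.algebraMap_injective (𝓞 E) (𝓞 F)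
  refine ordAt_eq_of_intVal ((map_ne_zero_iff _ hinj).2 hx) ?_
  rw [← HeightOneSpectrum.intValuation_liesOver v w, intVal_eq_exp_ordAt v hx, this, pow_one]

omit [IsGalois ℚ F] in
theorem exists_liesOver_prime (E : IntermediateField ℚ F) (v : HeightOneSpectrum (𝓞 E)) :
    ∃ w : HeightOneSpectrum (𝓞 F), w.asIdeal.LiesOver v.asIdeal := by
  obtain ⟨P, hP, hPv⟩ := (inferInstance : Nonempty (v.asIdeal.primesOver (𝓞 F)))
  exact ⟨⟨P, hP, Ideal.ne_bot_of_liesOver_of_ne_bot v.ne_bot P⟩, hPv⟩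

/-- Structure at a completely split prime of a Galois extension of prime degree. -/
theorem split_prime {p : ℕ} [hp : Fact p.Prime] (E : IntermediateField ℚ F)
    (hdeg : Module.finrank E F = p) (v : HeightOneSpectrum (𝓞 E))
    (hv : Ideal.absNorm v.asIdeal = p) (w : HeightOneSpectrum (𝓞 F))
    [hwv : w.asIdeal.LiesOver v.asIdeal]
    (hstab : ∀ σ : F ≃ₐ[E] F, σ • w.asIdeal = w.asIdeal → σ = 1) :
    (∀ x : 𝓞 E, x ≠ 0 → ordAt w (algebraMap (𝓞 E) (𝓞 F) x) = ordAt v x) ∧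
      ∀ (n : ℕ) (z : 𝓞 F), ∃ y : 𝓞 E, z - algebraMap (𝓞 E) (𝓞 F) y ∈ w.asIdeal ^ n := by
  set i := algebraMap (𝓞 E) (𝓞 F)
  have : IsGalois E F := IsGalois.tower_top_of_isGalois ℚ E F
  let P : (F ≃ₐ[E] F) → Ideal (𝓞 F) := fun σ => σ • w.asIdeal
  have hPinj : Function.Injective P := fun σ τ h => by
    refine (inv_mul_eq_one.1 (hstab (σ⁻¹ * τ) ?_))
    rw [mul_smul, inv_smul_eq_iff]
    exact h.symm
  have hPmax : ∀ σ, (P σ).IsMaximal := fun σ => by
    refine Ideal.IsPrime.isMaximal (inferInstanceAs (σ • w.asIdeal).IsPrime) fun h => w.ne_bot ?_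
    rw [← inv_smul_smul σ w.asIdeal, show σ • w.asIdeal = ⊥ from h, Ideal.pointwise_smul_def,
      Ideal.map_bot]
  have hle : v.asIdeal.map i ≤ ∏ σ, P σ := by
    rw [Ideal.prod_eq_iInf_of_pairwise_isCoprime]
    · refine le_iInf₂ fun σ _ => Ideal.map_le_iff_le_comap.2 fun x hx => ?_
      rw [Ideal.mem_comap, Ideal.mem_pointwise_smul_iff_inv_smul_mem,
        show σ⁻¹ • i x = i x from smul_algebraMap _ _]
      exact (Ideal.mem_of_liesOver w.asIdeal v.asIdeal x).1 hx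
    · intro a _ b _ hab
      exact Ideal.isCoprime_iff_sup_eq.2
        ((hPmax a).coprime_of_ne (hPmax b) fun h => hab (hPinj h))
  have hrank : Module.finrank (𝓞 E) (𝓞 F) = p := by
    rw [← hdeg, IsFractionRing.finrank_eq (𝓞 E) E (𝓞 F) F]
  have hN : ∀ σ, Ideal.absNorm (P σ) = Ideal.absNorm w.asIdeal := fun σ => by
    simp only [Ideal.absNorm_apply, Submodule.cardQuot_apply]
    refine (Nat.card_congr (Ideal.quotientEquiv w.asIdeal (P σ)
      (MulSemiringAction.toRingEquiv (F ≃ₐ[E] F) (𝓞 F) σ) ?_).toEquiv).symm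
    simp only [P, Ideal.pointwise_smul_def]
    rfl
  obtain ⟨J, hJ⟩ := Ideal.dvd_iff_le.2 hle
  have hcard : Fintype.card (F ≃ₐ[E] F) = p := by
    rw [← Nat.card_eq_fintype_card, IsGalois.card_aut_eq_finrank, hdeg]
  have hNJ := congrArg Ideal.absNorm hJ
  rw [map_mul, map_prod, Finset.prod_congr rfl fun σ _ => hN σ, Finset.prod_const,
    Finset.card_univ, hcard, Ideal.absNorm_algebraMap, hrank, hv] at hNJ
  obtain ⟨f, -, hf⟩ := (Nat.dvd_prime_pow hp.out).1 (Dvd.intro _ hNJ.symm)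
  have hNwdvd : Ideal.absNorm w.asIdeal ∣ p := (Nat.pow_dvd_pow_iff hp.out.ne_zero).1
    (Dvd.intro _ hNJ.symm)
  have hNw : Ideal.absNorm w.asIdeal = p := ((Nat.dvd_prime hp.out).1 hNwdvd).resolve_left
    fun h => w.isPrime.ne_top (Ideal.absNorm_eq_one_iff.1 h)
  have hJtop : J = ⊤ := by
    rw [hNw] at hNJ
    exact Ideal.absNorm_eq_one_iff.1
      (Nat.eq_of_mul_eq_mul_left (pow_pos hp.out.pos _) (hNJ.symm.trans (mul_one _).symm))
  rw [hJtop, Ideal.mul_top, ← Finset.mul_prod_erase _ _ (Finset.mem_univ (1 : F ≃ₐ[E] F))] at hJ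
  have hP1 : P 1 = w.asIdeal := one_smul _ w.asIdeal
  have hinj : Function.Injective i := FaithfulSMul.algebraMap_injective (𝓞 E) (𝓞 F)
  have hord : ∀ x : 𝓞 E, x ≠ 0 → ordAt w (i x) = ordAt v x := by
    have he : v.asIdeal.ramificationIdx' w.asIdeal = 1 := by
      refine Ideal.ramificationIdx'_spec ?_ ?_
      · rw [pow_one]
        exact Ideal.map_le_iff_le_comap.2 (le_of_eq hwv.over)
      · rw [hJ, hP1, pow_two, ← Ideal.dvd_iff_le, mul_dvd_mul_iff_left w.ne_bot,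
          Ideal.dvd_iff_le]
        intro h
        obtain ⟨σ, hσ, hσ'⟩ := w.isPrime.prod_le.1 h
        refine (Finset.mem_erase.1 hσ).1 (hPinj ?_)
        rw [hP1]
        exact (hPmax σ).eq_of_le w.isPrime.ne_top hσ'
    intro x hx
    refine ordAt_eq_of_intVal ((map_ne_zero_iff _ hinj).2 hx) ?_
    rw [← HeightOneSpectrum.intValuation_liesOver v w, intVal_eq_exp_ordAt v hx, he, pow_one]
  refine ⟨hord, fun n z => ?_⟩
  have hcomap : (w.asIdeal ^ n).comap i = v.asIdeal ^ n := by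
    ext x
    rw [Ideal.mem_comap]
    rcases eq_or_ne x 0 with rfl | hx
    · simp
    · rw [mem_pow_iff_le_ordAt w ((map_ne_zero_iff _ hinj).2 hx), mem_pow_iff_le_ordAt v hx,
        hord x hx]
  let q : 𝓞 E ⧸ v.asIdeal ^ n →+* 𝓞 F ⧸ w.asIdeal ^ n :=
    Ideal.quotientMap _ i (le_of_eq hcomap.symm)
  have hqinj : Function.Injective q := Ideal.quotientMap_injective' (le_of_eq hcomap)
  have hcF : Nat.card (𝓞 F ⧸ w.asIdeal ^ n) = p ^ n := by
    rw [← Submodule.cardQuot_apply, ← Ideal.absNorm_apply, map_pow, hNw]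
  have hcE : Nat.card (𝓞 E ⧸ v.asIdeal ^ n) = p ^ n := by
    rw [← Submodule.cardQuot_apply, ← Ideal.absNorm_apply, map_pow, hv]
  have : Finite (𝓞 F ⧸ w.asIdeal ^ n) :=
    Nat.finite_of_card_ne_zero (hcF ▸ (pow_pos hp.out.pos n).ne')
  have hqbij := (Nat.bijective_iff_injective_and_card q).2 ⟨hqinj, hcE.trans hcF.symm⟩
  obtain ⟨y, hy⟩ := hqbij.2 (Ideal.Quotient.mk _ z)
  obtain ⟨y, rfl⟩ := Ideal.Quotient.mk_surjective y
  refine ⟨y, Ideal.Quotient.eq.1 ?_⟩
  rw [← hy, Ideal.quotientMap_mk]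

/-- There is no extension at finite level. -/
theorem no_finite_extension {p : ℕ} [hp : Fact p.Prime] (h3 : 3 ≤ p) {ζ : F}
    (hζ : IsPrimitiveRoot ζ p) (χ b : Gal(F/ℚ) → ZMod p) (hχ : ∀ σ, σ ζ = ζ ^ (χ σ).val)
    (hb : ∀ σ τ, b (σ * τ) = χ τ * b σ + b τ) (hker : ∀ σ, χ σ = 1 → b σ = 0 → σ = 1)
    (τ₁ : Gal(F/ℚ)) (hτ₁ : χ τ₁ = 1) (hτ₁b : b τ₁ = 1)
    (hun : ∀ ℓ : ℕ, ℓ.Prime → ℓ ≠ p → ∀ w : HeightOneSpectrum (𝓞 F),
      (ℓ : 𝓞 F) ∈ w.asIdeal → w.asIdeal.inertia Gal(F/ℚ) = ⊥)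
    (hsplit : ∀ w : HeightOneSpectrum (𝓞 F), (p : 𝓞 F) ∈ w.asIdeal →
      ∀ σ : Gal(F/ℚ), σ • w.asIdeal = w.asIdeal → χ σ = 1 → σ = 1) : False := by
  obtain ⟨β, hβ0, hβ⟩ := exists_kummer_generator hζ χ b hχ hb hker τ₁ hτ₁ hτ₁b
  have hβF : (β : F) ≠ 0 := RingOfIntegers.coe_ne_zero_iff.2 hβ0
  have hχinj : ∀ {a c : ZMod p}, ζ ^ a.val = ζ ^ c.val → a = c := fun h =>
    ZMod.val_injective _ (hζ.pow_inj (ZMod.val_lt _) (ZMod.val_lt _) h)
  have hpow : ∀ {a : ZMod p} {n : ℕ}, (n : ZMod p) = a → ζ ^ n = ζ ^ a.val := by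
    intro a n h
    exact pow_congr_of_pow_eq_one hζ.pow_eq_one (by rw [h, ZMod.natCast_val, ZMod.cast_id])
  have hχmul : ∀ σ τ, χ (σ * τ) = χ σ * χ τ := fun σ τ => hχinj (by
    rw [← hχ, AlgEquiv.mul_apply, hχ τ, map_pow, hχ σ, ← pow_mul]
    exact hpow (by push_cast; simp only [ZMod.natCast_val, ZMod.cast_id', id]))
  have hχ1 : χ 1 = 1 := hχinj (by rw [← hχ, AlgEquiv.one_apply, ZMod.val_one, pow_one])
  have hb1 : b 1 = 0 := by
    have := hb 1 1
    rw [mul_one, hχ1, one_mul] at this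
    simpa using this
  -- the cyclotomic subfield
  let E : IntermediateField ℚ F := IntermediateField.adjoin ℚ {ζ}
  have : IsCyclotomicExtension {p} ℚ E := hζ.intermediateField_adjoin_isCyclotomicExtension ℚ
  have : IsGalois E F := IsGalois.tower_top_of_isGalois ℚ E F
  have hζE : ζ ∈ E := IntermediateField.mem_adjoin_simple_self ℚ ζ
  have hEfix : ∀ τ : F ≃ₐ[E] F, χ (τ.restrictScalars ℚ) = 1 := fun τ => hχinj (by
    rw [← hχ, ZMod.val_one, pow_one]
    exact τ.commutes ⟨ζ, hζE⟩)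
  have hfixE : ∀ τ : Gal(F/ℚ), χ τ = 1 → ∀ x : E, τ (x : F) = x := by
    intro τ hτ x
    refine IntermediateField.adjoin_induction ℚ (p := fun y _ => τ y = y) ?_ (fun r => τ.commutes r)
      (fun a b _ _ ha hb' => by rw [map_add, ha, hb']) (fun a _ ha => by rw [map_inv₀, ha])
      (fun a b _ _ ha hb' => by rw [map_mul, ha, hb']) x.2
    rintro y rfl
    rw [hχ, hτ, ZMod.val_one, pow_one]
  have hmemE : ∀ x : F, (∀ τ, χ τ = 1 → τ x = x) → x ∈ E := fun x hx => by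
    obtain ⟨e, he⟩ := (IsGalois.mem_range_algebraMap_iff_fixed x).2
      fun τ : F ≃ₐ[E] F => hx (τ.restrictScalars ℚ) (hEfix τ)
    exact he ▸ e.2
  -- `α`
  have hαfix : ∀ τ, χ τ = 1 → τ ((β : F) ^ p) = (β : F) ^ p := fun τ hτ => by
    rw [map_pow, hβ τ hτ, mul_pow, ← pow_mul, mul_comm (b τ).val p, pow_mul, hζ.pow_eq_one, one_pow, one_mul]
  let αE : E := ⟨(β : F) ^ p, hmemE _ hαfix⟩
  have hαint : IsIntegral ℤ αE := by
    rw [← isIntegral_algebraMap_iff (A := E) (B := F) (algebraMap E F).injective]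
    exact (RingOfIntegers.isIntegral_coe β).pow p
  let α : 𝓞 E := ⟨αE, hαint⟩
  set i := algebraMap (𝓞 E) (𝓞 F)
  have hinj : Function.Injective i := FaithfulSMul.algebraMap_injective (𝓞 E) (𝓞 F)
  have hiα : i α = β ^ p := RingOfIntegers.ext rfl
  have hα0 : α ≠ 0 := fun h => pow_ne_zero p hβ0 (by rw [← hiα, h, map_zero])
  -- eigen property
  have heig0 : ∀ a : (ZMod p)ˣ, ∃ γ : E, sg p E a (αE) = αE ^ (a : ZMod p).val ^ 2 * γ ^ p := by
    intro a
    have : IsGalois ℚ E := IsCyclotomicExtension.isGalois {p} ℚ E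
    set σ : Gal(F/ℚ) := (sg p E a).liftNormal F
    have hσE : ∀ x : E, σ (x : F) = ((sg p E a x : E) : F) := fun x =>
      (sg p E a).liftNormal_commutes F x
    have hχσ : χ σ = (a : ZMod p) := by
      obtain ⟨j, -, hj⟩ := (zK_spec p E).eq_pow_of_pow_eq_one
        (ξ := (⟨ζ, hζE⟩ : E)) (Subtype.ext (by simpa using hζ.pow_eq_one))
      have hj' : (zK p E : F) ^ j = ζ := by
        have := congrArg (fun e : E => (e : F)) hj
        simpa using this
      refine hχinj ?_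
      rw [← hχ, ← hj', map_pow, hσE, sg_apply_zK, ← pow_mul, mul_comm, pow_mul]
      push_cast
      rfl
    set e := (a : ZMod p).val ^ 2
    have hfix : ∀ τ, χ τ = 1 → τ (σ (β : F) / (β : F) ^ e) = σ (β : F) / (β : F) ^ e := by
      intro τ hτ
      have hconj : χ (σ⁻¹ * τ * σ) = 1 := by
        rw [hχmul, hχmul, hτ, mul_one, ← hχmul, inv_mul_cancel, hχ1]
      have hbconj : b (σ⁻¹ * τ * σ) = χ σ * b τ := by
        have h0 : 0 = χ σ * b σ⁻¹ + b σ := by
          rw [← hb, inv_mul_cancel, hb1]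
        rw [hb, hb, hτ, one_mul]
        linear_combination -h0
      have h1 : τ (σ (β : F)) = σ ((σ⁻¹ * τ * σ) (β : F)) := by
        simp only [AlgEquiv.mul_apply, AlgEquiv.aut_inv, AlgEquiv.apply_symm_apply]
      rw [map_div₀, map_pow, h1, hβ _ hconj, hbconj, map_mul, map_pow, hχ σ, hβ τ hτ, mul_pow,
        ← pow_mul, ← pow_mul]
      rw [show ζ ^ ((χ σ).val * (χ σ * b τ).val) = ζ ^ ((b τ).val * e) from
        pow_congr_of_pow_eq_one hζ.pow_eq_one (by
          push_cast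
          simp only [e, Nat.cast_pow, ZMod.natCast_val, ZMod.cast_id', id, hχσ]
          ring)]
      rw [mul_div_mul_left _ _ (pow_ne_zero _ (hζ.ne_zero hp.out.ne_zero))]
    refine ⟨⟨_, hmemE _ hfix⟩, Subtype.ext ?_⟩
    show ((sg p E a αE : E) : F) = _
    rw [← hσE]
    show σ ((β : F) ^ p) = ((β : F) ^ p) ^ e * (σ (β : F) / (β : F) ^ e) ^ p
    rw [map_pow, ← pow_mul, mul_comm p e, pow_mul, ← mul_pow,
      mul_div_cancel₀ _ (pow_ne_zero _ hβF)]
  -- the prime above p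
  have hπprime := prime_piK p E
  let vπ : HeightOneSpectrum (𝓞 E) := ⟨Ideal.span {piK p E},
    (Ideal.span_singleton_prime hπprime.ne_zero).2 hπprime, by simpa using hπprime.ne_zero⟩
  have hπN : Ideal.absNorm vπ.asIdeal = p := by
    show Ideal.absNorm (Ideal.span {piK p E}) = p
    rw [Ideal.absNorm_span_singleton, piK, zI,
      (zK_spec p E).norm_toInteger_sub_one_of_prime_ne_two' (by omega)]
    simp
  have hdegF : Module.finrank E F = p := by
    rw [← IsGalois.card_aut_eq_finrank]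
    have hτfix : ∀ x : E, τ₁ (x : F) = x := hfixE τ₁ hτ₁
    let t : F ≃ₐ[E] F := AlgEquiv.ofRingEquiv (f := τ₁.toRingEquiv) hτfix
    have hbpow : ∀ n : ℕ, b (τ₁ ^ n) = n ∧ χ (τ₁ ^ n) = 1 := fun n => by
      induction n with
      | zero => exact ⟨by simp [hb1], by simp [hχ1]⟩
      | succ n ih => exact ⟨by rw [pow_succ, hb, hτ₁, hτ₁b, ih.1, one_mul, Nat.cast_succ],
          by rw [pow_succ, hχmul, ih.2, hτ₁, one_mul]⟩
    have hbij : Function.Bijective (fun σ : F ≃ₐ[E] F => b (σ.restrictScalars ℚ)) := by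
      refine ⟨fun σ τ h => ?_, fun k => ?_⟩
      · have h1 : (σ.restrictScalars ℚ)⁻¹ * τ.restrictScalars ℚ = 1 := by
          refine hker _ ?_ ?_
          · have := hEfix (σ⁻¹ * τ)
            convert this using 2
            exact AlgEquiv.ext fun _ => rfl
          · have h0 : b ((σ.restrictScalars ℚ)⁻¹) + b (σ.restrictScalars ℚ) = 0 := by
              have := hb (σ.restrictScalars ℚ)⁻¹ (σ.restrictScalars ℚ)
              rw [inv_mul_cancel, hb1, hEfix σ, one_mul] at this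
              exact this.symm
            rw [hb, hEfix τ, one_mul]
            have h' : b (σ.restrictScalars ℚ) = b (τ.restrictScalars ℚ) := h
            linear_combination h0 - h'
        exact AlgEquiv.ext fun x => DFunLike.congr_fun (inv_mul_eq_one.1 h1) x
      · refine ⟨AlgEquiv.ofRingEquiv (f := (τ₁ ^ k.val : Gal(F/ℚ)).toRingEquiv)
          (hfixE _ (hbpow k.val).2), ?_⟩
        show b (τ₁ ^ k.val) = k
        rw [(hbpow k.val).1, ZMod.natCast_val, ZMod.cast_id]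
    rw [Nat.card_congr (Equiv.ofBijective _ hbij), Nat.card_zmod]
  have hpπ : (p : 𝓞 E) ∈ vπ.asIdeal := Ideal.mem_span_singleton.2 (piK_dvd_p p E)
  obtain ⟨wπ, hwπ⟩ := exists_liesOver_prime E vπ
  have hpw : (p : 𝓞 F) ∈ wπ.asIdeal := by
    rw [← map_natCast i]; exact (Ideal.mem_of_liesOver wπ.asIdeal vπ.asIdeal _).1 hpπ
  obtain ⟨hordπ, hsurj⟩ := split_prime E hdegF vπ hπN wπ fun σ hσ => by
    have := hsplit wπ hpw (σ.restrictScalars ℚ) (by
      ext x
      have := congrArg (fun I : Ideal (𝓞 F) => x ∈ I) hσ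
      simp only [Ideal.mem_pointwise_smul_iff_inv_smul_mem] at this ⊢
      rw [← eq_iff_iff]
      convert this using 2
      rfl) (hEfix σ)
    exact AlgEquiv.ext fun x => DFunLike.congr_fun this x
  -- divisibility of the orders
  have hdiv : ∀ v : HeightOneSpectrum (𝓞 E), p ∣ ordAt v α := by
    intro v
    by_cases hpv : (p : 𝓞 E) ∈ v.asIdeal
    · have hv : v = vπ := by
        obtain ⟨u, hu⟩ : Associated ((p : 𝓞 E)) (piK p E ^ (p - 1)) :=
          associated_natCast_pow_piK (K := E) (p := p)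
        have h1 : piK p E ^ (p - 1) ∈ v.asIdeal := hu ▸ Ideal.mul_mem_right _ _ hpv
        refine HeightOneSpectrum.ext ((vπ.isMaximal.eq_of_le v.isPrime.ne_top ?_).symm)
        exact (Ideal.span_singleton_le_iff_mem _).2 (v.isPrime.mem_of_pow_mem _ h1)
      subst hv
      refine ⟨ordAt wπ β, ?_⟩
      rw [← hordπ α hα0, hiα, ordAt_pow wπ hβ0]
    · obtain ⟨w, hw⟩ := exists_liesOver_prime E v
      obtain ⟨ℓ, hℓ, hℓv⟩ : ∃ ℓ : ℕ, ℓ.Prime ∧ (ℓ : 𝓞 E) ∈ v.asIdeal := by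
        obtain ⟨hl, hmem, -, -⟩ := baseP_spec E v
        exact ⟨baseP E v, hl, hmem⟩
      have hℓp : ℓ ≠ p := fun h => hpv (h ▸ hℓv)
      refine ⟨ordAt w β, ?_⟩
      rw [← ordAt_algebraMap_of_inertia_eq_bot E v w (hun ℓ hℓ hℓp w (by
        rw [← map_natCast i]; exact (Ideal.mem_of_liesOver w.asIdeal v.asIdeal _).1 hℓv)) hα0,
        hiα, ordAt_pow w hβ0]
  -- normalisation
  obtain ⟨n, α', hα', hαeq⟩ := WfDvdMonoid.max_power_factor hα0 hπprime.irreducible
  have hα'0 : α' ≠ 0 := fun h => hα0 (by rw [hαeq, h, mul_zero])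
  have hπv : ∀ v : HeightOneSpectrum (𝓞 E), v ≠ vπ → ordAt v (piK p E) = 0 := fun v hv => by
    rw [ordAt_eq_zero_iff v hπprime.ne_zero]
    intro h
    exact hv (HeightOneSpectrum.ext ((vπ.isMaximal.eq_of_le v.isPrime.ne_top
      ((Ideal.span_singleton_le_iff_mem _).2 h)).symm))
  have hordπ1 : ordAt vπ (piK p E) = 1 := by
    rw [ordAt_eq_one_iff vπ hπprime.ne_zero]
    refine ⟨Ideal.mem_span_singleton_self _, ?_⟩
    show piK p E ∉ Ideal.span {piK p E} ^ 2
    rw [Ideal.span_singleton_pow, Ideal.mem_span_singleton]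
    intro h
    obtain ⟨c, hc⟩ := h
    exact hπprime.not_isUnit (IsUnit.of_mul_eq_one c
      (mul_left_cancel₀ hπprime.ne_zero (by rw [mul_one, ← mul_assoc, ← pow_two, ← hc])))
  have hα'π : ordAt vπ α' = 0 :=
    (ordAt_eq_zero_iff vπ hα'0).2 fun h => hα' (Ideal.mem_span_singleton.1 h)
  have hn : p ∣ n := by
    have := hdiv vπ
    rwa [hαeq, ordAt_mul vπ (pow_ne_zero _ hπprime.ne_zero) hα'0, ordAt_pow vπ hπprime.ne_zero,
      hordπ1, hα'π, mul_one, add_zero] at this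
  obtain ⟨m, rfl⟩ := hn
  have hdiv' : ∀ v, p ∣ ordAt v α' := by
    intro v
    by_cases hv : v = vπ
    · rw [hv, hα'π]; exact dvd_zero p
    · have := hdiv v
      rwa [hαeq, ordAt_mul v (pow_ne_zero _ hπprime.ne_zero) hα'0, ordAt_pow v hπprime.ne_zero,
        hπv v hv, mul_zero, zero_add] at this
  -- the ideal root
  set T := (finite_ordAt hα'0).toFinset
  have hI : Ideal.span {α'} = (∏ v ∈ T, v.asIdeal ^ (ordAt v α' / p)) ^ p := by
    rw [← Finset.prod_pow, ← finprod_ordAt hα'0, finprod_eq_prod_of_mulSupport_subset _ (s := T)]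
    · refine Finset.prod_congr rfl fun v _ => ?_
      rw [← pow_mul, Nat.div_mul_cancel (hdiv' v)]
    · intro v hv
      rw [Function.mem_mulSupport] at hv
      exact Finset.mem_coe.2 ((finite_ordAt hα'0).mem_toFinset.2
        fun h : ordAt v α' = 0 => hv (by rw [h, pow_zero]))
  -- the root in F
  set πF : F := ((piK p E : E) : F) with hπF
  have hπF0 : πF ≠ 0 := by
    rw [hπF]
    simp only [ne_eq, ZeroMemClass.coe_eq_zero]
    exact RingOfIntegers.coe_ne_zero_iff.2 hπprime.ne_zero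
  have hαF : (β : F) ^ p = (πF ^ m) ^ p * ((α' : E) : F) := by
    have h := congrArg (fun z : 𝓞 E => ((z : E) : F)) hαeq
    rw [← pow_mul, mul_comm m p, hπF]
    show ((α : E) : F) = _
    simp only [RingOfIntegers.coe_eq_algebraMap] at h ⊢
    simpa using h
  set β' : F := (β : F) / πF ^ m
  have hβ'p : β' ^ p = ((α' : E) : F) := by
    rw [div_pow, hαF, mul_div_cancel_left₀ _ (pow_ne_zero _ (pow_ne_zero _ hπF0))]
  have hβ'int : IsIntegral ℤ β' := IsIntegral.of_pow hp.out.pos (by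
    rw [hβ'p]
    exact ((RingOfIntegers.isIntegral_coe α').map (E.val.restrictScalars ℤ)))
  let βI : 𝓞 F := ⟨β', hβ'int⟩
  have hβI : βI ^ p = i α' := RingOfIntegers.ext hβ'p
  have hloc : ∃ y : 𝓞 E, piK p E ^ 3 ∣ α' - y ^ p := by
    obtain ⟨y, hy⟩ := hsurj 3 βI
    refine ⟨y, ?_⟩
    have h2 : i (α' - y ^ p) ∈ wπ.asIdeal ^ 3 := by
      rw [map_sub, map_pow, ← hβI]
      obtain ⟨c, hc⟩ := sub_dvd_pow_sub_pow βI (i y) p
      rw [hc]
      exact Ideal.mul_mem_right _ _ hy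
    rcases eq_or_ne (α' - y ^ p) 0 with h0 | h0
    · rw [h0]; exact dvd_zero _
    · rw [mem_pow_iff_le_ordAt wπ ((map_ne_zero_iff _ hinj).2 h0), hordπ _ h0,
        ← mem_pow_iff_le_ordAt vπ h0] at h2
      change α' - y ^ p ∈ Ideal.span {piK p E} ^ 3 at h2
      rwa [Ideal.span_singleton_pow, Ideal.mem_span_singleton] at h2
  have hαE' : αE = (piK p E : E) ^ (p * m) * (α' : E) := by
    have h := congrArg (fun z : 𝓞 E => (z : E)) hαeq
    simpa [α] using h
  have hπE0 : (piK p E : E) ≠ 0 := RingOfIntegers.coe_ne_zero_iff.2 hπprime.ne_zero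
  have heig : ∀ a : (ZMod p)ˣ, ∃ γ : E,
      sg p E a (α' : E) = (α' : E) ^ (a : ZMod p).val ^ 2 * γ ^ p := by
    intro a
    obtain ⟨γ, hγ⟩ := heig0 a
    set e := (a : ZMod p).val ^ 2
    have hσπ : sg p E a (piK p E : E) ≠ 0 := by simpa using hπE0
    refine ⟨(piK p E : E) ^ (m * e) * γ / (sg p E a (piK p E : E)) ^ m, ?_⟩
    rw [hαE', map_mul, map_pow, mul_pow, ← pow_mul] at hγ
    rw [div_pow, ← mul_div_assoc, eq_div_iff (pow_ne_zero _ (pow_ne_zero _ hσπ)), mul_pow,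
      ← pow_mul, ← pow_mul, mul_comm m p, show m * e * p = p * m * e by ring]
    linear_combination hγ
  obtain ⟨γ, hγ⟩ := no_singular h3 α' hα'0 _ hI heig hα' hloc
  -- contradiction
  have hγF : β' ^ p = (γ : F) ^ p := by
    rw [hβ'p, ← hγ]; push_cast; rfl
  have hγ0 : (γ : F) ≠ 0 := by
    intro h
    rw [h, zero_pow hp.out.ne_zero] at hγF
    exact div_ne_zero hβF (pow_ne_zero m hπF0) (pow_eq_zero_iff hp.out.ne_zero |>.1 hγF)
  have hroot : (β' / (γ : F)) ^ p = 1 := by rw [div_pow, hγF, div_self (pow_ne_zero _ hγ0)]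
  obtain ⟨j, -, hj⟩ := hζ.eq_pow_of_pow_eq_one hroot
  have hfixed : τ₁ β' = β' := by
    rw [(eq_div_iff hγ0).1 hj |>.symm, map_mul, map_pow, hχ τ₁, hτ₁, ZMod.val_one, pow_one,
      hfixE τ₁ hτ₁ γ]
  rw [map_div₀, map_pow, hπF, hfixE τ₁ hτ₁, hβ τ₁ hτ₁, hτ₁b, ZMod.val_one, pow_one,
    div_left_inj' (pow_ne_zero _ hπF0)] at hfixed
  exact hζ.ne_one hp.out.one_lt ((mul_eq_right₀ hβF).1 hfixed)

end FLTAgent.Thaine
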