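import Mathlib

/-!
# Orders of elements at primes of a Dedekind domain

`ordAt v x` is the exponent of `v` in `(x)`, defined through the `v`-adic valuation.  The file
proves its basic rules (`ordAt_mul`, `ordAt_pow`, `mem_pow_iff_le_ordAt`), the factorisation
`finprod_ordAt` of a principal ideal, and `exists_mul_eq_pow_mul`, which writes an element as a
power of a uniformiser up to factors prime to `v`.
-/

set_option autoImplicit false

noncomputable section

open IsDedekindDomain WithZero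
open scoped Classical

namespace FLTAgent.Thaine

variable {R : Type*} [CommRing R] [IsDedekindDomain R]

/-- The order of `x` at `v`. -/
def ordAt (v : HeightOneSpectrum R) (x : R) : ℕ :=
  (Associates.mk v.asIdeal).count (Associates.mk (Ideal.span {x} : Ideal R)).factors

theorem intVal_eq_exp_ordAt (v : HeightOneSpectrum R) {x : R} (hx : x ≠ 0) :
    v.intValuation x = exp (-(ordAt v x : ℤ)) := v.intValuation_if_neg hx

theorem ordAt_eq_of_intVal {v : HeightOneSpectrum R} {x : R} (hx : x ≠ 0) {n : ℕ}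
    (h : v.intValuation x = exp (-(n : ℤ))) : ordAt v x = n := by
  rw [intVal_eq_exp_ordAt v hx, exp_inj, neg_inj, Int.natCast_inj] at h
  exact h

theorem ordAt_mul (v : HeightOneSpectrum R) {x y : R} (hx : x ≠ 0) (hy : y ≠ 0) :
    ordAt v (x * y) = ordAt v x + ordAt v y := by
  refine ordAt_eq_of_intVal (mul_ne_zero hx hy) ?_
  rw [map_mul, intVal_eq_exp_ordAt v hx, intVal_eq_exp_ordAt v hy, ← exp_add, Nat.cast_add,
    neg_add]

theorem ordAt_eq_of_associated (v : HeightOneSpectrum R) {x y : R} (h : Associated x y) :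
    ordAt v x = ordAt v y := by
  rw [ordAt, ordAt, Ideal.span_singleton_eq_span_singleton.2 h]

theorem ordAt_pow (v : HeightOneSpectrum R) {x : R} (hx : x ≠ 0) (n : ℕ) :
    ordAt v (x ^ n) = n * ordAt v x := by
  refine ordAt_eq_of_intVal (pow_ne_zero _ hx) ?_
  rw [map_pow, intVal_eq_exp_ordAt v hx, ← exp_nsmul]
  simp

theorem mem_pow_iff_le_ordAt (v : HeightOneSpectrum R) {x : R} (hx : x ≠ 0) (n : ℕ) :
    x ∈ v.asIdeal ^ n ↔ n ≤ ordAt v x := by
  rw [← v.intValuation_le_pow_iff_mem, intVal_eq_exp_ordAt v hx, exp_le_exp]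
  omega

theorem ordAt_eq_one_iff (v : HeightOneSpectrum R) {x : R} (hx : x ≠ 0) :
    ordAt v x = 1 ↔ x ∈ v.asIdeal ∧ x ∉ v.asIdeal ^ 2 := by
  rw [mem_pow_iff_le_ordAt v hx 2]
  conv_rhs => rw [← pow_one v.asIdeal, mem_pow_iff_le_ordAt v hx 1]
  omega

theorem ordAt_eq_zero_iff (v : HeightOneSpectrum R) {x : R} (hx : x ≠ 0) :
    ordAt v x = 0 ↔ x ∉ v.asIdeal := by
  conv_rhs => rw [← pow_one v.asIdeal, mem_pow_iff_le_ordAt v hx 1]
  omega

/-- An element of order `n` is, up to a unit at `v`, the `n`-th power of a uniformiser. -/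
theorem exists_mul_eq_pow_mul (v : HeightOneSpectrum R) {x π : R} (hx : x ≠ 0)
    (hπ0 : π ≠ 0) (hπ : ordAt v π = 1) :
    ∃ d b : R, d ∉ v.asIdeal ∧ b ∉ v.asIdeal ∧ d * x = π ^ ordAt v x * b := by
  have hπv : v.asIdeal ∣ Ideal.span {π} := by
    rw [Ideal.dvd_span_singleton]
    exact ((ordAt_eq_one_iff v hπ0).1 hπ).1
  obtain ⟨J, hJ⟩ := hπv
  have hJn : ¬ J ≤ v.asIdeal := fun hle => ((ordAt_eq_one_iff v hπ0).1 hπ).2 (by
    rw [← Ideal.span_singleton_le_iff_mem, hJ, pow_two]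
    exact Ideal.mul_mono le_rfl hle)
  obtain ⟨d₀, hd₀, hd₀'⟩ := SetLike.not_le_iff_exists.1 hJn
  set n := ordAt v x
  have hxn : x ∈ v.asIdeal ^ n := (mem_pow_iff_le_ordAt v hx n).2 le_rfl
  have hd : d₀ ^ n * x ∈ Ideal.span {π ^ n} := by
    rw [← Ideal.span_singleton_pow, hJ, mul_pow, mul_comm (v.asIdeal ^ n)]
    exact Ideal.mul_mem_mul (Ideal.pow_mem_pow hd₀ n) hxn
  obtain ⟨b, hb⟩ := Ideal.mem_span_singleton'.1 hd
  have hdn : d₀ ^ n ∉ v.asIdeal := fun h => hd₀' (v.isPrime.mem_of_pow_mem n h)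
  refine ⟨d₀ ^ n, b, hdn, ?_, by rw [← hb, mul_comm]⟩
  have hdne : d₀ ^ n ≠ 0 := fun h => hdn (h ▸ Submodule.zero_mem _)
  have hbne : b ≠ 0 := fun h => by
    rw [h, zero_mul] at hb
    exact (mul_ne_zero hdne hx) hb.symm
  rw [← ordAt_eq_zero_iff v hbne]
  have := congrArg (ordAt v) hb
  rw [ordAt_mul v hbne (pow_ne_zero _ hπ0), ordAt_mul v hdne hx,
    (ordAt_eq_zero_iff v hdne).2 hdn, ordAt_pow v hπ0, hπ] at this
  omega

theorem finprod_ordAt {x : R} (hx : x ≠ 0) :
    ∏ᶠ v : HeightOneSpectrum R, v.asIdeal ^ ordAt v x = Ideal.span {x} :=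
  Ideal.finprod_heightOneSpectrum_factorization (by simpa [Submodule.zero_eq_bot] using hx)

theorem finite_ordAt {x : R} (hx : x ≠ 0) :
    Set.Finite {v : HeightOneSpectrum R | ordAt v x ≠ 0} := by
  have := Associates.finite_factors (R := R) (I := Ideal.span {x})
    (by simpa [Submodule.zero_eq_bot] using hx)
  refine (Filter.eventually_cofinite.1 this).subset fun v hv => ?_
  show ¬ (_ : ℤ) = 0
  exact_mod_cast hv

end FLTAgent.Thaine
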