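import Fermat.Agent.Thaine.Translate
import Fermat.Agent.Density.Euler

/-!
# Partial zeta functions of ideal classes

`exists_pZeta_sub_bound`: the partial zeta functions `pZeta C s` of any two classes differ by a
bounded amount as `s → 1⁺`; `exists_classL_bound`: hence the `L`-function `classL χ s` of a
nontrivial character of the class group stays bounded there.  The comparison writes both as sums
of weighted norms over the integers and over an ideal of finite index and applies the translation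
bound, so no residue formula is needed.
-/

set_option autoImplicit false

noncomputable section

open NumberField Filter Topology FLTAgent.Density
open scoped Classical nonZeroDivisors

namespace FLTAgent.Thaine

variable {K : Type*} [Field K] [NumberField K]

/-- The class of an ideal (`1` for the zero ideal). -/
def cls (I : Ideal (𝓞 K)) : ClassGroup (𝓞 K) :=
  if h : I ≠ ⊥ then ClassGroup.mk0 ⟨I, mem_nonZeroDivisors_of_ne_zero h⟩ else 1

theorem cls_mul {I J : Ideal (𝓞 K)} (hI : I ≠ ⊥) (hJ : J ≠ ⊥) : cls (I * J) = cls I * cls J := by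
  rw [cls, cls, cls, dif_pos (show I * J ≠ ⊥ from mul_ne_zero hI hJ), dif_pos hI, dif_pos hJ, ← map_mul]
  congr 1

theorem cls_eq_one_iff {I : Ideal (𝓞 K)} (hI : I ≠ ⊥) :
    cls I = 1 ↔ Submodule.IsPrincipal I := by
  rw [cls, dif_pos hI, ClassGroup.mk0_eq_one_iff]

theorem exists_cls_eq (C : ClassGroup (𝓞 K)) : ∃ J : Ideal (𝓞 K), J ≠ ⊥ ∧ cls J = C := by
  obtain ⟨⟨J, hJ⟩, rfl⟩ := ClassGroup.mk0_surjective C
  exact ⟨J, nonZeroDivisors.ne_zero hJ, dif_pos (nonZeroDivisors.ne_zero hJ)⟩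

/-- The partial zeta function of a class. -/
def pZeta (C : ClassGroup (𝓞 K)) (s : ℝ) : ℝ :=
  ∑' I : {I : Ideal (𝓞 K) // I ≠ ⊥ ∧ cls I = C}, normRpow K s I.1

theorem pZeta_le (C : ClassGroup (𝓞 K)) {s : ℝ}
    (hsum : Summable fun I : {I : Ideal (𝓞 K) // I ≠ ⊥} => normRpow K s I.1) :
    pZeta C s ≤ idealZeta K s := by
  have hi : Function.Injective
      fun I : {I : Ideal (𝓞 K) // I ≠ ⊥ ∧ cls I = C} => (⟨I.1, I.2.1⟩ : {I : Ideal (𝓞 K) // I ≠ ⊥}) :=
    fun a b hab => Subtype.ext (congrArg Subtype.val hab :)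
  exact (hsum.comp_injective hi).tsum_le_tsum_of_inj _ hi (fun I _ => normRpow_nonneg K s _)
    (fun I => le_rfl) hsum

theorem pZeta_nonneg (C : ClassGroup (𝓞 K)) (s : ℝ) : 0 ≤ pZeta C s :=
  tsum_nonneg fun _ => normRpow_nonneg K s _

theorem exp_lnorm_eq_normRpow {g : 𝓞 K} (hg : g ≠ 0) (s : ℝ) :
    Real.exp (-s * lnorm K (g : K)) = normRpow K s (Ideal.span {g}) := by
  rw [exp_neg_mul_lnorm (by simpa using hg), normRpow_apply, Ideal.absNorm_span_singleton,
    ← Algebra.coe_norm_int g, Nat.cast_natAbs]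
  push_cast
  rfl

theorem hasSum_wnorm_ideal {J : Ideal (𝓞 K)} (hJ : J ≠ ⊥) {s : ℝ}
    (hsum : Summable fun I : {I : Ideal (𝓞 K) // I ≠ ⊥} => normRpow K s I.1) :
    HasSum (fun a : J => wnorm K s ((a : 𝓞 K) : K))
      ((Units.torsionOrder K : ℝ) * normRpow K s J * pZeta (cls J)⁻¹ s) := by
  set Idx := {I : Ideal (𝓞 K) // I ≠ ⊥ ∧ cls I = (cls J)⁻¹}
  have hprin : ∀ I : Idx, Submodule.IsPrincipal (I.1 * J) := fun I => by
    rw [← cls_eq_one_iff (mul_ne_zero I.2.1 hJ), cls_mul I.2.1 hJ, I.2.2, inv_mul_cancel]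
  set gen : Idx → 𝓞 K := fun I => @Submodule.IsPrincipal.generator _ _ _ _ _ (I.1 * J) (hprin I)
  have hgen : ∀ I : Idx, Ideal.span {gen I} = I.1 * J := fun I =>
    @Ideal.span_singleton_generator _ _ (I.1 * J) (hprin I)
  have hgen0 : ∀ I, gen I ≠ 0 := fun I h0 => mul_ne_zero I.2.1 hJ
    (by rw [Ideal.zero_eq_bot, ← hgen I, h0, Ideal.span_singleton_eq_bot])
  have hmem : ∀ (I : Idx) (u : (𝓞 K)ˣ), (u : 𝓞 K) * gen I ∈ J := fun I u =>
    J.mul_mem_left _ ((Ideal.mul_le_inf.trans inf_le_right : I.1 * J ≤ J) (by rw [← hgen I]; exact Ideal.mem_span_singleton_self _))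
  let f : (Σ _ : Idx, (𝓞 K)ˣ) → J := fun x => ⟨x.2 * gen x.1, hmem x.1 x.2⟩
  have hf : Function.Injective f := by
    rintro ⟨I, u⟩ ⟨I', u'⟩ h
    have h' : (u : 𝓞 K) * gen I = u' * gen I' := congrArg Subtype.val h
    have hII : I = I' := by
      refine Subtype.ext (mul_right_cancel₀ hJ ?_)
      rw [← hgen I, ← hgen I', ← Ideal.span_singleton_mul_left_unit u.isUnit (gen I), h',
        Ideal.span_singleton_mul_left_unit u'.isUnit]
    subst hII
    simp only [Sigma.mk.injEq, heq_eq_eq, true_and]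
    exact Units.ext (mul_right_cancel₀ (hgen0 I) h')
  have hrange : ∀ a : J, a ∉ Set.range f → wnorm K s ((a : 𝓞 K) : K) = 0 := by
    intro a ha
    by_contra hne
    have ha0 : (a : 𝓞 K) ≠ 0 := fun h0 => hne (by simp [h0, wnorm])
    obtain ⟨I, hI⟩ : J ∣ Ideal.span {(a : 𝓞 K)} :=
      Ideal.dvd_iff_le.2 (by rw [Ideal.span_singleton_le_iff_mem]; exact a.2)
    have hI0 : I ≠ ⊥ := fun h0 => ha0 (by
      rw [← Ideal.span_singleton_eq_bot, hI, h0, Ideal.mul_bot])
    have hIc : cls I = (cls J)⁻¹ := by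
      rw [eq_inv_iff_mul_eq_one, ← cls_mul hI0 hJ, mul_comm I J, ← hI,
        cls_eq_one_iff (by simpa using ha0)]
      exact ⟨⟨_, rfl⟩⟩
    obtain ⟨u, hu⟩ : Associated (gen ⟨I, hI0, hIc⟩) (a : 𝓞 K) := by
      rw [← Ideal.span_singleton_eq_span_singleton, hgen, hI, mul_comm]
    exact ha ⟨⟨⟨I, hI0, hIc⟩, u⟩, Subtype.ext (by simp [f, ← hu, mul_comm])⟩
  rw [← hf.hasSum_iff hrange]
  have hfib : ∀ I : Idx, HasSum (fun u : (𝓞 K)ˣ => wnorm K s ((f ⟨I, u⟩ : 𝓞 K) : K))
      ((Units.torsionOrder K : ℝ) * (normRpow K s J * normRpow K s I.1)) := by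
    intro I
    have := hasSum_wnorm_units s (x := ((gen I : 𝓞 K) : K)) (by simpa using hgen0 I)
    rw [exp_lnorm_eq_normRpow (hgen0 I), hgen, map_mul, mul_comm (normRpow K s I.1)] at this
    refine this.congr_fun fun u => ?_
    simp [f]
  have hout : Summable fun I : Idx => (Units.torsionOrder K : ℝ) * (normRpow K s J * normRpow K s I.1) := by
    have hi : Function.Injective fun I : Idx => (⟨I.1, I.2.1⟩ : {I : Ideal (𝓞 K) // I ≠ ⊥}) :=
      fun a b hab => Subtype.ext (congrArg Subtype.val hab :)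
    exact (((hsum.comp_injective hi).mul_left _).mul_left _)
  have hsig : Summable fun x : Σ _ : Idx, (𝓞 K)ˣ => wnorm K s ((f x : 𝓞 K) : K) :=
    (summable_sigma_of_nonneg fun x => wnorm_nonneg s _).2
      ⟨fun I => (hfib I).summable, hout.congr fun I => (hfib I).tsum_eq.symm⟩
  refine hsig.hasSum_iff.2 ?_
  rw [hsig.tsum_sigma' fun I => (hfib I).summable, tsum_congr fun I => (hfib I).tsum_eq, pZeta,
    ← tsum_mul_left]
  exact tsum_congr fun I => by ring

theorem exists_sum_wnorm_bound {J : Ideal (𝓞 K)} (hJ : J ≠ ⊥) : ∃ B : ℝ, ∀ s ∈ Set.Icc (1 : ℝ) 2,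
    (Summable fun I : {I : Ideal (𝓞 K) // I ≠ ⊥} => normRpow K s I.1) →
    |(Units.torsionOrder K : ℝ) * pZeta (1 : ClassGroup (𝓞 K)) s - (Ideal.absNorm J : ℝ) *
      ((Units.torsionOrder K : ℝ) * normRpow K s J * pZeta (cls J)⁻¹ s)| ≤ B := by
  have : Finite (𝓞 K ⧸ J) := Ideal.finiteQuotientOfFreeOfNeBot J hJ
  have : Fintype (𝓞 K ⧸ J) := Fintype.ofFinite _
  choose g hg hgb using fun q : 𝓞 K ⧸ J => exists_translate_bound (K := K) (Quotient.out q)
  refine ⟨∑ q : 𝓞 K ⧸ J, ∑' a : J, g q a, fun s hs hsum => ?_⟩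
  have hJs := hasSum_wnorm_ideal hJ hsum
  have hOs := hasSum_wnorm_ideal (K := K) (J := ⊤) top_ne_bot hsum
  have h1 : cls (⊤ : Ideal (𝓞 K)) = 1 := (cls_eq_one_iff top_ne_bot).2 inferInstance
  rw [h1, inv_one, show normRpow K s (⊤ : Ideal (𝓞 K)) = 1 by simp [normRpow_apply], mul_one] at hOs
  let f : (𝓞 K ⧸ J) × J → (⊤ : Ideal (𝓞 K)) := fun x =>
    ⟨Quotient.out x.1 + (x.2 : 𝓞 K), Submodule.mem_top⟩
  have hf : Function.Bijective f := by
    constructor
    · rintro ⟨q, j⟩ ⟨q', j'⟩ h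
      have h' : Quotient.out q + (j : 𝓞 K) = Quotient.out q' + (j' : 𝓞 K) := congrArg Subtype.val h
      have hq : q = q' := by
        have := congrArg (Ideal.Quotient.mk J) h'
        rwa [map_add, map_add, Ideal.Quotient.eq_zero_iff_mem.2 j.2,
          Ideal.Quotient.eq_zero_iff_mem.2 j'.2, add_zero, add_zero, Ideal.Quotient.mk_out,
          Ideal.Quotient.mk_out] at this
      subst hq
      simpa using h'
    · rintro ⟨a, -⟩
      refine ⟨⟨Ideal.Quotient.mk J a, ⟨a - Quotient.out (Ideal.Quotient.mk J a), ?_⟩⟩, ?_⟩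
      · rw [← Ideal.Quotient.eq_zero_iff_mem, map_sub, Ideal.Quotient.mk_out, sub_self]
      · exact Subtype.ext (add_sub_cancel _ _)
  have hOs' : HasSum (fun x : (𝓞 K ⧸ J) × J => wnorm K s (((f x : 𝓞 K)) : K))
      ((Units.torsionOrder K : ℝ) * pZeta (1 : ClassGroup (𝓞 K)) s) :=
    (Equiv.ofBijective f hf).hasSum_iff.2 hOs
  have hfib : ∀ q, Summable fun a : J => wnorm K s ((f (q, a) : 𝓞 K) : K) := fun q =>
    hOs'.summable.comp_injective (fun a b h => (Prod.ext_iff.1 h).2)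
  rw [← hOs'.tsum_eq, hOs'.summable.tsum_prod' hfib, tsum_fintype, ← hJs.tsum_eq,
    show (Ideal.absNorm J : ℝ) = ((Finset.univ : Finset (𝓞 K ⧸ J)).card : ℝ) by
      rw [Ideal.absNorm_apply, Submodule.cardQuot_apply, Nat.card_eq_fintype_card, Finset.card_univ],
    ← nsmul_eq_mul, ← Finset.sum_const, ← Finset.sum_sub_distrib]
  refine (Finset.abs_sum_le_sum_abs _ _).trans (Finset.sum_le_sum fun q _ => ?_)
  rw [← (hfib q).tsum_sub hJs.summable, ← Real.norm_eq_abs]
  have hgJ : Summable fun a : J => g q a := (hg q).comp_injective Subtype.val_injective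
  refine tsum_of_norm_bounded hgJ.hasSum fun a => ?_
  rw [Real.norm_eq_abs]
  simp only [f, add_comm (Quotient.out q) (a : 𝓞 K)]
  exact hgb q s hs a

/-- The partial zeta function of a class differs from that of the trivial class by a bounded
amount near `1`. -/
theorem exists_pZeta_sub_bound (C : ClassGroup (𝓞 K)) :
    ∃ B : ℝ, ∀ᶠ s : ℝ in 𝓝[>] 1, |pZeta C s - pZeta (1 : ClassGroup (𝓞 K)) s| ≤ B := by
  obtain ⟨J, hJ, hJC⟩ := exists_cls_eq C⁻¹
  obtain ⟨B, hB⟩ := exists_sum_wnorm_bound hJ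
  obtain ⟨C₀, hC₀⟩ := eventually_log_idealZeta K
  set N : ℝ := (Ideal.absNorm J : ℝ) with hN
  have hN1 : 1 ≤ N := by
    rw [hN]
    exact_mod_cast Nat.one_le_iff_ne_zero.2 (by simpa [Ideal.absNorm_eq_zero_iff] using hJ)
  have hN0 : 0 < N := by linarith
  set w : ℝ := (Units.torsionOrder K : ℝ) with hw
  have hw0 : 0 < w := by rw [hw]; exact_mod_cast Units.torsionOrder_pos K
  refine ⟨N * Real.log N * Real.exp C₀ + N * (|B| / w), ?_⟩
  filter_upwards [hC₀, Ioc_mem_nhdsGT (show (1 : ℝ) < 2 by norm_num)] with s hs hs2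
  have hb := hB s ⟨hs2.1.le, hs2.2⟩ hs.1
  rw [hJC, inv_inv, normRpow_apply, ← hN] at hb
  have hZ : idealZeta K s ≤ Real.exp C₀ * (1 / (s - 1)) := by
    rw [← Real.exp_log hs.2.1, ← Real.exp_log (one_div_pos.2 (sub_pos.2 hs2.1)), ← Real.exp_add,
      Real.exp_le_exp]
    have := (abs_le.1 hs.2.2).2
    rw [← one_div] at *
    linarith
  set P := pZeta (1 : ClassGroup (𝓞 K)) s
  have hP0 : 0 ≤ P := pZeta_nonneg _ _
  have hPle : P ≤ Real.exp C₀ * (1 / (s - 1)) := (pZeta_le _ hs.1).trans hZ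
  set t := N ^ (s - 1) with ht
  have ht1 : 1 ≤ t := Real.one_le_rpow hN1 (by linarith [hs2.1])
  have htN : t ≤ N := (Real.rpow_le_rpow_of_exponent_le hN1 (by linarith [hs2.2])).trans_eq
    (Real.rpow_one N)
  have e : N * (w * N ^ (-s) * pZeta C s) = w / t * pZeta C s := by
    rw [ht, Real.rpow_sub hN0, Real.rpow_one, Real.rpow_neg hN0.le]
    field_simp
  rw [e] at hb
  have hb' : |P - pZeta C s / t| ≤ |B| / w := by
    rw [le_div_iff₀ hw0]
    conv_lhs => rw [← abs_of_pos hw0, ← abs_mul]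
    refine le_trans (le_of_eq ?_) (hb.trans (le_abs_self B))
    congr 1
    ring
  have ht2 : t - 1 ≤ (s - 1) * Real.log N * N := by
    have : t * Real.exp (-((s - 1) * Real.log N)) = 1 := by
      rw [ht, Real.rpow_def_of_pos hN0, ← Real.exp_add]
      ring_nf
      exact Real.exp_zero
    have h1 := Real.add_one_le_exp (-((s - 1) * Real.log N))
    have h2 := mul_le_mul_of_nonneg_left h1 (by linarith : (0 : ℝ) ≤ t)
    have h3 := mul_le_mul_of_nonneg_left htN
      (mul_nonneg (by linarith [hs2.1] : (0:ℝ) ≤ s - 1) (Real.log_nonneg hN1))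
    nlinarith
  calc |pZeta C s - P| = |(t - 1) * P + t * (pZeta C s / t - P)| := by
        congr 1
        field_simp
        ring
    _ ≤ N * Real.log N * Real.exp C₀ + N * (|B| / w) := by
        refine (abs_add_le _ _).trans (add_le_add ?_ ?_)
        · rw [abs_mul, abs_of_nonneg (by linarith : (0 : ℝ) ≤ t - 1), abs_of_nonneg hP0]
          calc (t - 1) * P ≤ ((s - 1) * Real.log N * N) * (Real.exp C₀ * (1 / (s - 1))) :=
                mul_le_mul ht2 hPle hP0 (by
                  have := Real.log_nonneg hN1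
                  have : 0 ≤ s - 1 := by linarith [hs2.1]
                  positivity)
            _ = N * Real.log N * Real.exp C₀ := by
                field_simp [(sub_pos.2 hs2.1).ne']
        · rw [abs_mul, abs_of_nonneg (by linarith : (0 : ℝ) ≤ t), abs_sub_comm]
          exact mul_le_mul htN hb' (abs_nonneg _) hN0.le

/-- The `L`-function of a character of the class group. -/
def classL (χ : ClassGroup (𝓞 K) →* ℂ) (s : ℝ) : ℂ :=
  ∑' I : {I : Ideal (𝓞 K) // I ≠ ⊥}, χ (cls I.1) * (normRpow K s I.1 : ℂ)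

theorem norm_classChar (χ : ClassGroup (𝓞 K) →* ℂ) (C : ClassGroup (𝓞 K)) : ‖χ C‖ = 1 := by
  refine Complex.norm_eq_one_of_pow_eq_one (n := Fintype.card (ClassGroup (𝓞 K))) ?_ Fintype.card_ne_zero
  rw [← map_pow, pow_card_eq_one, map_one]

/-- The `L`-function of a nontrivial class group character is bounded near `1`. -/
theorem exists_classL_bound {χ : ClassGroup (𝓞 K) →* ℂ} (hχ : χ ≠ 1) :
    ∃ B : ℝ, ∀ᶠ s : ℝ in 𝓝[>] 1, ‖classL χ s‖ ≤ B := by
  choose B hB using fun C => exists_pZeta_sub_bound (K := K) C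
  obtain ⟨C₀, hC₀⟩ := eventually_log_idealZeta K
  refine ⟨∑ C, B C, ?_⟩
  filter_upwards [hC₀, eventually_all.2 hB] with s hs hB'
  have hsumm : Summable fun I : {I : Ideal (𝓞 K) // I ≠ ⊥} =>
      χ (cls I.1) * (normRpow K s I.1 : ℂ) := by
    refine Summable.of_norm ?_
    refine hs.1.congr fun I => ?_
    rw [norm_mul, norm_classChar, one_mul, Complex.norm_real, Real.norm_of_nonneg (normRpow_nonneg K s _)]
  let e := Equiv.sigmaFiberEquiv fun I : {I : Ideal (𝓞 K) // I ≠ ⊥} => cls I.1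
  have h1 : classL χ s = ∑ C : ClassGroup (𝓞 K), χ C * (pZeta C s : ℂ) := by
    rw [classL, ← e.tsum_eq]
    have hs' : Summable fun c => χ (cls (e c).1) * (normRpow K s (e c).1 : ℂ) := e.summable_iff.2 hsumm
    rw [Summable.tsum_sigma' (fun C => hs'.comp_injective sigma_mk_injective) hs', tsum_fintype]
    refine Finset.sum_congr rfl fun C _ => ?_
    rw [pZeta, Complex.ofReal_tsum, ← tsum_mul_left]
    let e' : {I : {I : Ideal (𝓞 K) // I ≠ ⊥} // cls I.1 = C} ≃
        {I : Ideal (𝓞 K) // I ≠ ⊥ ∧ cls I = C} :=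
      Equiv.subtypeSubtypeEquivSubtypeInter (fun I : Ideal (𝓞 K) => I ≠ ⊥) fun I => cls I = C
    rw [← e'.tsum_eq]
    refine tsum_congr fun I => ?_
    show χ (cls I.1.1) * _ = χ C * _
    rw [I.2]
    rfl
  have h2 : ∑ C : ClassGroup (𝓞 K), χ C = 0 := by
    obtain ⟨a, ha⟩ : ∃ a, χ a ≠ 1 := by
      by_contra h
      push Not at h
      exact hχ (MonoidHom.ext h)
    have h3 : χ a * ∑ C : ClassGroup (𝓞 K), χ C = ∑ C : ClassGroup (𝓞 K), χ C := by
      rw [Finset.mul_sum]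
      exact (Fintype.sum_equiv (Equiv.mulLeft a) _ _ fun C => by simp).trans rfl
    have h4 : (χ a - 1) * ∑ C : ClassGroup (𝓞 K), χ C = 0 := by rw [sub_mul, one_mul, h3, sub_self]
    exact (mul_eq_zero.1 h4).resolve_left (sub_ne_zero.2 ha)
  have h3 : classL χ s = ∑ C : ClassGroup (𝓞 K),
      χ C * ((pZeta C s - pZeta (1 : ClassGroup (𝓞 K)) s : ℝ) : ℂ) := by
    rw [h1]
    simp only [Complex.ofReal_sub, mul_sub, Finset.sum_sub_distrib, ← Finset.sum_mul, h2, zero_mul,
      sub_zero]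
  rw [h3]
  refine (norm_sum_le _ _).trans (Finset.sum_le_sum fun C _ => ?_)
  rw [norm_mul, norm_classChar, one_mul, Complex.norm_real, Real.norm_eq_abs]
  exact hB' C

end FLTAgent.Thaine
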