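import Fermat.Agent.Thaine.Ord

/-!
# The element attached to a norm one unit of a tame cyclotomic extension

For a prime `ℓ` unramified in `K` and `z` with `z ^ ℓ = z`, `exists_dlog_element` produces `γ` in
`K` whose orders are divisible by `ℓ - 1` away from `ℓ` and give at the primes over `ℓ` the discrete
logarithms of `1 + z`.  It comes from Hilbert 90 for the norm one element `1 + z η` of the
extension by `η`, a root of unity of order `ℓ` (`prod_one_add_mul_etaI`,
`ramificationIdx_cyclotomic`).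
-/

set_option autoImplicit false

noncomputable section

open NumberField IsDedekindDomain Polynomial
open scoped Classical Pointwise

namespace FLTAgent.Thaine

variable {K : Type} [Field K] [NumberField K] (ℓ : ℕ) [hℓ : Fact ℓ.Prime]

theorem cyclotomic_irreducible_of_unramified (v : HeightOneSpectrum (𝓞 K))
    (h1 : (ℓ : 𝓞 K) ∈ v.asIdeal) (h2 : (ℓ : 𝓞 K) ∉ v.asIdeal ^ 2) :
    Irreducible (cyclotomic ℓ K) := by
  have hmon := cyclotomic.monic ℓ (𝓞 K)
  have hE := cyclotomic_comp_X_add_one_isEisensteinAt (p := ℓ)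
  set f := (cyclotomic ℓ (𝓞 K)).comp (X + 1) with hf
  have hfmap : f = ((cyclotomic ℓ ℤ).comp (X + 1)).map (Int.castRingHom (𝓞 K)) := by
    rw [hf, Polynomial.map_comp, map_cyclotomic, Polynomial.map_add, map_X, Polynomial.map_one]
  have hfmon : f.Monic := by
    rw [hf]; simpa using hmon.comp_X_add_C (1 : 𝓞 K)
  have hzmon : ((cyclotomic ℓ ℤ).comp (X + 1)).Monic := by
    simpa using (cyclotomic.monic ℓ ℤ).comp_X_add_C (1 : ℤ)
  have hnd : f.natDegree = ((cyclotomic ℓ ℤ).comp (X + 1)).natDegree := by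
    rw [hfmap, hzmon.natDegree_map]
  have hfE : f.IsEisensteinAt v.asIdeal := by
    refine ⟨?_, fun {n} hn => ?_, ?_⟩
    · rw [hfmon.leadingCoeff]
      exact fun h => v.isPrime.ne_top ((Ideal.eq_top_iff_one _).2 h)
    · have := hE.mem (hnd ▸ hn)
      rw [Submodule.mem_span_singleton] at this
      obtain ⟨t, ht⟩ := this
      rw [hfmap, coeff_map, ← ht, eq_intCast, smul_eq_mul, Int.cast_mul, Int.cast_natCast]
      exact v.asIdeal.mul_mem_left _ h1
    · rw [coeff_zero_eq_eval_zero, hf, eval_comp, eval_add, eval_X, eval_one, zero_add,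
        eval_one_cyclotomic_prime]
      exact h2
  have hfpos : 0 < f.natDegree := by
    rw [hnd, natDegree_comp, natDegree_cyclotomic]
    have h : (X + 1 : ℤ[X]).natDegree = 1 := by simpa using natDegree_X_add_C (1 : ℤ)
    rw [h, mul_one]
    exact Nat.totient_pos.2 hℓ.out.pos
  have hirr : Irreducible f := hfE.irreducible v.isPrime hfmon.isPrimitive hfpos
  have hirr' : Irreducible (cyclotomic ℓ (𝓞 K)) := by
    have e := algEquivAevalXAddC (1 : 𝓞 K)
    rw [← MulEquiv.irreducible_iff (algEquivAevalXAddC (1 : 𝓞 K))]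
    simpa [hf, algEquivAevalXAddC, ← comp_eq_aeval] using hirr
  rw [← map_cyclotomic ℓ (algebraMap (𝓞 K) K)]
  exact hmon.irreducible_iff_irreducible_map_fraction_map.1 hirr'

section Ext

variable {L : Type} [Field L] [NumberField L] [Algebra K L] [IsCyclotomicExtension {ℓ} K L]

theorem card_gal_cyclotomic (hirr : Irreducible (cyclotomic ℓ K)) :
    Nat.card Gal(L/K) = ℓ - 1 := by
  rw [Nat.card_congr (IsCyclotomicExtension.autEquivPow L hirr).toEquiv, Nat.card_eq_fintype_card,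
    ZMod.card_units]

theorem isCyclic_gal_cyclotomic (hirr : Irreducible (cyclotomic ℓ K)) : IsCyclic Gal(L/K) :=
  isCyclic_of_surjective (IsCyclotomicExtension.autEquivPow L hirr).symm.toMonoidHom
    (IsCyclotomicExtension.autEquivPow L hirr).symm.surjective

/-- The root of unity of order `ℓ`. -/
def etaI (ℓ : ℕ) [Fact ℓ.Prime] (K L : Type) [Field K] [Field L] [Algebra K L]
    [IsCyclotomicExtension {ℓ} K L] : 𝓞 L :=
  (IsCyclotomicExtension.zeta_spec ℓ K L).toInteger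

theorem etaI_spec : IsPrimitiveRoot (etaI ℓ K L) ℓ :=
  (IsCyclotomicExtension.zeta_spec ℓ K L).toInteger_isPrimitiveRoot

theorem smul_etaI (hirr : Irreducible (cyclotomic ℓ K)) (σ : Gal(L/K)) :
    σ • etaI ℓ K L =
      etaI ℓ K L ^ ((IsCyclotomicExtension.autEquivPow L hirr σ : (ZMod ℓ)ˣ) : ZMod ℓ).val := by
  refine RingOfIntegers.ext ?_
  rw [show ((σ • etaI ℓ K L : 𝓞 L) : L) = σ (IsCyclotomicExtension.zeta ℓ K L) from rfl,
    RingOfIntegers.coe_eq_algebraMap, map_pow]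
  exact ((IsCyclotomicExtension.zeta_spec ℓ K L).autToPow_spec K σ).symm

/-- `ℓ` is, up to a unit, the `(ℓ-1)`-st power of `η - 1`. -/
theorem associated_natCast_pow :
    Associated (ℓ : 𝓞 L) ((etaI ℓ K L - 1) ^ (ℓ - 1)) := by
  have hη := etaI_spec ℓ (K := K) (L := L)
  have h := congrArg (eval 1) (cyclotomic_eq_prod_X_sub_primitiveRoots hη)
  rw [eval_one_cyclotomic_prime, eval_prod] at h
  simp only [eval_sub, eval_X, eval_C] at h
  rw [h]
  have hcard : (primitiveRoots ℓ (𝓞 L)).card = ℓ - 1 := by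
    rw [hη.card_primitiveRoots, Nat.totient_prime hℓ.out]
  rw [← hcard, ← Finset.prod_const]
  refine Associated.prod _ _ _ fun μ hμ => ?_
  rw [mem_primitiveRoots hℓ.out.pos] at hμ
  obtain ⟨j, -, hj, rfl⟩ := (hη.isPrimitiveRoot_iff (k := ℓ)).1 hμ
  refine (Associated.trans ?_ (hη.associated_sub_one_pow_sub_one_of_coprime hj).symm)
  exact ⟨-1, by simp⟩

theorem prod_one_add_mul_etaI (hirr : Irreducible (cyclotomic ℓ K)) (hℓ2 : ℓ ≠ 2) {z : 𝓞 L}
    (hz : z ^ ℓ = z) (hu : 1 + z ≠ 0) :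
    ∏ σ : Gal(L/K), (1 + z * σ • etaI ℓ K L) = 1 := by
  have hη := etaI_spec ℓ (K := K) (L := L)
  have hall := IsPrimitiveRoot.pow_add_pow_eq_prod_add_mul (x := (1 : 𝓞 L)) (y := z)
    (hℓ.out.odd_of_ne_two hℓ2) hη
  rw [one_pow, hz] at hall
  have hset : ((nthRootsFinset ℓ (1 : 𝓞 L)).erase 1) =
      Finset.univ.image (fun σ : Gal(L/K) => σ • etaI ℓ K L) := by
    ext μ
    simp only [Finset.mem_erase, Finset.mem_image, Finset.mem_univ, true_and,
      Polynomial.mem_nthRootsFinset hℓ.out.pos]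
    constructor
    · rintro ⟨hμ1, hμ⟩
      obtain ⟨j, hjl, rfl⟩ := hη.eq_pow_of_pow_eq_one hμ
      have hj0 : j ≠ 0 := fun h => hμ1 (by rw [h, pow_zero])
      have hcop : Nat.Coprime j ℓ :=
        (hℓ.out.coprime_iff_not_dvd.2 fun h => by
          have := Nat.le_of_dvd (Nat.pos_of_ne_zero hj0) h; omega).symm
      refine ⟨(IsCyclotomicExtension.autEquivPow L hirr).symm (ZMod.unitOfCoprime j hcop), ?_⟩
      rw [smul_etaI ℓ hirr, MulEquiv.apply_symm_apply, ZMod.coe_unitOfCoprime,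
        ZMod.val_natCast_of_lt hjl]
    · rintro ⟨σ, rfl⟩
      rw [← smul_pow', hη.pow_eq_one, smul_one]
      refine ⟨fun h => hη.ne_one hℓ.out.one_lt ?_, rfl⟩
      have := congrArg (fun y => σ⁻¹ • y) h
      simpa using this
  have h1 : (1 : 𝓞 L) ∈ nthRootsFinset ℓ (1 : 𝓞 L) := by
    simp [Polynomial.mem_nthRootsFinset hℓ.out.pos]
  rw [← Finset.mul_prod_erase _ _ h1, one_mul, hset, Finset.prod_image] at hall
  · have hcomm : ∀ σ : Gal(L/K), 1 + σ • etaI ℓ K L * z = 1 + z * σ • etaI ℓ K L := fun σ => by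
      rw [mul_comm]
    simp only [hcomm] at hall
    exact (mul_left_cancel₀ hu (by rw [mul_one]; exact hall)).symm
  · intro σ _ τ _ h
    have h' : σ • etaI ℓ K L = τ • etaI ℓ K L := h
    rw [smul_etaI ℓ hirr, smul_etaI ℓ hirr] at h'
    exact (IsCyclotomicExtension.autEquivPow L hirr).injective (Units.ext (ZMod.val_injective _
      (hη.pow_inj (ZMod.val_lt _) (ZMod.val_lt _) h')))

end Ext

/-- For a place over `ℓ` in the extension, the ramification index is `ℓ - 1`; elsewhere it is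
one. -/
theorem ramificationIdx_cyclotomic {L : Type} [Field L] [NumberField L] [Algebra K L]
    [IsCyclotomicExtension {ℓ} K L] [IsGalois K L] (hirr : Irreducible (cyclotomic ℓ K))
    (v : HeightOneSpectrum (𝓞 K)) (w : HeightOneSpectrum (𝓞 L))
    [w.asIdeal.LiesOver v.asIdeal] :
    ((ℓ : 𝓞 K) ∉ v.asIdeal → v.asIdeal.ramificationIdx' w.asIdeal = 1) ∧
    (ordAt v (ℓ : 𝓞 K) = 1 → v.asIdeal.ramificationIdx' w.asIdeal = ℓ - 1 ∧
      ordAt w (etaI ℓ K L - 1) = 1 ∧
      ∀ (σ : Gal(L/K)) (x : 𝓞 L), σ • x - x ∈ w.asIdeal) := by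
  set e := v.asIdeal.ramificationIdx' w.asIdeal with he
  have hcard : Nat.card (w.asIdeal.inertia Gal(L/K)) = e := by
    rw [Ideal.card_inertia_eq_ramificationIdxIn v.asIdeal w.asIdeal,
      Ideal.ramificationIdxIn_eq_ramificationIdx v.asIdeal w.asIdeal Gal(L/K),
      he, Ideal.ramificationIdx'_eq_ramificationIdx v.asIdeal w.asIdeal v.ne_bot]
  have hmem : (ℓ : 𝓞 K) ∈ v.asIdeal ↔ (ℓ : 𝓞 L) ∈ w.asIdeal := by
    rw [Ideal.mem_of_liesOver w.asIdeal v.asIdeal, map_natCast]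
  have hπ0 : etaI ℓ K L - 1 ≠ 0 :=
    sub_ne_zero.2 ((etaI_spec ℓ (K := K) (L := L)).ne_one hℓ.out.one_lt)
  have hℓ0 : (ℓ : 𝓞 K) ≠ 0 := Nat.cast_ne_zero.2 hℓ.out.ne_zero
  refine ⟨fun hnot => ?_, fun hord => ?_⟩
  · rw [← hcard, Nat.card_eq_one_iff_unique]
    refine ⟨⟨fun a b => Subtype.ext ?_⟩, inferInstance⟩
    suffices h : ∀ σ : Gal(L/K), σ ∈ w.asIdeal.inertia Gal(L/K) → σ = 1 by
      rw [h _ a.2, h _ b.2]
    intro σ hσ
    have hσ' := hσ (etaI ℓ K L)
    set t := IsCyclotomicExtension.autEquivPow L hirr σ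
    rw [smul_etaI ℓ hirr] at hσ'
    apply (IsCyclotomicExtension.autEquivPow L hirr).injective
    rw [map_one]
    refine Units.ext (ZMod.val_injective _ ?_)
    rw [Units.val_one, ZMod.val_one]
    by_contra hne
    have htpos : 1 ≤ ((t : ZMod ℓ)).val :=
      Nat.pos_of_ne_zero fun h => t.ne_zero ((ZMod.val_eq_zero _).1 h)
    have hlt := ZMod.val_lt (t : ZMod ℓ)
    have heq : etaI ℓ K L ^ (t : ZMod ℓ).val - etaI ℓ K L =
        etaI ℓ K L * (etaI ℓ K L ^ ((t : ZMod ℓ).val - 1) - 1) := by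
      rw [mul_sub, ← pow_succ', Nat.sub_add_cancel htpos, mul_one]
    rw [heq] at hσ'
    have hunit : IsUnit (etaI ℓ K L) := (etaI_spec ℓ (K := K) (L := L)).isUnit hℓ.out.ne_zero
    have hcop : Nat.Coprime ((t : ZMod ℓ).val - 1) ℓ :=
      (hℓ.out.coprime_iff_not_dvd.2 fun h => by
        have h0 : 0 < (t : ZMod ℓ).val - 1 := by
          have : (t : ZMod ℓ).val ≠ 1 := hne
          omega
        have := Nat.le_of_dvd h0 h
        omega).symm
    obtain ⟨u, hu⟩ :=
      (etaI_spec ℓ (K := K) (L := L)).associated_sub_one_pow_sub_one_of_coprime hcop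
    rcases w.isPrime.mem_or_mem hσ' with h | h
    · exact w.isPrime.ne_top (Ideal.eq_top_of_isUnit_mem _ h hunit)
    · rw [← hu] at h
      have hπ : etaI ℓ K L - 1 ∈ w.asIdeal := (w.isPrime.mem_or_mem h).resolve_right
        fun h' => w.isPrime.ne_top (Ideal.eq_top_of_isUnit_mem _ h' u.isUnit)
      refine hnot (hmem.2 ?_)
      obtain ⟨u', hu'⟩ := (associated_natCast_pow ℓ (K := K) (L := L)).symm
      rw [← hu']
      exact Ideal.mul_mem_right _ _
        (Ideal.pow_mem_of_mem _ hπ _ (Nat.sub_pos_of_lt hℓ.out.one_lt))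
  · have h1 : ordAt w (ℓ : 𝓞 L) = e := by
      refine ordAt_eq_of_intVal (Nat.cast_ne_zero.2 hℓ.out.ne_zero) ?_
      rw [← map_natCast (algebraMap (𝓞 K) (𝓞 L)), ← HeightOneSpectrum.intValuation_liesOver v w,
        intVal_eq_exp_ordAt v hℓ0, hord, ← he, ← WithZero.exp_nsmul]
      simp
    rw [ordAt_eq_of_associated w (associated_natCast_pow ℓ (K := K) (L := L)),
      ordAt_pow w hπ0] at h1
    have hdvd : Nat.card (w.asIdeal.inertia Gal(L/K)) ∣ ℓ - 1 := by
      rw [← card_gal_cyclotomic ℓ (L := L) hirr]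
      exact Subgroup.card_subgroup_dvd_card _
    have hpos : 0 < ℓ - 1 := Nat.sub_pos_of_lt hℓ.out.one_lt
    have hepos : 0 < e := by rw [← hcard]; exact Nat.card_pos
    rw [hcard] at hdvd
    have hle := Nat.le_of_dvd hpos hdvd
    have hk : ordAt w (etaI ℓ K L - 1) = 1 := by
      rcases Nat.lt_trichotomy (ordAt w (etaI ℓ K L - 1)) 1 with h | h | h
      · rw [Nat.lt_one_iff.1 h, mul_zero] at h1; omega
      · exact h
      · have : (ℓ - 1) * 2 ≤ (ℓ - 1) * ordAt w (etaI ℓ K L - 1) := Nat.mul_le_mul_left _ h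
        omega
    rw [hk, mul_one] at h1
    refine ⟨h1.symm, hk, fun σ => ?_⟩
    have htop : w.asIdeal.inertia Gal(L/K) = ⊤ := Subgroup.eq_top_of_card_eq _ (by
      rw [hcard, ← h1, card_gal_cyclotomic ℓ hirr])
    exact (htop.symm ▸ Subgroup.mem_top σ : σ ∈ w.asIdeal.inertia Gal(L/K))

/-- The element of `K` whose divisor records the discrete logarithms of `1 + z`. -/
theorem exists_dlog_element (hℓ2 : ℓ ≠ 2) (v₀ : HeightOneSpectrum (𝓞 K))
    (hv₀ : (ℓ : 𝓞 K) ∈ v₀.asIdeal)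
    (hunr : ∀ v : HeightOneSpectrum (𝓞 K), (ℓ : 𝓞 K) ∈ v.asIdeal → (ℓ : 𝓞 K) ∉ v.asIdeal ^ 2)
    {z : 𝓞 K} (hz : z ^ ℓ = z) (hu : IsUnit (1 + z)) :
    ∃ (g : ℕ) (γ : 𝓞 K), γ ≠ 0 ∧
      (∀ v : HeightOneSpectrum (𝓞 K), (ℓ : 𝓞 K) ∉ v.asIdeal → (ℓ - 1) ∣ ordAt v γ) ∧
      ∀ v : HeightOneSpectrum (𝓞 K), (ℓ : 𝓞 K) ∈ v.asIdeal →
        (1 + z) * (g : 𝓞 K) ^ ordAt v γ - 1 ∈ v.asIdeal := by
  have hirr := cyclotomic_irreducible_of_unramified ℓ v₀ hv₀ (hunr v₀ hv₀)
  let L := CyclotomicField ℓ K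
  have : IsCyclotomicExtension {ℓ} K L := CyclotomicField.isCyclotomicExtension ℓ K
  have : NumberField L := IsCyclotomicExtension.numberField {ℓ} K L
  have : IsGalois K L := IsCyclotomicExtension.isGalois {ℓ} K L
  have := isCyclic_gal_cyclotomic ℓ (L := L) hirr
  obtain ⟨τ, hτ⟩ := IsCyclic.exists_generator (α := Gal(L/K))
  set η := etaI ℓ K L
  set zL := algebraMap (𝓞 K) (𝓞 L) z
  set ξ : 𝓞 L := 1 + zL * η
  have hzL : zL ^ ℓ = zL := by rw [← map_pow, hz]
  have h1z : 1 + zL = algebraMap (𝓞 K) (𝓞 L) (1 + z) := by rw [map_add, map_one]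
  have hu' : IsUnit (1 + zL) := h1z ▸ hu.map _
  have hprod := prod_one_add_mul_etaI ℓ hirr hℓ2 hzL hu'.ne_zero
  have hsm : ∀ σ : Gal(L/K), σ • ξ = 1 + zL * σ • η := fun σ => by
    rw [smul_add, smul_one, smul_mul', smul_algebraMap]
  have hnorm : Algebra.norm K (algebraMap (𝓞 L) L ξ) = 1 := by
    apply (algebraMap K L).injective
    rw [Algebra.norm_eq_prod_automorphisms, map_one]
    have h := congrArg (algebraMap (𝓞 L) L) hprod
    rw [map_prod, map_one] at h
    rw [← h]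
    exact Finset.prod_congr rfl fun σ _ => by rw [← hsm]; rfl
  obtain ⟨ε, hε0, hε⟩ :=
    groupCohomology.exists_mul_galRestrict_of_norm_eq_one (A := 𝓞 K) (B := 𝓞 L) hτ hnorm
  have hτε : ξ * τ • ε = ε := by
    have hr : galRestrict (𝓞 K) K L (𝓞 L) τ ε = τ • ε :=
      RingOfIntegers.ext (algebraMap_galRestrict_apply (𝓞 K) τ ε)
    rw [hr] at hε
    exact hε
  have hξu : IsUnit ξ := by
    refine IsUnit.of_mul_eq_one (∏ σ ∈ Finset.univ.erase (1 : Gal(L/K)), σ • ξ) ?_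
    rw [← hprod, ← Finset.mul_prod_erase Finset.univ _ (Finset.mem_univ (1 : Gal(L/K))), one_smul]
    exact congrArg _ (Finset.prod_congr rfl fun σ _ => hsm σ)
  have hassoc : ∀ σ : Gal(L/K), Associated (σ • ε) ε := by
    intro σ
    obtain ⟨i, rfl⟩ : σ ∈ Submonoid.powers τ :=
      (isOfFinOrder_of_finite τ).mem_powers_iff_mem_zpowers.2 (hτ σ)
    induction i with
    | zero => simp
    | succ i ih =>
      rw [show (τ ^ (i + 1)) • ε = τ • τ ^ i • ε by rw [← mul_smul, ← pow_succ']]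
      obtain ⟨u, hu⟩ := ih
      refine (Associated.trans (y := τ • ε) ?_ ?_)
      · refine ⟨Units.map (MulSemiringAction.toRingHom Gal(L/K) (𝓞 L) τ).toMonoidHom u, ?_⟩
        show τ • τ ^ i • ε * τ • (u : 𝓞 L) = τ • ε
        rw [← smul_mul']
        exact congrArg (τ • ·) hu
      · conv_rhs => rw [← hτε]
        exact (associated_unit_mul_right _ _ hξu)
  set γ := RingOfIntegers.norm K ε
  have hγL : algebraMap (𝓞 K) (𝓞 L) γ = ∏ σ : Gal(L/K), σ • ε := by
    refine RingOfIntegers.ext ?_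
    rw [RingOfIntegers.coe_algebraMap_norm, Algebra.norm_eq_prod_automorphisms]
    show _ = algebraMap (𝓞 L) L (∏ σ : Gal(L/K), σ • ε)
    rw [map_prod]
    rfl
  have hγassoc : Associated (algebraMap (𝓞 K) (𝓞 L) γ) (ε ^ (ℓ - 1)) := by
    rw [hγL, ← card_gal_cyclotomic ℓ (L := L) hirr, Nat.card_eq_fintype_card, ← Finset.card_univ,
      ← Finset.prod_const]
    exact Associated.prod _ _ _ fun σ _ => hassoc σ
  have hγ0 : γ ≠ 0 := by
    intro h
    rw [h, map_zero] at hγassoc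
    exact pow_ne_zero _ hε0 ((associated_zero_iff_eq_zero _).1 hγassoc.symm)
  have hkey : ∀ (v : HeightOneSpectrum (𝓞 K)) (w : HeightOneSpectrum (𝓞 L)),
      w.asIdeal.LiesOver v.asIdeal →
      v.asIdeal.ramificationIdx' w.asIdeal * ordAt v γ = (ℓ - 1) * ordAt w ε := by
    intro v w hvw
    have hA0 : algebraMap (𝓞 K) (𝓞 L) γ ≠ 0 := fun h =>
      pow_ne_zero _ hε0 ((associated_zero_iff_eq_zero _).1 (h ▸ hγassoc).symm)
    rw [← ordAt_pow w hε0, ← ordAt_eq_of_associated w hγassoc]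
    symm
    refine ordAt_eq_of_intVal hA0 ?_
    rw [← HeightOneSpectrum.intValuation_liesOver v w, intVal_eq_exp_ordAt v hγ0,
      ← WithZero.exp_nsmul]
    simp
  have hexw : ∀ v : HeightOneSpectrum (𝓞 K), ∃ w : HeightOneSpectrum (𝓞 L),
      w.asIdeal.LiesOver v.asIdeal := by
    intro v
    obtain ⟨P, hP, hPv⟩ := (inferInstance : Nonempty (v.asIdeal.primesOver (𝓞 L)))
    exact ⟨⟨P, hP, Ideal.ne_bot_of_liesOver_of_ne_bot v.ne_bot P⟩, hPv⟩
  set t := IsCyclotomicExtension.autEquivPow L hirr τ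
  refine ⟨(t : ZMod ℓ).val, γ, hγ0, fun v hv => ?_, fun v hv => ?_⟩
  · obtain ⟨w, hw⟩ := hexw v
    have := hkey v w hw
    rw [(ramificationIdx_cyclotomic ℓ hirr v w).1 hv, one_mul] at this
    exact ⟨_, this⟩
  · obtain ⟨w, hw⟩ := hexw v
    obtain ⟨he, hπ, hine⟩ := (ramificationIdx_cyclotomic ℓ hirr v w).2
      ((ordAt_eq_one_iff v (Nat.cast_ne_zero.2 hℓ.out.ne_zero)).2 ⟨hv, hunr v hv⟩)
    have hn := hkey v w hw
    rw [he] at hn
    have hn' : ordAt v γ = ordAt w ε :=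
      Nat.eq_of_mul_eq_mul_left (Nat.sub_pos_of_lt hℓ.out.one_lt) hn
    have hπ0 : η - 1 ≠ 0 :=
      sub_ne_zero.2 ((etaI_spec ℓ (K := K) (L := L)).ne_one hℓ.out.one_lt)
    obtain ⟨d, b, hd, hb, hdb⟩ := exists_mul_eq_pow_mul w hε0 hπ0 hπ
    set n := ordAt w ε
    set s : 𝓞 L := ∑ j ∈ Finset.range (t : ZMod ℓ).val, η ^ j
    have hs : τ • (η - 1) = (η - 1) * s := by
      rw [smul_sub, smul_one, smul_etaI ℓ hirr, ← geom_sum_mul, mul_comm]
    -- the key identity
    have hid : τ • d * b = d * ξ * s ^ n * τ • b := by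
      refine mul_left_cancel₀ (pow_ne_zero n hπ0) ?_
      calc (η - 1) ^ n * (τ • d * b) = τ • d * (d * ε) := by rw [hdb]; ring
        _ = τ • d * (d * (ξ * τ • ε)) := by rw [hτε]
        _ = d * ξ * (τ • (d * ε)) := by rw [smul_mul']; ring
        _ = d * ξ * ((τ • (η - 1)) ^ n * τ • b) := by rw [hdb, smul_mul', smul_pow']
        _ = _ := by rw [hs, mul_pow]; ring
    let q := Ideal.Quotient.mk w.asIdeal
    have hπw : η - 1 ∈ w.asIdeal := ((ordAt_eq_one_iff w hπ0).1 hπ).1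
    have hqη : q η = 1 := by rw [← map_one q, Ideal.Quotient.eq]; exact hπw
    have hqs : q s = (((t : ZMod ℓ).val : ℕ) : 𝓞 L ⧸ w.asIdeal) := by
      simp [s, hqη]
    have hqτ : ∀ x, q (τ • x) = q x := fun x => Ideal.Quotient.eq.2 (hine τ x)
    have h1 := congrArg q hid
    simp only [map_mul, map_pow, hqτ, hqs] at h1
    have hqξ : q ξ = q (1 + zL) := by simp [ξ, hqη]
    have := w.isPrime
    have hdb0 : q d * q b ≠ 0 := mul_ne_zero
      (fun h => hd (Ideal.Quotient.eq_zero_iff_mem.1 h))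
      (fun h => hb (Ideal.Quotient.eq_zero_iff_mem.1 h))
    have h2 : q (1 + zL) * ((t : ZMod ℓ).val : 𝓞 L ⧸ w.asIdeal) ^ n = 1 := by
      refine mul_left_cancel₀ hdb0 ?_
      rw [mul_one, ← hqξ]
      conv_rhs => rw [h1]
      ring
    rw [Ideal.mem_of_liesOver w.asIdeal v.asIdeal, map_sub, map_mul, map_pow, map_natCast,
      map_one, ← h1z, hn', ← Ideal.Quotient.eq_zero_iff_mem]
    simp only [map_sub, map_mul, map_pow, map_natCast, map_one, sub_eq_zero]
    exact h2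

end FLTAgent.Thaine
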