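import Fermat.Agent.Thaine.Theta
import Fermat.Agent.Thaine.Tame
import Fermat.Agent.Thaine.EulerChar

/-!
# Thaine's relation

`cycUnit` is the projection of `1 + ζ` to the eigenspace of the square of the cyclotomic character
modulo `p`-th powers (`cycUnit_eigen`); `qK` shows that for `5 ≤ p` it is not a root of unity times
a `p`-th power.  `thaine_relation`: if a `p`-torsion class character in that eigenspace is
nontrivial at a degree one prime `v`, then `cycUnit` is a `p`-th power modulo `v`; this follows by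
applying the character to the principal ideal of the element of `exists_dlog_element`.
-/

set_option autoImplicit false

noncomputable section

open NumberField IsDedekindDomain
open scoped Classical Pointwise

namespace FLTAgent.Thaine

variable {p : ℕ} [hp : Fact p.Prime] {K : Type} [Field K] [NumberField K]
  [IsCyclotomicExtension {p} ℚ K]

/-- The conjugate of a prime. -/
def galPrime (σ : Gal(K/ℚ)) (v : HeightOneSpectrum (𝓞 K)) : HeightOneSpectrum (𝓞 K) where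
  asIdeal := σ • v.asIdeal
  isPrime := inferInstance
  ne_bot h := v.ne_bot (by
    rw [← inv_smul_smul σ v.asIdeal, h, Ideal.pointwise_smul_def, Ideal.map_bot])

theorem mem_galPrime_iff (σ : Gal(K/ℚ)) (v : HeightOneSpectrum (𝓞 K)) (x : 𝓞 K) :
    x ∈ (galPrime σ v).asIdeal ↔ σ⁻¹ • x ∈ v.asIdeal := by
  show x ∈ σ • v.asIdeal ↔ _
  conv_lhs => rw [← smul_inv_smul σ x]
  exact Ideal.smul_mem_pointwise_smul_iff

theorem absNorm_smul_ideal (σ : Gal(K/ℚ)) (I : Ideal (𝓞 K)) :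
    Ideal.absNorm (σ • I) = Ideal.absNorm I := by
  simp only [Ideal.absNorm_apply, Submodule.cardQuot_apply]
  refine (Nat.card_congr (Ideal.quotientEquiv I (σ • I)
    (MulSemiringAction.toRingEquiv Gal(K/ℚ) (𝓞 K) σ) ?_).toEquiv).symm
  rw [Ideal.pointwise_smul_def]
  rfl

section DegreeOne

variable {ℓ : ℕ} (hℓ : ℓ.Prime) (hℓp : ℓ ≠ p) {v : HeightOneSpectrum (𝓞 K)}
  (hv : Ideal.absNorm v.asIdeal = ℓ)

include hℓ hℓp hv

omit hℓp in
theorem natCast_mem_of_absNorm : (ℓ : 𝓞 K) ∈ v.asIdeal := hv ▸ Ideal.absNorm_mem v.asIdeal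

theorem natCast_p_not_mem : (p : 𝓞 K) ∉ v.asIdeal := by
  intro h
  apply v.isPrime.ne_top
  rw [Ideal.eq_top_iff_one]
  have hc : Nat.Coprime ℓ p := (Nat.coprime_primes hℓ hp.out).2 hℓp
  obtain ⟨a, b, hab⟩ := Nat.isCoprime_iff_coprime.2 hc
  have h1 : (1 : 𝓞 K) = (a : 𝓞 K) * (ℓ : 𝓞 K) + (b : 𝓞 K) * (p : 𝓞 K) := by
    have := congrArg (fun z : ℤ => (z : 𝓞 K)) hab
    push_cast at this
    exact this.symm
  rw [h1]
  exact add_mem (v.asIdeal.mul_mem_left _ (natCast_mem_of_absNorm hℓ hv))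
    (v.asIdeal.mul_mem_left _ h)

theorem zI_sub_one_not_mem : zI p K - 1 ∉ v.asIdeal := by
  intro h
  obtain ⟨t, ht⟩ := piK_dvd_p p K
  exact natCast_p_not_mem hℓ hℓp hv (ht ▸ Ideal.mul_mem_right _ _ h)

omit hℓp in
theorem exists_nat_sub_mem (x : 𝓞 K) : ∃ n : ℕ, x - n ∈ v.asIdeal := by
  have : Fact ℓ.Prime := ⟨hℓ⟩
  have : Nontrivial (𝓞 K ⧸ v.asIdeal) := Ideal.Quotient.nontrivial_iff.2 v.isPrime.ne_top
  have : CharP (𝓞 K ⧸ v.asIdeal) ℓ := by
    have h0 : (ℓ : 𝓞 K ⧸ v.asIdeal) = 0 := by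
      rw [← map_natCast (Ideal.Quotient.mk v.asIdeal), Ideal.Quotient.eq_zero_iff_mem]
      exact natCast_mem_of_absNorm hℓ hv
    exact ringChar.of_eq (((Nat.dvd_prime hℓ).1 (ringChar.dvd h0)).resolve_left
      CharP.ringChar_ne_one)
  have hcard : Nat.card (𝓞 K ⧸ v.asIdeal) = ℓ := by
    rw [← hv, Ideal.absNorm_apply, Submodule.cardQuot_apply]
  have : Finite (𝓞 K ⧸ v.asIdeal) := Nat.finite_of_card_ne_zero (hcard ▸ hℓ.ne_zero)
  have hbij : Function.Bijective (ZMod.castHom dvd_rfl (𝓞 K ⧸ v.asIdeal) (n := ℓ)) := by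
    rw [Nat.bijective_iff_injective_and_card]
    exact ⟨RingHom.injective _, by rw [Nat.card_zmod, hcard]⟩
  obtain ⟨a, ha⟩ := hbij.2 (Ideal.Quotient.mk v.asIdeal x)
  refine ⟨a.val, Ideal.Quotient.eq.1 ?_⟩
  rw [← ha, ZMod.castHom_apply, map_natCast, ZMod.natCast_val]

theorem zI_pow_eq_one_mod {j : ℕ} (h : zI p K ^ j - 1 ∈ v.asIdeal) : p ∣ j := by
  by_contra hj
  obtain ⟨u, hu⟩ := (zI_spec p K).associated_sub_one_pow_sub_one_of_coprime
    ((hp.out.coprime_iff_not_dvd.2 hj).symm)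
  rw [← hu] at h
  rcases v.isPrime.mem_or_mem h with h' | h'
  · exact zI_sub_one_not_mem hℓ hℓp hv h'
  · exact v.isPrime.ne_top (Ideal.eq_top_of_isUnit_mem _ h' u.isUnit)

theorem dvd_pred_of_degree_one : p ∣ ℓ - 1 := by
  refine zI_pow_eq_one_mod hℓ hℓp hv ?_
  obtain ⟨n, hn⟩ := exists_nat_sub_mem hℓ hv (zI p K)
  have hn0 : ¬ ℓ ∣ n := fun ⟨t, ht⟩ => by
    have h1 : (n : 𝓞 K) ∈ v.asIdeal := by
      rw [ht, Nat.cast_mul]
      exact Ideal.mul_mem_right _ _ (natCast_mem_of_absNorm hℓ hv)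
    have h2 : zI p K ∈ v.asIdeal := by simpa using add_mem hn h1
    exact v.isPrime.ne_top
      (Ideal.eq_top_of_isUnit_mem _ h2 ((zI_spec p K).isUnit hp.out.ne_zero))
  have : Fact ℓ.Prime := ⟨hℓ⟩
  have hfer : ((n : ZMod ℓ)) ^ (ℓ - 1) = 1 :=
    ZMod.pow_card_sub_one_eq_one (by rwa [Ne, ZMod.natCast_eq_zero_iff])
  have hZ : ((ℓ : ℤ)) ∣ ((n : ℤ) ^ (ℓ - 1) - 1) := by
    rw [← ZMod.intCast_zmod_eq_zero_iff_dvd]
    push_cast
    rw [hfer, sub_self]
  obtain ⟨t, ht⟩ := hZ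
  have h1 : (n : 𝓞 K) ^ (ℓ - 1) - 1 ∈ v.asIdeal := by
    have := congrArg (fun z : ℤ => (z : 𝓞 K)) ht
    push_cast at this
    rw [this]
    exact Ideal.mul_mem_right _ _ (natCast_mem_of_absNorm hℓ hv)
  obtain ⟨w, hw⟩ := sub_dvd_pow_sub_pow (zI p K) (n : 𝓞 K) (ℓ - 1)
  have h2 : zI p K ^ (ℓ - 1) - (n : 𝓞 K) ^ (ℓ - 1) ∈ v.asIdeal :=
    hw ▸ Ideal.mul_mem_right _ _ hn
  simpa using add_mem h2 h1

theorem galPrime_injective {a b : (ZMod p)ˣ}
    (h : galPrime (sg p K a) v = galPrime (sg p K b) v) : a = b := by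
  suffices key : ∀ c : (ZMod p)ˣ, galPrime (sg p K c) v = v → c = 1 by
    have hc : galPrime (sg p K (b⁻¹ * a)) v = v := by
      refine HeightOneSpectrum.ext ?_
      show sg p K (b⁻¹ * a) • v.asIdeal = v.asIdeal
      rw [sg_mul, mul_smul, show sg p K b⁻¹ = (sg p K b)⁻¹ from map_inv _ _]
      · exact inv_smul_eq_iff.2 (congrArg HeightOneSpectrum.asIdeal h)
    exact (inv_mul_eq_one.1 (key _ hc)).symm
  intro c hc
  obtain ⟨n, hn⟩ := exists_nat_sub_mem hℓ hv (zI p K)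
  have h1 : sg p K c • (zI p K - n) ∈ v.asIdeal := by
    have := (Ideal.smul_mem_pointwise_smul_iff (a := sg p K c)).2 hn
    rwa [show sg p K c • v.asIdeal = v.asIdeal from congrArg HeightOneSpectrum.asIdeal hc] at this
  rw [smul_sub, sg_smul_zI, ← MulSemiringAction.toRingHom_apply, map_natCast] at h1
  have h2 : zI p K ^ (c : ZMod p).val - zI p K ∈ v.asIdeal := by simpa using sub_mem h1 hn
  have hpos : 1 ≤ (c : ZMod p).val :=
    Nat.pos_of_ne_zero fun h => c.ne_zero ((ZMod.val_eq_zero _).1 h)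
  rw [show zI p K ^ (c : ZMod p).val - zI p K = zI p K * (zI p K ^ ((c : ZMod p).val - 1) - 1) by
    rw [mul_sub, ← pow_succ', Nat.sub_add_cancel hpos, mul_one]] at h2
  rcases v.isPrime.mem_or_mem h2 with h3 | h3
  · exact absurd (Ideal.eq_top_of_isUnit_mem _ h3 ((zI_spec p K).isUnit hp.out.ne_zero))
      v.isPrime.ne_top
  · have h4 := zI_pow_eq_one_mod hℓ hℓp hv h3
    have hlt := ZMod.val_lt (c : ZMod p)
    have : (c : ZMod p).val - 1 = 0 := Nat.eq_zero_of_dvd_of_lt h4 (by omega)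
    exact Units.ext (ZMod.val_injective _ (by rw [Units.val_one, ZMod.val_one]; omega))

theorem prod_galPrime :
    ∏ a : (ZMod p)ˣ, (galPrime (sg p K a) v).asIdeal = Ideal.span {(ℓ : 𝓞 K)} := by
  set P := ∏ a : (ZMod p)ˣ, (galPrime (sg p K a) v).asIdeal
  have hle : Ideal.span {(ℓ : 𝓞 K)} ≤ P := by
    simp only [P]
    rw [Ideal.prod_eq_iInf_of_pairwise_isCoprime]
    · refine le_iInf₂ fun a _ => ?_
      rw [Ideal.span_singleton_le_iff_mem, mem_galPrime_iff, ← MulSemiringAction.toRingHom_apply,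
        map_natCast]
      exact natCast_mem_of_absNorm hℓ hv
    · intro a _ b _ hab
      refine Ideal.isCoprime_iff_sup_eq.2 ((galPrime (sg p K a) v).isMaximal.coprime_of_ne
        (galPrime (sg p K b) v).isMaximal fun h => hab ?_)
      exact galPrime_injective hℓ hℓp hv (HeightOneSpectrum.ext h)
  obtain ⟨J, hJ⟩ := Ideal.dvd_iff_le.2 hle
  have hN := congrArg Ideal.absNorm hJ
  rw [map_mul, Ideal.absNorm_span_natCast, RingOfIntegers.rank,
    IsCyclotomicExtension.Rat.finrank p, Nat.totient_prime hp.out] at hN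
  have hP : Ideal.absNorm P = ℓ ^ (p - 1) := by
    simp only [P, map_prod]
    rw [Finset.prod_congr rfl (g := fun _ => ℓ) fun a _ => by
      rw [show (galPrime (sg p K a) v).asIdeal = sg p K a • v.asIdeal from rfl,
        absNorm_smul_ideal, hv], Finset.prod_const, Finset.card_univ, ZMod.card_units]
  rw [hP] at hN
  have : Ideal.absNorm J = 1 :=
    Nat.eq_of_mul_eq_mul_left (pow_pos hℓ.pos _) (by rw [← hN, mul_one])
  rw [hJ, Ideal.absNorm_eq_one_iff.1 this, Ideal.mul_top]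

theorem eq_galPrime_of_mem {w : HeightOneSpectrum (𝓞 K)} (hw : (ℓ : 𝓞 K) ∈ w.asIdeal) :
    (∃ a, w = galPrime (sg p K a) v) ∧ (ℓ : 𝓞 K) ∉ w.asIdeal ^ 2 := by
  have h := prod_galPrime hℓ hℓp hv
  rw [← Ideal.span_singleton_le_iff_mem, ← h] at hw
  obtain ⟨a, -, ha⟩ := (w.isPrime.prod_le).1 hw
  have hwa : w = galPrime (sg p K a) v :=
    HeightOneSpectrum.ext (((galPrime (sg p K a) v).isMaximal.eq_of_le w.isPrime.ne_top ha).symm)
  refine ⟨⟨a, hwa⟩, fun h2 => ?_⟩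
  rw [← Ideal.span_singleton_le_iff_mem, ← h, ← Finset.mul_prod_erase _ _ (Finset.mem_univ a),
    ← hwa, ← Ideal.dvd_iff_le, pow_two] at h2
  have h3 := Ideal.dvd_iff_le.1 ((mul_dvd_mul_iff_left w.ne_bot).1 h2)
  obtain ⟨b, hb, hb'⟩ := (w.isPrime.prod_le).1 h3
  refine (Finset.mem_erase.1 hb).1 (galPrime_injective hℓ hℓp hv (HeightOneSpectrum.ext ?_))
  rw [← hwa]
  exact (galPrime (sg p K b) v).isMaximal.eq_of_le w.isPrime.ne_top hb'

end DegreeOne

section CycUnit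

variable (p K) in
/-- The cyclotomic unit in the eigenspace of the square of the cyclotomic character. -/
def cycUnit (hp2 : p ≠ 2) : (𝓞 K)ˣ :=
  ∏ a : (ZMod p)ˣ,
    (Units.map (MulSemiringAction.toRingHom Gal(K/ℚ) (𝓞 K) (sg p K a⁻¹)).toMonoidHom
      (isUnit_one_add_zI p K hp2).unit) ^ ((a : ZMod p) ^ 2).val

theorem coe_cycUnit (hp2 : p ≠ 2) :
    (cycUnit p K hp2 : 𝓞 K) =
      ∏ a : (ZMod p)ˣ, (sg p K a⁻¹ • (1 + zI p K)) ^ ((a : ZMod p) ^ 2).val := by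
  rw [cycUnit, Units.coe_prod]
  refine Finset.prod_congr rfl fun a _ => ?_
  rw [Units.val_pow_eq_pow_val]
  rfl

theorem exists_eq_mul_pow_of_zmod_eq {G : Type*} [CommGroup G] (x : G) {m n : ℕ}
    (h : (m : ZMod p) = n) : ∃ w : G, x ^ m = x ^ n * w ^ p := by
  obtain ⟨t, ht⟩ : (p : ℤ) ∣ (m : ℤ) - n := by
    rw [← ZMod.intCast_zmod_eq_zero_iff_dvd]; push_cast; rw [h, sub_self]
  refine ⟨x ^ t, ?_⟩
  rw [← zpow_natCast x m, ← zpow_natCast x n, ← zpow_natCast (x ^ t), ← zpow_mul, ← zpow_add]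
  congr 1
  linarith

theorem cycUnit_eigen (hp2 : p ≠ 2) (b : (ZMod p)ˣ) :
    ∃ w, Units.map (MulSemiringAction.toRingHom Gal(K/ℚ) (𝓞 K) (sg p K b)).toMonoidHom
        (cycUnit p K hp2) = cycUnit p K hp2 ^ (b : ZMod p).val ^ 2 * w ^ p := by
  set u := (isUnit_one_add_zI p K hp2).unit
  set M := fun σ => Units.map (MulSemiringAction.toRingHom Gal(K/ℚ) (𝓞 K) σ).toMonoidHom
  have hM : ∀ σ τ x, M σ (M τ x) = M (σ * τ) x := fun σ τ x =>
    Units.ext (mul_smul σ τ (x : 𝓞 K)).symm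
  have hex : ∀ a : (ZMod p)ˣ, ∃ w, M (sg p K a⁻¹) u ^ (((b * a : (ZMod p)ˣ) : ZMod p) ^ 2).val =
      M (sg p K a⁻¹) u ^ (((a : ZMod p) ^ 2).val * (b : ZMod p).val ^ 2) * w ^ p := fun a =>
    exists_eq_mul_pow_of_zmod_eq _ (by
      push_cast
      simp only [ZMod.natCast_val, ZMod.cast_id', id]
      ring)
  choose w hw using hex
  refine ⟨∏ a, w a, ?_⟩
  show M (sg p K b) (cycUnit p K hp2) = _
  rw [cycUnit, map_prod, ← Finset.prod_pow, ← Finset.prod_pow, ← Finset.prod_mul_distrib]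
  refine Fintype.prod_equiv (Equiv.mulLeft b⁻¹) _ _ fun a => ?_
  rw [map_pow, ← pow_mul]
  simp only [Equiv.coe_mulLeft]
  rw [← hw, mul_inv_cancel_left, hM, ← sg_mul, mul_inv_rev, inv_inv, mul_comm a⁻¹ b]

theorem not_piK_dvd_smul_one_add (hp2 : p ≠ 2) (σ : Gal(K/ℚ)) :
    ¬ piK p K ∣ σ • (1 + zI p K) := fun h => by
  have := piK_dvd_smul p K σ⁻¹ h
  rw [inv_smul_smul] at this
  exact not_piK_dvd_of_isUnit p K (isUnit_one_add_zI p K hp2) this

theorem qK_cycUnit (h5 : 5 ≤ p) :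
    qK p K (cycUnit p K (by omega) : 𝓞 K) = -(qK p K (1 + zI p K)) := by
  have hp2 : p ≠ 2 := by omega
  have hprod : ∀ s : Finset (ZMod p)ˣ,
      ¬ piK p K ∣ ∏ a ∈ s, (sg p K a⁻¹ • (1 + zI p K)) ^ ((a : ZMod p) ^ 2).val ∧
      qK p K (∏ a ∈ s, (sg p K a⁻¹ • (1 + zI p K)) ^ ((a : ZMod p) ^ 2).val) =
        ∑ a ∈ s, qK p K (1 + zI p K) := by
    intro s
    induction s using Finset.induction with
    | empty =>
      refine ⟨?_, ?_⟩
      · simpa using not_piK_dvd_of_isUnit p K (isUnit_one (M := 𝓞 K))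
      · simp [qK_one h5]
    | insert a s ha ih =>
      have ha' := not_piK_dvd_smul_one_add (K := K) hp2 (sg p K a⁻¹)
      have hap : ¬ piK p K ∣ (sg p K a⁻¹ • (1 + zI p K)) ^ ((a : ZMod p) ^ 2).val :=
        fun h => ha' ((prime_piK p K).dvd_of_dvd_pow h)
      rw [Finset.prod_insert ha, Finset.sum_insert ha]
      refine ⟨fun h => ((prime_piK p K).dvd_or_dvd h).elim hap ih.1, ?_⟩
      rw [qK_mul h5 hap ih.1, qK_pow h5 ha', qK_smul h5, ih.2, ← mul_assoc]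
      congr 1
      rw [ZMod.natCast_val, ZMod.cast_id, ← mul_pow, Units.mul_inv, one_pow, one_mul]
  rw [coe_cycUnit, (hprod Finset.univ).2, Finset.sum_const, Finset.card_univ, ZMod.card_units,
    nsmul_eq_mul, Nat.cast_sub hp.out.one_le, ZMod.natCast_self, Nat.cast_one, zero_sub,
    neg_one_mul]

theorem cycUnit_not_torsion_mul_pow (h5 : 5 ≤ p) :
    ¬ ∃ η ∈ NumberField.Units.torsion K, ∃ w, cycUnit p K (by omega) = η * w ^ p := by
  rintro ⟨η, hη, w, h⟩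
  have hodd : Odd p := hp.out.odd_of_ne_two (by omega)
  have hfin : IsOfFinOrder ((η : 𝓞 K) : K) :=
    ((algebraMap (𝓞 K) K).toMonoidHom.comp (Units.coeHom (𝓞 K))).isOfFinOrder
      ((CommGroup.mem_torsion η).1 hη)
  obtain ⟨r, -, hr⟩ := (zK_spec p K).exists_pow_or_neg_mul_pow_of_isOfFinOrder hodd hfin
  have hz : ¬ piK p K ∣ zI p K := fun h =>
    not_piK_dvd_of_isUnit p K ((zI_spec p K).isUnit hp.out.ne_zero) h
  have hqη : qK p K (η : 𝓞 K) = 0 := by
    rcases hr with hr | hr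
    · rw [show (η : 𝓞 K) = zI p K ^ r from RingOfIntegers.ext (by rw [hr]; rfl), qK_pow h5 hz,
        qK_zI h5, mul_zero]
    · rw [show (η : 𝓞 K) = (-1) * zI p K ^ r from RingOfIntegers.ext (by rw [neg_one_mul, hr]; rfl),
        qK_mul h5 (not_piK_dvd_of_isUnit p K isUnit_one.neg)
          (fun h => hz ((prime_piK p K).dvd_of_dvd_pow h)), qK_neg_one h5, qK_pow h5 hz,
        qK_zI h5, mul_zero, add_zero]
  have := congrArg (fun x : (𝓞 K)ˣ => qK p K (x : 𝓞 K)) h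
  simp only [Units.val_mul, Units.val_pow_eq_pow_val] at this
  rw [qK_cycUnit h5, qK_mul h5 (not_piK_dvd_of_isUnit p K η.isUnit)
    (not_piK_dvd_of_isUnit p K (w.isUnit.pow p)), hqη,
    qK_pow_p h5 (not_piK_dvd_of_isUnit p K w.isUnit), add_zero, neg_eq_zero] at this
  exact qK_one_add_zI_ne_zero h5 this

end CycUnit

theorem chiI_mul (χ : ClassGroup (𝓞 K) →* ℂ) {I J : Ideal (𝓞 K)} (hI : I ≠ ⊥) (hJ : J ≠ ⊥) :
    chiI χ (I * J) = chiI χ I * chiI χ J := by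
  rw [chiI, cls_mul hI hJ, map_mul]; rfl

theorem chiI_pow (χ : ClassGroup (𝓞 K) →* ℂ) {I : Ideal (𝓞 K)} (hI : I ≠ ⊥) (n : ℕ) :
    chiI χ (I ^ n) = chiI χ I ^ n := by
  induction n with
  | zero => rw [pow_zero, pow_zero, chiI, Ideal.one_eq_top,
      (cls_eq_one_iff top_ne_bot).2 inferInstance, map_one]
  | succ n ih => rw [pow_succ, chiI_mul χ (pow_ne_zero _ hI) hI, ih, pow_succ]

theorem chiI_prod (χ : ClassGroup (𝓞 K) →* ℂ) (T : Finset (HeightOneSpectrum (𝓞 K)))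
    (n : HeightOneSpectrum (𝓞 K) → ℕ) :
    chiI χ (∏ v ∈ T, v.asIdeal ^ n v) = ∏ v ∈ T, chiI χ v.asIdeal ^ n v := by
  induction T using Finset.induction with
  | empty => rw [Finset.prod_empty, Finset.prod_empty, chiI, Ideal.one_eq_top,
      (cls_eq_one_iff top_ne_bot).2 inferInstance, map_one]
  | insert v T hv ih =>
    rw [Finset.prod_insert hv, Finset.prod_insert hv,
      chiI_mul χ (pow_ne_zero _ v.ne_bot)
        (Finset.prod_ne_zero_iff.2 fun w _ => pow_ne_zero _ w.ne_bot), chiI_pow χ v.ne_bot, ih]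

/-- Thaine's relation. -/
theorem thaine_relation (hp2 : p ≠ 2) (χ : ClassGroup (𝓞 K) →* ℂ) (hχp : ∀ C, χ C ^ p = 1)
    (heq : ∀ (a : (ZMod p)ˣ) (v : HeightOneSpectrum (𝓞 K)),
      chiI χ (galPrime (sg p K a) v).asIdeal = chiI χ v.asIdeal ^ (a : ZMod p).val ^ 2)
    {ℓ : ℕ} (hℓ : ℓ.Prime) (hℓp : ℓ ≠ p) {v : HeightOneSpectrum (𝓞 K)}
    (hv : Ideal.absNorm v.asIdeal = ℓ) (hχv : chiI χ v.asIdeal ≠ 1) :
    ∃ y : 𝓞 K, (cycUnit p K hp2 : 𝓞 K) - y ^ p ∈ v.asIdeal := by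
  have : Fact ℓ.Prime := ⟨hℓ⟩
  obtain ⟨k, hk⟩ := dvd_pred_of_degree_one hℓ hℓp hv
  have hℓ2 : ℓ ≠ 2 := by
    intro h
    subst h
    rcases Nat.eq_zero_or_pos k with h | h
    · subst h; simp at hk
    · have := Nat.le_mul_of_pos_right p h
      have := hp.out.two_le
      omega
  have hunr : ∀ w : HeightOneSpectrum (𝓞 K), (ℓ : 𝓞 K) ∈ w.asIdeal →
      (ℓ : 𝓞 K) ∉ w.asIdeal ^ 2 := fun w hw => (eq_galPrime_of_mem hℓ hℓp hv hw).2
  have hz : zI p K ^ ℓ = zI p K := by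
    rw [show ℓ = p * k + 1 by have := hℓ.one_le; omega, pow_succ, pow_mul, zI_pow_p, one_pow,
      one_mul]
  obtain ⟨g, γ, hγ0, hout, hin⟩ := exists_dlog_element ℓ hℓ2 v (natCast_mem_of_absNorm hℓ hv)
    hunr hz (isUnit_one_add_zI p K hp2)
  set n := fun a : (ZMod p)ˣ => ordAt (galPrime (sg p K a) v) γ with hn
  -- the class relation
  set z := chiI χ v.asIdeal
  have hzp : z ^ p = 1 := hχp _
  have hrel : z ^ (∑ a : (ZMod p)ˣ, (a : ZMod p).val ^ 2 * n a) = 1 := by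
    set T := (finite_ordAt hγ0).toFinset ∪
      Finset.univ.image (fun a : (ZMod p)ˣ => galPrime (sg p K a) v) with hT
    have hspan : Ideal.span {γ} = ∏ w ∈ T, w.asIdeal ^ ordAt w γ := by
      rw [← finprod_ordAt hγ0]
      refine finprod_eq_prod_of_mulSupport_subset _ fun w hw => ?_
      rw [Function.mem_mulSupport] at hw
      refine Finset.mem_coe.2 (Finset.mem_union_left _ ((finite_ordAt hγ0).mem_toFinset.2 ?_))
      show ordAt w γ ≠ 0
      intro h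
      exact hw (by rw [h, pow_zero])
    have h1 : chiI χ (Ideal.span {γ}) = 1 := by
      rw [chiI, (cls_eq_one_iff (by simpa using hγ0)).2 ⟨⟨γ, rfl⟩⟩, map_one]
    rw [hspan, chiI_prod] at h1
    rw [← h1]
    rw [← Finset.prod_pow_eq_pow_sum]
    symm
    rw [← Finset.prod_subset (Finset.subset_union_right (s₁ := (finite_ordAt hγ0).toFinset)
      (s₂ := Finset.univ.image fun a : (ZMod p)ˣ => galPrime (sg p K a) v))]
    · rw [Finset.prod_image fun a _ b _ h => galPrime_injective hℓ hℓp hv h]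
      exact Finset.prod_congr rfl fun a _ => by rw [heq, ← pow_mul]
    · intro w _ hw
      have hnot : (ℓ : 𝓞 K) ∉ w.asIdeal := fun h => by
        obtain ⟨a, rfl⟩ := (eq_galPrime_of_mem hℓ hℓp hv h).1
        exact hw (Finset.mem_image_of_mem _ (Finset.mem_univ a))
      obtain ⟨t, ht⟩ := (Dvd.intro k hk.symm : p ∣ ℓ - 1).trans (hout w hnot)
      rw [ht, pow_mul, show chiI χ w.asIdeal ^ p = 1 from hχp _, one_pow]
  have hdvd : p ∣ ∑ a : (ZMod p)ˣ, ((a : ZMod p) ^ 2).val * n a := by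
    have hprim : orderOf z = p := orderOf_eq_prime hzp hχv
    have h1 := orderOf_dvd_of_pow_eq_one hrel
    rw [hprim, ← ZMod.natCast_eq_zero_iff] at h1
    rw [← ZMod.natCast_eq_zero_iff, ← h1]
    push_cast
    simp only [ZMod.natCast_val, ZMod.cast_id', id]
  obtain ⟨T, hT⟩ := hdvd
  let q := Ideal.Quotient.mk v.asIdeal
  have hq : ∀ a : (ZMod p)ˣ, q (sg p K a⁻¹ • (1 + zI p K)) * (q (g : 𝓞 K)) ^ n a = 1 := by
    intro a
    have h := hin (galPrime (sg p K a) v) (by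
      rw [mem_galPrime_iff, ← MulSemiringAction.toRingHom_apply, map_natCast]
      exact natCast_mem_of_absNorm hℓ hv)
    rw [mem_galPrime_iff, show (sg p K a)⁻¹ = sg p K a⁻¹ from (map_inv _ _).symm, smul_sub, smul_one, smul_mul', smul_pow',
      ← MulSemiringAction.toRingHom_apply _ _ _ (g : 𝓞 K), map_natCast] at h
    rw [← map_pow, ← map_mul, ← map_one q, Ideal.Quotient.eq]
    exact h
  have hc : q (cycUnit p K hp2 : 𝓞 K) * (q (g : 𝓞 K) ^ T) ^ p = 1 := by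
    rw [← pow_mul, mul_comm T p, ← hT, ← Finset.prod_pow_eq_pow_sum, coe_cycUnit, map_prod,
      ← Finset.prod_mul_distrib]
    refine Finset.prod_eq_one fun a _ => ?_
    rw [map_pow, mul_comm ((a : ZMod p) ^ 2).val (n a), pow_mul, ← mul_pow, hq, one_pow]
  have := v.isMaximal
  let := Ideal.Quotient.field v.asIdeal
  obtain ⟨y, hy⟩ := Ideal.Quotient.mk_surjective ((q (g : 𝓞 K) ^ T)⁻¹)
  refine ⟨y, Ideal.Quotient.eq.1 ?_⟩
  rw [map_pow, hy, inv_pow]
  exact eq_inv_of_mul_eq_one_left hc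

end FLTAgent.Thaine
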