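import Fermat.Agent.Thaine.Relation

/-!
# No class characters in the eigenspace of the square of the cyclotomic character

`classChar_eq_one`: if the cyclotomic unit is not a `p`-th power in `K = ℚ(μ_p)`, a `p`-torsion
class character in that eigenspace is trivial.  By Thaine's relation the degree one primes where
it is nontrivial split completely in `K(p-th root of the unit)` (`exists_kummer_primes`), so the
analytic criterion `classChar_eq_one_of_split` applies with `m = p`.
-/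

set_option autoImplicit false

noncomputable section

open NumberField IsDedekindDomain Polynomial
open scoped Classical

namespace FLTAgent.Thaine

/-- Counting the primes of a Kummer extension above a prime where the radicand is a power. -/
theorem exists_kummer_primes {p : ℕ} [hp : Fact p.Prime] {K K' : Type} [Field K] [NumberField K]
    [Field K'] [NumberField K'] [Algebra K K'] (hdeg : Module.finrank K K' = p) {z : 𝓞 K}
    (hz : IsPrimitiveRoot z p) (β : 𝓞 K') (c : 𝓞 K) (hc : IsUnit c)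
    (hβ : β ^ p = algebraMap (𝓞 K) (𝓞 K') c) (φ : 𝓞 K' →+* 𝓞 K')
    (hφ : ∀ x : 𝓞 K, φ (algebraMap (𝓞 K) (𝓞 K') x) = algebraMap (𝓞 K) (𝓞 K') x)
    (hφβ : φ β = algebraMap (𝓞 K) (𝓞 K') z * β)
    {ℓ : ℕ} (hℓ : ℓ.Prime) (v : HeightOneSpectrum (𝓞 K)) (hv : Ideal.absNorm v.asIdeal = ℓ)
    (hpv : ∀ j : ℕ, z ^ j - 1 ∈ v.asIdeal → p ∣ j) (y : 𝓞 K) (hy : c - y ^ p ∈ v.asIdeal) :
    ∃ P : Fin p → HeightOneSpectrum (𝓞 K'), Function.Injective P ∧
      ∀ j, Ideal.absNorm (P j).asIdeal = ℓ ∧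
        v.asIdeal = (P j).asIdeal.comap (algebraMap (𝓞 K) (𝓞 K')) := by
  set i := algebraMap (𝓞 K) (𝓞 K')
  have hyv : y ∉ v.asIdeal := fun h => v.isPrime.ne_top (Ideal.eq_top_of_isUnit_mem _ (by
    simpa using add_mem hy (v.asIdeal.pow_mem_of_mem h p hp.out.pos)) hc)
  obtain ⟨Q, hQ, hQv⟩ := (inferInstance : Nonempty (v.asIdeal.primesOver (𝓞 K')))
  have hQv' : v.asIdeal = Q.comap i := hQv.over
  have hinj : Function.Injective i := FaithfulSMul.algebraMap_injective (𝓞 K) (𝓞 K')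
  -- the prime `Q` contains one of the linear factors
  have hfac := congrArg (eval β) (X_pow_sub_C_eq_prod (hz.map_of_injective hinj) hp.out.pos
    (a := i y ^ p) (α := i y) rfl)
  simp only [eval_sub, eval_pow, eval_X, eval_C, eval_prod, hβ] at hfac
  have hmem : ∏ j ∈ Finset.range p, (β - i z ^ j * i y) ∈ Q := by
    rw [← hfac, ← map_pow, ← map_sub]
    exact Ideal.mem_comap.1 (hQv' ▸ hy)
  obtain ⟨j₀, -, hj₀⟩ := hQ.prod_mem_iff.1 hmem
  -- move it around with the automorphism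
  have hstep : ∀ (t : ℕ), ∃ P : Ideal (𝓞 K'), P.IsPrime ∧ v.asIdeal = P.comap i ∧
      β - i (z ^ (j₀ + t) * y) ∈ P := by
    intro t
    induction t with
    | zero => exact ⟨Q, hQ, hQv', by simpa using hj₀⟩
    | succ t ih =>
      obtain ⟨P, hP, hPv, hPm⟩ := ih
      refine ⟨P.comap φ, inferInstance, ?_, ?_⟩
      · rw [hPv, Ideal.comap_comap]
        exact congrArg (fun f => Ideal.comap f P) (RingHom.ext fun x => (hφ x).symm)
      · rw [Ideal.mem_comap, map_sub, hφ, hφβ,
          show z ^ (j₀ + (t + 1)) * y = z * (z ^ (j₀ + t) * y) by ring, map_mul, ← mul_sub]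
        exact P.mul_mem_left _ hPm
  choose P₀ hP hPv hPm using hstep
  have hne : ∀ t, P₀ t ≠ ⊥ := fun t h => v.ne_bot (by
    rw [hPv t, h, Ideal.comap_bot_of_injective _ hinj])
  have hzu : ∀ n : ℕ, z ^ n ∉ v.asIdeal := fun n h =>
    v.isPrime.ne_top (Ideal.eq_top_of_isUnit_mem _ h ((hz.isUnit hp.out.ne_zero).pow n))
  have key : ∀ a b : Fin p, (b : ℕ) ≤ a → P₀ a = P₀ b → a = b := by
    intro a b hba hab
    have h1 : i (z ^ (j₀ + a) * y) - i (z ^ (j₀ + b) * y) ∈ P₀ a := by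
      have := sub_mem (hab.symm ▸ hPm b : β - i (z ^ (j₀ + b) * y) ∈ P₀ a) (hPm a)
      simpa using this
    rw [← map_sub, ← Ideal.mem_comap, ← hPv a] at h1
    rw [show z ^ (j₀ + a) * y - z ^ (j₀ + b) * y = z ^ (j₀ + b) * y * (z ^ ((a : ℕ) - b) - 1) by
      rw [mul_sub, mul_one, show j₀ + (a : ℕ) = (j₀ + b) + ((a : ℕ) - b) by omega, pow_add]
      ring] at h1
    rcases v.isPrime.mem_or_mem h1 with h3 | h3
    · exact ((v.isPrime.mem_or_mem h3).elim (hzu _) hyv).elim
    · have := Nat.eq_zero_of_dvd_of_lt (hpv _ h3) (by omega)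
      exact Fin.ext (by omega)
  let P : Fin p → HeightOneSpectrum (𝓞 K') := fun j => ⟨P₀ j, hP j, hne j⟩
  have hinjP : Function.Injective P := fun a b hab => by
    have hab' : P₀ a = P₀ b := congrArg HeightOneSpectrum.asIdeal hab
    rcases le_total (b : ℕ) a with h | h
    · exact key a b h hab'
    · exact (key b a h hab'.symm).symm
  refine ⟨P, hinjP, fun j => ⟨?_, hPv j⟩⟩
  -- norms
  have hle : v.asIdeal.map i ≤ ∏ j, (P j).asIdeal := by
    rw [Ideal.prod_eq_iInf_of_pairwise_isCoprime]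
    · exact le_iInf₂ fun k _ => Ideal.map_le_iff_le_comap.2 (le_of_eq (hPv k))
    · intro a _ b _ hab
      exact Ideal.isCoprime_iff_sup_eq.2 ((P a).isMaximal.coprime_of_ne (P b).isMaximal
        fun h => hab (hinjP (HeightOneSpectrum.ext h)))
  have hdvd := Ideal.absNorm_dvd_absNorm_of_le hle
  rw [map_prod, Ideal.absNorm_algebraMap, hv] at hdvd
  have hrank : Module.finrank (𝓞 K) (𝓞 K') = p := by
    rw [← hdeg, IsFractionRing.finrank_eq (𝓞 K) K (𝓞 K') K']
  rw [hrank] at hdvd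
  have hpow : ∀ k, ∃ f, 0 < f ∧ Ideal.absNorm (P k).asIdeal = ℓ ^ f := by
    intro k
    obtain ⟨f, -, hf⟩ := (Nat.dvd_prime_pow hℓ).1
      ((Finset.dvd_prod_of_mem (fun k => Ideal.absNorm (P k).asIdeal) (Finset.mem_univ k)).trans hdvd)
    refine ⟨f, Nat.pos_of_ne_zero fun h => ?_, hf⟩
    rw [h, pow_zero, Ideal.absNorm_eq_one_iff] at hf
    exact (P k).isPrime.ne_top hf
  choose f hf0 hf using hpow
  simp only [hf, Finset.prod_pow_eq_pow_sum] at hdvd
  have hsum := (Nat.pow_dvd_pow_iff_le_right hℓ.one_lt).1 hdvd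
  have h1 : f j + ∑ k ∈ Finset.univ.erase j, 1 ≤ ∑ k, f k := by
    rw [← Finset.add_sum_erase _ f (Finset.mem_univ j)]
    exact Nat.add_le_add_left (Finset.sum_le_sum fun k _ => hf0 k) _
  rw [Finset.sum_const, Finset.card_erase_of_mem (Finset.mem_univ j), Finset.card_univ,
    Fintype.card_fin, smul_eq_mul, mul_one] at h1
  have := hf0 j
  rw [hf j, show f j = 1 by omega, pow_one]

/-- A `p`-torsion class character in the eigenspace of the square of the cyclotomic character
is trivial. -/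
theorem classChar_eq_one {p : ℕ} [hp : Fact p.Prime] {K : Type} [Field K] [NumberField K]
    [IsCyclotomicExtension {p} ℚ K] (hp2 : p ≠ 2) (χ : ClassGroup (𝓞 K) →* ℂ)
    (hχp : ∀ C, χ C ^ p = 1)
    (heq : ∀ (a : (ZMod p)ˣ) (v : HeightOneSpectrum (𝓞 K)),
      chiI χ (galPrime (sg p K a) v).asIdeal = chiI χ v.asIdeal ^ (a : ZMod p).val ^ 2)
    (hnp : ∀ x : K, x ^ p ≠ ((cycUnit p K hp2 : 𝓞 K) : K)) : χ = 1 := by
  set c : 𝓞 K := (cycUnit p K hp2 : 𝓞 K) with hc
  have hirr : Irreducible (X ^ p - C (c : K)) := X_pow_sub_C_irreducible_of_prime hp.out hnp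
  have : Fact (Irreducible (X ^ p - C (c : K))) := ⟨hirr⟩
  let K' := AdjoinRoot (X ^ p - C (c : K))
  have hmon : (X ^ p - C (c : K)).Monic := monic_X_pow_sub_C _ hp.out.ne_zero
  have : FiniteDimensional K K' := (AdjoinRoot.powerBasis hmon.ne_zero).finite
  have : NumberField K' := NumberField.of_module_finite K K'
  set b : K' := AdjoinRoot.root (X ^ p - C (c : K))
  have hb : b ^ p = algebraMap K K' (c : K) := by
    have h := AdjoinRoot.aeval_eq (R := K) (X ^ p - C (c : K)) (f := X ^ p - C (c : K))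
    rw [AdjoinRoot.mk_self, map_sub, map_pow, aeval_X, aeval_C, sub_eq_zero] at h
    exact h
  have hbint : IsIntegral ℤ b := IsIntegral.of_pow hp.out.pos (by
    rw [hb]; exact (RingOfIntegers.isIntegral_coe c).algebraMap)
  let β : 𝓞 K' := ⟨b, hbint⟩
  have hβ : β ^ p = algebraMap (𝓞 K) (𝓞 K') c := RingOfIntegers.ext hb
  have hroot : (X ^ p - C (c : K)).eval₂ (algebraMap K K') (algebraMap K K' (zK p K) * b) = 0 := by
    rw [eval₂_sub, eval₂_X_pow, eval₂_C, mul_pow, ← map_pow, (zK_spec p K).pow_eq_one, map_one,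
      one_mul, hb, sub_self]
  let σ : K' →ₐ[K] K' := AdjoinRoot.liftAlgHom _ (Algebra.ofId K K')
    (algebraMap K K' (zK p K) * b) hroot
  have hσb : σ b = algebraMap K K' (zK p K) * b := by
    show AdjoinRoot.lift (Algebra.ofId K K').toRingHom _ hroot
      (AdjoinRoot.mk (X ^ p - C (c : K)) X) = _
    rw [AdjoinRoot.lift_mk, eval₂_X]
  let φ : 𝓞 K' →+* 𝓞 K' := RingOfIntegers.mapRingHom σ.toRingHom
  refine classChar_eq_one_of_split (K' := K') (m := p)
    (by have := hp.out.two_le; omega) χ {p} fun ℓ hℓ hℓS => ?_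
  have hℓp : ℓ ≠ p := by simpa using hℓS
  have hdeg : Module.finrank K K' = p := by
    rw [(AdjoinRoot.powerBasis hmon.ne_zero).finrank, AdjoinRoot.powerBasis_dim,
      natDegree_X_pow_sub_C]
  have hex : ∀ v : {v : HeightOneSpectrum (𝓞 K) //
      Ideal.absNorm v.asIdeal = ℓ ∧ chiI χ v.asIdeal ≠ 1},
      ∃ P : Fin p → HeightOneSpectrum (𝓞 K'), Function.Injective P ∧
        ∀ j, Ideal.absNorm (P j).asIdeal = ℓ ∧
          v.1.asIdeal = (P j).asIdeal.comap (algebraMap (𝓞 K) (𝓞 K')) := by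
    rintro ⟨v, hv, hχv⟩
    obtain ⟨y, hy⟩ := thaine_relation hp2 χ hχp heq hℓ hℓp hv hχv
    refine exists_kummer_primes hdeg (zI_spec p K) β c (cycUnit p K hp2).isUnit hβ φ
      (fun x => RingOfIntegers.ext (σ.commutes (x : K))) ?_ hℓ v hv
      (fun j hj => zI_pow_eq_one_mod hℓ hℓp hv hj) y hy
    refine RingOfIntegers.ext ?_
    show σ b = algebraMap K K' (zK p K) * b
    exact hσb
  choose P hinj hP using hex
  rw [degOneCountOf, FLTAgent.Density.degOneCount, mul_comm]
  have hfin : Finite {Q : HeightOneSpectrum (𝓞 K') // Ideal.absNorm Q.asIdeal = ℓ} := by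
    have : Finite {I : Ideal (𝓞 K') // Ideal.absNorm I = ℓ} :=
      (Ideal.finite_setOfPred_absNorm_eq ℓ).to_subtype
    exact Finite.of_injective
      (fun P => (⟨P.1.asIdeal, P.2⟩ : {I : Ideal (𝓞 K') // Ideal.absNorm I = ℓ}))
      (fun a b hab => Subtype.ext (HeightOneSpectrum.ext (congrArg Subtype.val hab :)))
  calc _ = Nat.card ({v : HeightOneSpectrum (𝓞 K) //
        Ideal.absNorm v.asIdeal = ℓ ∧ chiI χ v.asIdeal ≠ 1} × Fin p) := by
        rw [Nat.card_prod, Nat.card_fin]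
    _ ≤ _ := by
      refine Nat.card_le_card_of_injective
        (fun x => (⟨P x.1 x.2, (hP x.1 x.2).1⟩ :
          {Q : HeightOneSpectrum (𝓞 K') // Ideal.absNorm Q.asIdeal = ℓ})) ?_
      rintro ⟨v, j⟩ ⟨v', j'⟩ h
      have h' : P v j = P v' j' := congrArg Subtype.val h
      have hv : v = v' := Subtype.ext (HeightOneSpectrum.ext (by
        rw [(hP v j).2, (hP v' j').2, h']))
      subst hv
      exact Prod.ext rfl (hinj v h')

end FLTAgent.Thaine
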