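import Fermat.Agent.Thaine.Cyclo

/-!
# The second logarithmic derivative modulo `(ζ - 1) ^ 3`

`qK p K x` is the value at `1` of the second logarithmic derivative of a polynomial representing
`x` modulo `p`.  For `5 ≤ p` it depends only on `x` modulo `piK ^ 3` (`qK_congr`), is additive on
elements prime to `p`, kills `p`-th powers and `ζ`, transforms by `a ^ 2` under `sg a`, and takes
the value `1 / 4` at `1 + ζ` (`qK_one_add_zI`).
-/

set_option autoImplicit false

noncomputable section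

open NumberField Polynomial

namespace FLTAgent.Thaine

section Poly

variable {F : Type*} [Field F]

/-- The derivation `X d/dX`. -/
def eulerD (f : F[X]) : F[X] := X * derivative f

theorem eulerD_mul (f g : F[X]) : eulerD (f * g) = eulerD f * g + f * eulerD g := by
  simp only [eulerD, derivative_mul]; ring

theorem eulerD_add (f g : F[X]) : eulerD (f + g) = eulerD f + eulerD g := by
  simp only [eulerD, derivative_add]; ring

theorem eulerD_comp_pow (f : F[X]) {n : ℕ} (hn : n ≠ 0) :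
    eulerD (f.comp (X ^ n)) = C (n : F) * (eulerD f).comp (X ^ n) := by
  simp only [eulerD, derivative_comp, derivative_X_pow, mul_comp, X_comp]
  obtain ⟨m, rfl⟩ : ∃ m, n = m + 1 := ⟨n - 1, by omega⟩
  rw [Nat.add_sub_cancel, pow_succ]
  ring

/-- The second logarithmic derivative at one. -/
def qPoly (f : F[X]) : F :=
  (eulerD (eulerD f)).eval 1 / f.eval 1 - ((eulerD f).eval 1 / f.eval 1) ^ 2

theorem qPoly_mul {f g : F[X]} (hf : f.eval 1 ≠ 0) (hg : g.eval 1 ≠ 0) :
    qPoly (f * g) = qPoly f + qPoly g := by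
  simp only [qPoly, eulerD_mul, eulerD_add, eval_add, eval_mul]
  field_simp
  ring

theorem qPoly_comp_pow (f : F[X]) {n : ℕ} (hn : n ≠ 0) :
    qPoly (f.comp (X ^ n)) = (n : F) ^ 2 * qPoly f := by
  have h1 : eulerD (eulerD (f.comp (X ^ n))) =
      C (n : F) * (C (n : F) * (eulerD (eulerD f)).comp (X ^ n)) := by
    rw [eulerD_comp_pow f hn]
    conv_lhs => rw [eulerD, derivative_C_mul, mul_left_comm, ← eulerD, eulerD_comp_pow _ hn]
  rw [qPoly, qPoly, h1, eulerD_comp_pow f hn]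
  simp only [eval_mul, eval_C, eval_comp, eval_pow, eval_X, one_pow]
  ring

theorem qPoly_congr {f g : F[X]} (h : (X - 1) ^ 3 ∣ f - g) :
    f.eval 1 = g.eval 1 ∧ qPoly f = qPoly g := by
  obtain ⟨k, hk⟩ := h
  obtain rfl : f = g + (X - 1) ^ 3 * k := by rw [← hk]; ring
  have h0 : ((X - 1) ^ 3 * k).eval 1 = 0 := by simp
  have h1 : (eulerD ((X - 1) ^ 3 * k)).eval 1 = 0 := by
    simp [eulerD, derivative_mul, derivative_pow]
  have h2 : (eulerD (eulerD ((X - 1) ^ 3 * k))).eval 1 = 0 := by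
    simp [eulerD, derivative_mul, derivative_pow]
  refine ⟨by rw [eval_add, h0, add_zero], ?_⟩
  simp only [qPoly, eulerD_add, eval_add, h0, h1, h2, add_zero]

end Poly

variable (p : ℕ) [hp : Fact p.Prime] (K : Type*) [Field K] [NumberField K]
  [IsCyclotomicExtension {p} ℚ K]

/-- A polynomial representing an integer, reduced modulo `p`. -/
def redPoly (x : 𝓞 K) : (ZMod p)[X] :=
  ((exists_aeval_zI p K x).choose).map (Int.castRingHom (ZMod p))

/-- The invariant `q`. -/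
def qK (x : 𝓞 K) : ZMod p := qPoly (redPoly p K x)

variable {p K}

theorem cyclotomic_zmod : cyclotomic p (ZMod p) = (X - 1) ^ (p - 1) := by
  have := cyclotomic_mul_prime_pow_eq (ZMod p) (p := p) (m := 1) (k := 1)
    (by simpa using hp.out.ne_one) one_pos
  simpa [cyclotomic_one] using this

theorem dvd_redPoly_sub (h5 : 5 ≤ p) {x : 𝓞 K} {f : ℤ[X]}
    (hf : piK p K ^ 3 ∣ aeval (zI p K) f - x) :
    (X - 1) ^ 3 ∣ f.map (Int.castRingHom (ZMod p)) - redPoly p K x := by
  obtain ⟨w, hw⟩ := hf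
  obtain ⟨k, rfl⟩ := exists_aeval_zI p K w
  set g := (exists_aeval_zI p K x).choose
  have hg : aeval (zI p K) g = x := (exists_aeval_zI p K x).choose_spec
  have h0 : aeval (zI p K) (f - g - (X - 1) ^ 3 * k) = 0 := by
    rw [map_sub, map_sub, hg, hw, map_mul, map_pow, map_sub, aeval_X, map_one, piK, sub_self]
  have hd := Polynomial.map_dvd (Int.castRingHom (ZMod p)) (cyclotomic_dvd_of_aeval_eq_zero p K h0)
  rw [map_cyclotomic, cyclotomic_zmod] at hd
  have h3 : (X - 1 : (ZMod p)[X]) ^ 3 ∣ (X - 1) ^ (p - 1) := pow_dvd_pow _ (by omega)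
  have := h3.trans hd
  simp only [Polynomial.map_sub, Polynomial.map_mul, Polynomial.map_pow, map_X,
    Polynomial.map_one] at this
  simpa [redPoly, g] using this.add (dvd_mul_right ((X - 1 : (ZMod p)[X]) ^ 3)
    (k.map (Int.castRingHom (ZMod p))))

theorem qK_eq (h5 : 5 ≤ p) {x : 𝓞 K} {f : ℤ[X]} (hf : aeval (zI p K) f = x) :
    (redPoly p K x).eval 1 = (f.map (Int.castRingHom (ZMod p))).eval 1 ∧
      qK p K x = qPoly (f.map (Int.castRingHom (ZMod p))) := by
  obtain ⟨a, b⟩ := qPoly_congr (dvd_redPoly_sub h5 (x := x) (f := f) (by simp [hf]))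
  exact ⟨a.symm, b.symm⟩

theorem qK_congr (h5 : 5 ≤ p) {x y : 𝓞 K} (h : piK p K ^ 3 ∣ x - y) : qK p K x = qK p K y := by
  have hf := (exists_aeval_zI p K x).choose_spec
  exact (qPoly_congr (dvd_redPoly_sub h5 (x := y) (f := (exists_aeval_zI p K x).choose)
    (by rwa [hf]))).2

theorem redPoly_eval_ne_zero {x : 𝓞 K} (h : ¬ piK p K ∣ x) : (redPoly p K x).eval 1 ≠ 0 := by
  intro h0
  apply h
  set g := (exists_aeval_zI p K x).choose
  have hg : aeval (zI p K) g = x := (exists_aeval_zI p K x).choose_spec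
  rw [redPoly, eval_one_map, eq_intCast, ZMod.intCast_zmod_eq_zero_iff_dvd] at h0
  obtain ⟨t, ht⟩ := h0
  obtain ⟨k, hk⟩ := X_sub_C_dvd_sub_C_eval (p := g) (a := 1)
  have : g = (X - C 1) * k + C (g.eval 1) := by rw [← hk]; ring
  rw [← hg, this, map_add, map_mul, map_sub, aeval_X, aeval_C, aeval_C, map_one, ht, ← piK]
  refine dvd_add (dvd_mul_right _ _) ?_
  rw [map_mul, map_natCast]
  exact (piK_dvd_p p K).mul_right _

theorem qK_mul (h5 : 5 ≤ p) {x y : 𝓞 K} (hx : ¬ piK p K ∣ x) (hy : ¬ piK p K ∣ y) :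
    qK p K (x * y) = qK p K x + qK p K y := by
  obtain ⟨f, rfl⟩ := exists_aeval_zI p K x
  obtain ⟨g, rfl⟩ := exists_aeval_zI p K y
  obtain ⟨ef, qf⟩ := qK_eq h5 (rfl : aeval (zI p K) f = _)
  obtain ⟨eg, qg⟩ := qK_eq h5 (rfl : aeval (zI p K) g = _)
  rw [qf, qg, (qK_eq h5 (map_mul (aeval (zI p K)) f g)).2, Polynomial.map_mul,
    qPoly_mul (ef ▸ redPoly_eval_ne_zero hx) (eg ▸ redPoly_eval_ne_zero hy)]

theorem qK_one (h5 : 5 ≤ p) : qK p K 1 = 0 := by
  rw [(qK_eq h5 (map_one (aeval (zI p K)))).2]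
  simp [qPoly, eulerD]

theorem qK_pow (h5 : 5 ≤ p) {x : 𝓞 K} (hx : ¬ piK p K ∣ x) (n : ℕ) :
    qK p K (x ^ n) = n * qK p K x := by
  induction n with
  | zero => simp [qK_one h5]
  | succ n ih =>
    rw [pow_succ, qK_mul h5 (fun h => hx ((prime_piK p K).dvd_of_dvd_pow h)) hx, ih]
    push_cast
    ring

theorem qK_pow_p (h5 : 5 ≤ p) {x : 𝓞 K} (hx : ¬ piK p K ∣ x) : qK p K (x ^ p) = 0 := by
  rw [qK_pow h5 hx, ZMod.natCast_self, zero_mul]

theorem qK_smul (h5 : 5 ≤ p) (a : (ZMod p)ˣ) (x : 𝓞 K) :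
    qK p K (sg p K a • x) = (a : ZMod p) ^ 2 * qK p K x := by
  obtain ⟨f, rfl⟩ := exists_aeval_zI p K x
  have hne : (a : ZMod p).val ≠ 0 := fun h => a.ne_zero ((ZMod.val_eq_zero _).1 h)
  rw [(qK_eq h5 (sg_smul_aeval p K a f).symm).2, (qK_eq h5 (rfl : aeval (zI p K) f = _)).2,
    Polynomial.map_comp, Polynomial.map_pow, map_X, qPoly_comp_pow _ hne,
    ZMod.natCast_val, ZMod.cast_id]

theorem qK_zI (h5 : 5 ≤ p) : qK p K (zI p K) = 0 := by
  rw [(qK_eq h5 (aeval_X (zI p K))).2]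
  simp [qPoly, eulerD]

theorem qK_neg_one (h5 : 5 ≤ p) : qK p K (-1) = 0 := by
  have hf : aeval (zI p K) (-1 : ℤ[X]) = -1 := by simp
  rw [(qK_eq h5 hf).2]
  simp [qPoly, eulerD]

theorem qK_one_add_zI (h5 : 5 ≤ p) : qK p K (1 + zI p K) = 1 / 4 := by
  have hf : aeval (zI p K) (1 + X : ℤ[X]) = 1 + zI p K := by simp
  rw [(qK_eq h5 hf).2]
  have h2 : (2 : ZMod p) ≠ 0 := by
    have := ZMod.val_natCast_of_lt (n := p) (a := 2) (by omega)
    intro h
    rw [Nat.cast_ofNat, h, ZMod.val_zero] at this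
    omega
  have h4 : (4 : ZMod p) ≠ 0 := by
    have : (4 : ZMod p) = 2 * 2 := by norm_num
    rw [this]; exact mul_ne_zero h2 h2
  simp [qPoly, eulerD]
  norm_num
  field_simp
  norm_num

theorem qK_one_add_zI_ne_zero (h5 : 5 ≤ p) : qK p K (1 + zI p K) ≠ 0 := by
  rw [qK_one_add_zI h5]
  intro h
  rw [div_eq_zero_iff] at h
  rcases h with h | h
  · exact one_ne_zero h
  · have := ZMod.val_natCast_of_lt (n := p) (a := 4) (by omega)
    rw [Nat.cast_ofNat, h, ZMod.val_zero] at this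
    omega

end FLTAgent.Thaine
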