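import Fermat.Agent.Thaine.UnitWeight

/-!
# The weighted norm changes little under translation

On the support of the weight all archimedean absolute values are comparable to `size K x`
(`exists_comparable`) and the weight is Lipschitz in logarithmic coordinates.  Hence translating
by a fixed integer `b` changes `wnorm K s` by at most a summable function of the integer, uniformly
for `1 ≤ s ≤ 2` (`exists_translate_bound`).
-/

set_option autoImplicit false

noncomputable section

open NumberField NumberField.InfinitePlace Filter Topology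
open NumberField.Units NumberField.Units.dirichletUnitTheorem
open scoped Classical

namespace FLTAgent.Thaine

variable {K : Type*} [Field K] [NumberField K]

theorem abs_prod_sub_prod_le {ι : Type*} (s : Finset ι) {a b : ι → ℝ}
    (ha : ∀ i, a i ∈ Set.Icc (0 : ℝ) 1) (hb : ∀ i, b i ∈ Set.Icc (0 : ℝ) 1) :
    |∏ i ∈ s, a i - ∏ i ∈ s, b i| ≤ ∑ i ∈ s, |a i - b i| := by
  induction s using Finset.induction with
  | empty => simp
  | insert i s hi ih =>
    rw [Finset.prod_insert hi, Finset.prod_insert hi, Finset.sum_insert hi]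
    have h1 : 0 ≤ ∏ j ∈ s, a j := Finset.prod_nonneg fun j _ => (ha j).1
    have h2 : ∏ j ∈ s, a j ≤ 1 := Finset.prod_le_one (fun j _ => (ha j).1) fun j _ => (ha j).2
    have e : a i * ∏ j ∈ s, a j - b i * ∏ j ∈ s, b j =
        (a i - b i) * ∏ j ∈ s, a j + b i * (∏ j ∈ s, a j - ∏ j ∈ s, b j) := by ring
    rw [e]
    refine (abs_add_le _ _).trans (add_le_add ?_ ?_)
    · rw [abs_mul, abs_of_nonneg h1]
      exact mul_le_of_le_one_right (abs_nonneg _) h2
    · rw [abs_mul, abs_of_nonneg (hb i).1]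
      exact (mul_le_of_le_one_left (abs_nonneg _) (hb i).2).trans ih

/-- The size of an element: the largest of its absolute values. -/
def size (K : Type*) [Field K] [NumberField K] (x : K) : ℝ := ‖mixedEmbedding K x‖

theorem le_size (w : InfinitePlace K) (x : K) : w x ≤ size K x := by
  rw [size, mixedEmbedding.norm_eq_sup'_normAtPlace]
  rw [← mixedEmbedding.normAtPlace_apply w x]
  exact Finset.le_sup' (fun w => mixedEmbedding.normAtPlace w (mixedEmbedding K x))
    (Finset.mem_univ w)

theorem exists_eq_size (x : K) : ∃ w : InfinitePlace K, w x = size K x := by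
  obtain ⟨w, -, hw⟩ := Finset.exists_mem_eq_sup' (Finset.univ_nonempty (α := InfinitePlace K))
    (fun w => mixedEmbedding.normAtPlace w (mixedEmbedding K x))
  exact ⟨w, by rw [size, mixedEmbedding.norm_eq_sup'_normAtPlace, hw,
    mixedEmbedding.normAtPlace_apply]⟩

theorem exists_log_bound : ∃ C : ℝ, 0 ≤ C ∧ ∀ x : K, weight K x ≠ 0 →
    ∀ w : InfinitePlace K, |Real.log (w x) - lnorm K x / Module.finrank ℚ K| ≤ C := by
  set b := (basisUnitLattice K).ofZLatticeBasis ℝ (unitLattice K)
  set C₀ := ∑ i, ‖b i‖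
  have hC₀ : 0 ≤ C₀ := Finset.sum_nonneg fun i _ => norm_nonneg _
  refine ⟨Fintype.card (InfinitePlace K) * C₀ + C₀, by positivity, fun x hx => ?_⟩
  set D : InfinitePlace K → ℝ := fun w => Real.log (w x) - lnorm K x / Module.finrank ℚ K
  have ht : ∀ i, |unitCoord K x i| ≤ 1 := fun i =>
    abs_le_one_of_hat_ne_zero fun h0 => hx (Finset.prod_eq_zero (Finset.mem_univ i) h0)
  have hv : ‖projLog K x‖ ≤ C₀ := by
    rw [← b.sum_repr (projLog K x)]
    refine (norm_sum_le _ _).trans (Finset.sum_le_sum fun i _ => ?_)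
    rw [norm_smul, Real.norm_eq_abs]
    exact mul_le_of_le_one_left (norm_nonneg _) (ht i)
  have hne : ∀ w : InfinitePlace K, w ≠ w₀ → |(mult w : ℝ) * D w| ≤ C₀ := fun w hw => by
    refine le_trans ?_ hv
    exact norm_le_pi_norm (projLog K x) ⟨w, hw⟩
  have hsum : ∑ w, (mult w : ℝ) * D w = 0 := by
    simp only [D, mul_sub, Finset.sum_sub_distrib, ← Finset.sum_mul]
    have h1 : (∑ w : InfinitePlace K, (mult w : ℝ)) = Module.finrank ℚ K := by
      exact_mod_cast sum_mult_eq
    have h2 : (Module.finrank ℚ K : ℝ) ≠ 0 := by exact_mod_cast Module.finrank_pos.ne'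
    rw [h1, mul_div_cancel₀ _ h2, lnorm, sub_self]
  intro w
  have hm : (1 : ℝ) ≤ mult w := one_le_mult
  have key : |D w| ≤ |(mult w : ℝ) * D w| := by
    rw [abs_mul, abs_of_pos (by linarith : (0 : ℝ) < mult w)]
    exact le_mul_of_one_le_left (abs_nonneg _) hm
  refine key.trans ?_
  by_cases hw : w = w₀
  · subst hw
    have : (mult (w₀ : InfinitePlace K) : ℝ) * D w₀ =
        -∑ v ∈ Finset.univ.erase (w₀ : InfinitePlace K), (mult v : ℝ) * D v := by
      rw [← Finset.add_sum_erase _ _ (Finset.mem_univ (w₀ : InfinitePlace K))] at hsum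
      linarith
    rw [this, abs_neg]
    refine (Finset.abs_sum_le_sum_abs _ _).trans ?_
    refine (Finset.sum_le_sum (g := fun _ => C₀) fun v hv => hne v (Finset.ne_of_mem_erase hv)).trans ?_
    rw [Finset.sum_const, nsmul_eq_mul]
    have hcard : ((Finset.univ.erase (w₀ : InfinitePlace K)).card : ℝ) ≤
        Fintype.card (InfinitePlace K) := by
      exact_mod_cast (Finset.card_le_univ _)
    nlinarith
  · refine (hne w hw).trans ?_
    have : 0 ≤ (Fintype.card (InfinitePlace K) : ℝ) * C₀ := by positivity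
    linarith

/-- On the support of the weight all absolute values are comparable to the size. -/
theorem exists_comparable : ∃ κ : ℝ, 0 < κ ∧ κ ≤ 1 ∧ ∀ x : K, x ≠ 0 → weight K x ≠ 0 →
    ∀ w : InfinitePlace K, κ * size K x ≤ w x := by
  obtain ⟨C, hC, hbd⟩ := exists_log_bound (K := K)
  refine ⟨Real.exp (-2 * C), Real.exp_pos _, Real.exp_le_one_iff.2 (by linarith), fun x hx0 hx w => ?_⟩
  obtain ⟨v, hv⟩ := exists_eq_size x
  rw [← hv, ← Real.exp_log (pos_iff.2 hx0 : 0 < v x), ← Real.exp_log (pos_iff.2 hx0 : 0 < w x),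
    ← Real.exp_add, Real.exp_le_exp]
  have h1 := abs_le.1 (hbd x hx v)
  have h2 := abs_le.1 (hbd x hx w)
  linarith

theorem exists_weight_lipschitz : ∃ C : ℝ, 0 ≤ C ∧ ∀ (x y : K) (δ : ℝ),
    (∀ w : InfinitePlace K, |Real.log (w x) - Real.log (w y)| ≤ δ) →
      |lnorm K x - lnorm K y| ≤ Module.finrank ℚ K * δ ∧ |weight K x - weight K y| ≤ C * δ := by
  set b := (basisUnitLattice K).ofZLatticeBasis ℝ (unitLattice K)
  set T := (b.equivFun.toLinearMap).toContinuousLinearMap
  refine ⟨Units.rank K * (‖T‖ * 4), by positivity, fun x y δ h => ?_⟩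
  have hδ : 0 ≤ δ := (abs_nonneg _).trans (h w₀)
  have hn : (0 : ℝ) < Module.finrank ℚ K := by exact_mod_cast Module.finrank_pos
  have hL : |lnorm K x - lnorm K y| ≤ Module.finrank ℚ K * δ := by
    rw [lnorm, lnorm, ← Finset.sum_sub_distrib]
    refine (Finset.abs_sum_le_sum_abs _ _).trans ?_
    rw [show (Module.finrank ℚ K : ℝ) * δ = ∑ w : InfinitePlace K, (mult w : ℝ) * δ by
      rw [← Finset.sum_mul]; congr 1; exact_mod_cast sum_mult_eq.symm]
    refine Finset.sum_le_sum fun w _ => ?_
    rw [← mul_sub, abs_mul, Nat.abs_cast]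
    exact mul_le_mul_of_nonneg_left (h w) (Nat.cast_nonneg _)
  refine ⟨hL, ?_⟩
  have hp : ‖projLog K x - projLog K y‖ ≤ 4 * δ := by
    refine (pi_norm_le_iff_of_nonneg (by linarith)).2 fun w => ?_
    have h4 : |(lnorm K x - lnorm K y) / Module.finrank ℚ K| ≤ δ := by
      rw [abs_div, Nat.abs_cast, div_le_iff₀ hn]
      linarith
    have hm : (mult w.1 : ℝ) ≤ 2 := by
      rw [mult]; split_ifs <;> norm_num
    have e : (projLog K x - projLog K y) w = (mult w.1 : ℝ) *
        ((Real.log (w.1 x) - Real.log (w.1 y)) -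
          (lnorm K x - lnorm K y) / Module.finrank ℚ K) := by
      simp only [Pi.sub_apply, projLog]
      ring
    rw [Real.norm_eq_abs, e, abs_mul, Nat.abs_cast]
    calc (mult w.1 : ℝ) * _ ≤ 2 * (δ + δ) :=
          mul_le_mul hm ((abs_sub _ _).trans (add_le_add (h w.1) h4)) (abs_nonneg _) two_pos.le
      _ = 4 * δ := by ring
  have ht : ∀ i, |unitCoord K x i - unitCoord K y i| ≤ ‖T‖ * (4 * δ) := by
    intro i
    have h1 : unitCoord K x i - unitCoord K y i = T (projLog K x - projLog K y) i := by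
      simp [T, b, unitCoord]
    rw [h1, ← Real.norm_eq_abs]
    exact (norm_le_pi_norm (T (projLog K x - projLog K y)) i).trans
      ((T.le_opNorm _).trans (mul_le_mul_of_nonneg_left hp (norm_nonneg _)))
  refine (abs_prod_sub_prod_le _ (fun i => ⟨hat_nonneg _, hat_le_one _⟩)
    (fun i => ⟨hat_nonneg _, hat_le_one _⟩)).trans ?_
  refine (Finset.sum_le_sum (g := fun _ => ‖T‖ * (4 * δ)) fun i _ =>
    (abs_hat_sub_le _ _).trans (ht i)).trans (le_of_eq ?_)
  rw [Finset.sum_const, Finset.card_univ, Fintype.card_fin, nsmul_eq_mul]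
  ring

theorem abs_log_sub_log_le {a b m : ℝ} (hm : 0 < m) (ha : m ≤ a) (hb : m ≤ b) :
    |Real.log a - Real.log b| ≤ |a - b| / m := by
  have key : ∀ a b : ℝ, m ≤ a → m ≤ b → Real.log a - Real.log b ≤ |a - b| / m := by
    intro a b ha hb
    rw [← Real.log_div (by linarith) (by linarith)]
    refine (Real.log_le_sub_one_of_pos (div_pos (by linarith) (by linarith))).trans ?_
    rw [div_sub_one (by linarith : b ≠ 0)]
    calc (a - b) / b ≤ |a - b| / b := div_le_div_of_nonneg_right (le_abs_self _) (by linarith)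
      _ ≤ |a - b| / m := div_le_div_of_nonneg_left (abs_nonneg _) hm hb
  rw [abs_le]
  refine ⟨?_, key a b ha hb⟩
  have := key b a hb ha
  rw [abs_sub_comm] at this
  linarith

theorem abs_exp_sub_exp_le (a b : ℝ) :
    |Real.exp a - Real.exp b| ≤ Real.exp (max a b) * |a - b| := by
  wlog h : b ≤ a generalizing a b
  · rw [abs_sub_comm, abs_sub_comm a b, max_comm]
    exact this b a (le_of_not_ge h)
  have h2 : Real.exp b = Real.exp a * Real.exp (b - a) := by rw [← Real.exp_add]; ring_nf
  rw [max_eq_left h, abs_of_nonneg (sub_nonneg.2 (Real.exp_le_exp.2 h)),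
    abs_of_nonneg (sub_nonneg.2 h), h2]
  nlinarith [Real.exp_pos a, Real.add_one_le_exp (b - a)]

theorem finite_size_lt (R : ℝ) : {a : 𝓞 K | size K (a : K) < R}.Finite := by
  refine ((NumberField.Embeddings.finite_of_norm_le K ℂ R).preimage
    (f := fun a : 𝓞 K => (a : K)) RingOfIntegers.coe_injective.injOn).subset fun a ha => ?_
  refine ⟨a.2, fun φ => ?_⟩
  rw [← InfinitePlace.apply]
  exact (le_size _ _).trans ha.le

theorem summable_size_pow_inv :
    Summable fun a : 𝓞 K => (size K (a : K))⁻¹ ^ (Module.finrank ℚ K + 1) := by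
  have hm : Module.finrank ℤ (mixedEmbedding.integerLattice K) < Module.finrank ℚ K + 1 := by
    rw [ZLattice.rank ℝ, mixedEmbedding.finrank]; omega
  have h : Summable fun z : mixedEmbedding.integerLattice K =>
      ‖(z : mixedEmbedding.mixedSpace K)‖⁻¹ ^ (Module.finrank ℚ K + 1) :=
    ZLattice.summable_norm_pow_inv _ _ hm
  have hmem : ∀ a : 𝓞 K, mixedEmbedding K (a : K) ∈ mixedEmbedding.integerLattice K :=
    fun a => ⟨a, rfl⟩
  have he : Function.Injective fun a : 𝓞 K =>
      (⟨mixedEmbedding K (a : K), hmem a⟩ : mixedEmbedding.integerLattice K) := fun a b hab =>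
    RingOfIntegers.coe_injective (mixedEmbedding_injective K (congrArg Subtype.val hab))
  have h2 := h.comp_injective he
  simp only [Function.comp_def] at h2
  exact h2

theorem abs_log_le_of_supported {κ : ℝ} (hκ0 : 0 < κ) (hκ1 : κ ≤ 1) {a b : K} {B : ℝ}
    (hκ : ∀ x : K, x ≠ 0 → weight K x ≠ 0 → ∀ w : InfinitePlace K, κ * size K x ≤ w x)
    (hB : ∀ w : InfinitePlace K, w b ≤ B) (hbig : 4 * (B + 1) ≤ κ * size K a)
    (h : wnorm K 1 a ≠ 0 ∨ wnorm K 1 (a + b) ≠ 0) (w : InfinitePlace K) :
    κ * size K a / 4 ≤ w a ∧ κ * size K a / 4 ≤ w (a + b) := by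
  have hsup : ∀ x : K, wnorm K 1 x ≠ 0 → κ * size K x ≤ w x := by
    intro x hx
    rw [wnorm] at hx
    split_ifs at hx with hx0
    · exact absurd rfl hx
    · exact hκ x hx0 (left_ne_zero_of_mul hx) w
  have h1 : w (a + b) ≤ w a + w b := map_add_le_add w.1 a b
  have h2 : w a ≤ w (a + b) + w b := by
    show w.1 a ≤ w.1 (a + b) + w.1 b
    simpa using map_sub_le_add w.1 (a + b) b
  have hb := hB w
  have hb0 : 0 ≤ w b := apply_nonneg w b
  rcases h with h | h
  · have := hsup a h
    constructor <;> linarith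
  · have h3 := hsup (a + b) h
    obtain ⟨v, hv⟩ := exists_eq_size a
    have h5 : v a ≤ v (a + b) + v b := by
      show v.1 a ≤ v.1 (a + b) + v.1 b
      simpa using map_sub_le_add v.1 (a + b) b
    have h4 : size K a ≤ size K (a + b) + B := by
      linarith [le_size v (a + b), hB v]
    have h6 : κ * size K a ≤ κ * size K (a + b) + B := by
      have := mul_le_mul_of_nonneg_left h4 hκ0.le
      have : κ * B ≤ B := mul_le_of_le_one_left (hb0.trans hb) hκ1
      linarith
    constructor <;> linarith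

/-- Translation by a fixed integer changes the weighted norm by a summable amount. -/
theorem exists_translate_bound (b : 𝓞 K) : ∃ g : 𝓞 K → ℝ, Summable g ∧
    ∀ s ∈ Set.Icc (1 : ℝ) 2, ∀ a : 𝓞 K,
      |wnorm K s ((a + b : 𝓞 K) : K) - wnorm K s (a : K)| ≤ g a := by
  obtain ⟨κ, hκ0, hκ1, hκ⟩ := exists_comparable (K := K)
  obtain ⟨C, hC, hlip⟩ := exists_weight_lipschitz (K := K)
  set n := Module.finrank ℚ K with hn
  set B := size K (b : K)
  have hB0 : 0 ≤ B := norm_nonneg _
  set R := 4 * (B + 1) / κ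
  set D := (C + 2 * n) * B * (4 / κ) ^ (n + 1) with hD
  refine ⟨fun a => D * (size K (a : K))⁻¹ ^ (n + 1) +
    Set.indicator {a : 𝓞 K | size K (a : K) < R} (fun _ => (1 : ℝ)) a, ?_, ?_⟩
  · refine (summable_size_pow_inv.mul_left _).add ?_
    exact summable_of_ne_finset_zero (s := (finite_size_lt R).toFinset) fun a ha =>
      Set.indicator_of_notMem (by simpa using ha) _
  intro s hs a
  beta_reduce
  have hD0 : 0 ≤ D * (size K (a : K))⁻¹ ^ (n + 1) := by
    refine mul_nonneg ?_ (pow_nonneg (inv_nonneg.2 (norm_nonneg _)) _)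
    rw [hD]
    positivity
  by_cases hlt : size K (a : K) < R
  · rw [Set.indicator_of_mem (show a ∈ {a : 𝓞 K | size K (a : K) < R} from hlt)]
    have h1 := wnorm_le_one (K := K) (by linarith [hs.1] : 0 ≤ s) a
    have h2 := wnorm_le_one (K := K) (by linarith [hs.1] : 0 ≤ s) (a + b)
    have h3 := wnorm_nonneg (K := K) s (a : K)
    have h4 := wnorm_nonneg (K := K) s ((a + b : 𝓞 K) : K)
    rw [abs_le]
    constructor <;> linarith
  rw [Set.indicator_of_notMem (by simpa using hlt), add_zero]
  rw [not_lt] at hlt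
  push_cast [RingOfIntegers.coe_eq_algebraMap, map_add] at hD0 ⊢
  set x := algebraMap (𝓞 K) K a
  set y := algebraMap (𝓞 K) K b
  have hbig : 4 * (B + 1) ≤ κ * size K x := by
    have := mul_le_mul_of_nonneg_left hlt hκ0.le
    rwa [mul_div_cancel₀ _ hκ0.ne'] at this
  by_cases hz : wnorm K 1 x ≠ 0 ∨ wnorm K 1 (x + y) ≠ 0
  swap
  · push Not at hz
    have hs0 : ∀ z : K, wnorm K 1 z = 0 → wnorm K s z = 0 := by
      intro z hz
      rw [wnorm] at hz ⊢
      split_ifs at hz ⊢ with h
      · rfl
      · rw [(mul_eq_zero.1 hz).resolve_right (Real.exp_ne_zero _), zero_mul]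
    rw [hs0 _ hz.1, hs0 _ hz.2, sub_zero, abs_zero]
    exact hD0
  have hsupp := abs_log_le_of_supported hκ0 hκ1 hκ (fun w => le_size w y) hbig hz
  set m := κ * size K x / 4 with hm
  have hm1 : 1 ≤ m := by rw [hm]; linarith
  have hm0 : 0 < m := by linarith
  have hx0 : x ≠ 0 := by
    intro h0
    have := (hsupp w₀).1
    simp only [h0, map_zero] at this
    linarith
  have hxy0 : x + y ≠ 0 := by
    intro h0
    have := (hsupp w₀).2
    simp only [h0, map_zero] at this
    linarith
  have hlog : ∀ w : InfinitePlace K, |Real.log (w (x + y)) - Real.log (w x)| ≤ B / m := by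
    intro w
    refine (abs_log_sub_log_le hm0 (hsupp w).2 (hsupp w).1).trans ?_
    gcongr
    have h1 : w (x + y) ≤ w x + w y := map_add_le_add w.1 x y
    have h2 : w x ≤ w (x + y) + w y := by
      show w.1 x ≤ w.1 (x + y) + w.1 y
      simpa using map_sub_le_add w.1 (x + y) y
    rw [abs_le]
    constructor <;> linarith [le_size w y]
  obtain ⟨hL, hW⟩ := hlip _ _ _ hlog
  have hLlow : ∀ z : K, (∀ w : InfinitePlace K, m ≤ w z) → (n : ℝ) * Real.log m ≤ lnorm K z := by
    intro z hz'
    rw [lnorm, show (n : ℝ) * Real.log m = ∑ w : InfinitePlace K, (mult w : ℝ) * Real.log m by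
      rw [← Finset.sum_mul]; congr 1; rw [hn]; exact_mod_cast sum_mult_eq.symm]
    exact Finset.sum_le_sum fun w _ =>
      mul_le_mul_of_nonneg_left (Real.log_le_log hm0 (hz' w)) (Nat.cast_nonneg _)
  have hLx := hLlow x fun w => (hsupp w).1
  have hLxy := hLlow (x + y) fun w => (hsupp w).2
  have hlogm : 0 ≤ (n : ℝ) * Real.log m := mul_nonneg (Nat.cast_nonneg _) (Real.log_nonneg hm1)
  have hexp : ∀ z : K, (n : ℝ) * Real.log m ≤ lnorm K z →
      Real.exp (-s * lnorm K z) ≤ (m ^ n)⁻¹ := by
    intro z hz'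
    rw [← Real.exp_log (pow_pos hm0 n), ← Real.exp_neg, Real.exp_le_exp, Real.log_pow]
    nlinarith [hs.1]
  rw [wnorm, wnorm, if_neg hx0, if_neg hxy0]
  calc |weight K (x + y) * Real.exp (-s * lnorm K (x + y)) -
          weight K x * Real.exp (-s * lnorm K x)|
      = |(weight K (x + y) - weight K x) * Real.exp (-s * lnorm K (x + y)) +
          weight K x * (Real.exp (-s * lnorm K (x + y)) - Real.exp (-s * lnorm K x))| := by
        congr 1; ring
    _ ≤ C * (B / m) * (m ^ n)⁻¹ + 1 * ((m ^ n)⁻¹ * (2 * (n * (B / m)))) := by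
        refine (abs_add_le _ _).trans (add_le_add ?_ ?_)
        · rw [abs_mul, abs_of_pos (Real.exp_pos _)]
          exact mul_le_mul hW (hexp _ hLxy) (Real.exp_pos _).le (by positivity)
        · rw [abs_mul, abs_of_nonneg (weight_nonneg _)]
          refine mul_le_mul (weight_le_one _) ((abs_exp_sub_exp_le _ _).trans ?_) (abs_nonneg _)
            zero_le_one
          refine mul_le_mul ?_ ?_ (abs_nonneg _) (by positivity)
          · rw [Real.exp_monotone.map_max]
            exact max_le (hexp _ hLxy) (hexp _ hLx)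
          · rw [← mul_sub, abs_mul, abs_neg, abs_of_nonneg (by linarith [hs.1] : 0 ≤ s)]
            exact mul_le_mul hs.2 hL (abs_nonneg _) two_pos.le
    _ = D * (size K x)⁻¹ ^ (n + 1) := by
        rw [hD, hm]
        have hsz : size K x ≠ 0 := by
          intro h0
          rw [h0] at hbig
          linarith
        field_simp
        simp only [div_pow, one_pow, mul_pow]
        field_simp
        ring

end FLTAgent.Thaine
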