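import Mathlib

/-!
# A partition of unity for the units of a number field

`weight K x` is a product of hat functions in the logarithmic coordinates of `x` relative to the
unit lattice; its sum over all unit multiples of `x` is the number of roots of unity
(`hasSum_weight`).  `wnorm K s x = weight * |N x| ^ (-s)` is the weighted norm, whose sum over
unit multiples recovers `|N x| ^ (-s)` (`hasSum_wnorm_units`).
-/

set_option autoImplicit false

noncomputable section

open NumberField NumberField.InfinitePlace Filter Topology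
open NumberField.Units NumberField.Units.dirichletUnitTheorem

open scoped Classical

namespace FLTAgent.Thaine

/-- The hat function. -/
def hat (x : ℝ) : ℝ := max 0 (1 - |x|)

theorem hat_nonneg (x : ℝ) : 0 ≤ hat x := le_max_left _ _

theorem hat_le_one (x : ℝ) : hat x ≤ 1 := max_le zero_le_one (by linarith [abs_nonneg x])

theorem abs_hat_sub_le (x y : ℝ) : |hat x - hat y| ≤ |x - y| := by
  refine (abs_max_sub_max_le_max _ _ _ _).trans ?_
  rw [sub_self, abs_zero, max_eq_right (abs_nonneg _),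
    show (1 - |x|) - (1 - |y|) = |y| - |x| by ring, abs_sub_comm x y]
  exact abs_abs_sub_abs_le_abs_sub y x

theorem abs_le_one_of_hat_ne_zero {x : ℝ} (h : hat x ≠ 0) : |x| ≤ 1 := by
  by_contra hc
  exact h (max_eq_left (by linarith))

theorem hasSum_hat (t : ℝ) : HasSum (fun k : ℤ => hat (t + k)) 1 := by
  set a : ℤ := ⌈-t⌉
  have h1 : -t ≤ a := Int.le_ceil _
  have h2 : (a : ℝ) < -t + 1 := Int.ceil_lt_add_one _
  have hz : ∀ k ∉ ({a - 1, a} : Finset ℤ), hat (t + k) = 0 := by
    intro k hk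
    simp only [Finset.mem_insert, Finset.mem_singleton, not_or] at hk
    refine max_eq_left ?_
    rcases lt_or_gt_of_ne hk.2 with h | h
    · have : (k : ℝ) ≤ (a : ℝ) - 2 := by exact_mod_cast (show k ≤ a - 2 by omega)
      have := neg_le_abs (t + k)
      linarith
    · have : (a : ℝ) + 1 ≤ k := by exact_mod_cast (show a + 1 ≤ k by omega)
      have := le_abs_self (t + k)
      linarith
  have key : HasSum (fun k : ℤ => hat (t + k)) (∑ k ∈ ({a - 1, a} : Finset ℤ), hat (t + k)) :=
    hasSum_sum_of_ne_finset_zero hz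
  convert key
  rw [Finset.sum_pair (by omega)]
  push_cast
  rw [hat, hat, abs_of_nonpos (show t + ((a : ℝ) - 1) ≤ 0 by linarith),
    abs_of_nonneg (show 0 ≤ t + (a : ℝ) by linarith), max_eq_right (by linarith),
    max_eq_right (by linarith)]
  ring

variable (K : Type*) [Field K] [NumberField K]

/-- `log |N x|`. -/
def lnorm (x : K) : ℝ := ∑ w : InfinitePlace K, (mult w : ℝ) * Real.log (w x)

/-- The projection of the logarithmic vector of `x` to the hyperplane of units. -/
def projLog (x : K) : logSpace K := fun w =>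
  (mult w.1 : ℝ) * (Real.log (w.1 x) - lnorm K x / Module.finrank ℚ K)

/-- The coordinates of `projLog` in a basis of the unit lattice. -/
def unitCoord (x : K) (i : Fin (Units.rank K)) : ℝ :=
  ((basisUnitLattice K).ofZLatticeBasis ℝ (unitLattice K)).repr (projLog K x) i

/-- The weight: a partition of unity for the units modulo torsion. -/
def weight (x : K) : ℝ := ∏ i, hat (unitCoord K x i)

/-- The weighted norm. -/
def wnorm (s : ℝ) (x : K) : ℝ := if x = 0 then 0 else weight K x * Real.exp (-s * lnorm K x)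

variable {K}

theorem lnorm_eq (x : K) (hx : x ≠ 0) : lnorm K x = Real.log |(Algebra.norm ℚ x : ℚ)| := by
  rw [lnorm, ← Rat.cast_abs, ← InfinitePlace.prod_eq_abs_norm, Real.log_prod]
  · simp
  · exact fun w _ => pow_ne_zero _ (pos_iff.2 hx).ne'

theorem lnorm_mul {x y : K} (hx : x ≠ 0) (hy : y ≠ 0) : lnorm K (x * y) = lnorm K x + lnorm K y := by
  simp only [lnorm, ← Finset.sum_add_distrib, map_mul]
  refine Finset.sum_congr rfl fun w _ => ?_
  rw [Real.log_mul (pos_iff.2 hx).ne' (pos_iff.2 hy).ne']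
  ring

theorem lnorm_unit (u : (𝓞 K)ˣ) : lnorm K (u : K) = 0 := sum_mult_mul_log u

theorem projLog_mul {x y : K} (hx : x ≠ 0) (hy : y ≠ 0) :
    projLog K (x * y) = projLog K x + projLog K y := by
  funext w
  simp only [projLog, Pi.add_apply, lnorm_mul hx hy, map_mul,
    Real.log_mul (pos_iff.2 hx).ne' (pos_iff.2 hy).ne']
  ring

theorem projLog_unit (u : (𝓞 K)ˣ) :
    projLog K (u : K) = logEmbedding K (Additive.ofMul u) := by
  funext w
  simp [projLog, lnorm_unit]

theorem unitCoord_mul_unit (ζ : torsion K) (k : Fin (Units.rank K) → ℤ) {x : K} (hx : x ≠ 0)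
    (i : Fin (Units.rank K)) :
    unitCoord K ((((ζ : (𝓞 K)ˣ) * ∏ j, (fundSystem K j) ^ (k j) : (𝓞 K)ˣ) : K) * x) i =
      unitCoord K x i + k i := by
  rw [unitCoord, projLog_mul (Units.coe_ne_zero _) hx, map_add, Finsupp.add_apply, projLog_unit,
    add_comm, unitCoord]
  congr 1
  have h : logEmbedding K (Additive.ofMul ((ζ : (𝓞 K)ˣ) * ∏ j, (fundSystem K j) ^ (k j))) =
      ∑ j, (k j : ℝ) • ((basisUnitLattice K).ofZLatticeBasis ℝ (unitLattice K)) j := by
    rw [ofMul_mul, map_add, logEmbedding_eq_zero_iff.2 ζ.2, zero_add, ofMul_prod, map_sum]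
    refine Finset.sum_congr rfl fun j _ => ?_
    rw [ofMul_zpow, map_zsmul, logEmbedding_fundSystem, Module.Basis.ofZLatticeBasis_apply,
      Int.cast_smul_eq_zsmul]
  rw [h, Module.Basis.repr_sum_self]

theorem weight_nonneg (x : K) : 0 ≤ weight K x := Finset.prod_nonneg fun _ _ => hat_nonneg _

theorem weight_le_one (x : K) : weight K x ≤ 1 :=
  Finset.prod_le_one (fun _ _ => hat_nonneg _) fun _ _ => hat_le_one _

theorem hasSum_prod_hat {ι : Type*} [Fintype ι] (t : ι → ℝ) :
    HasSum (fun k : ι → ℤ => ∏ i, hat (t i + k i)) 1 := by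
  classical
  set S : ι → Finset ℤ := fun i => {⌈-t i⌉ - 1, ⌈-t i⌉}
  have hz : ∀ (i : ι) (k : ℤ), k ∉ S i → hat (t i + k) = 0 := by
    intro i k hk
    by_contra hne
    have h := abs_le.1 (abs_le_one_of_hat_ne_zero hne)
    simp only [S, Finset.mem_insert, Finset.mem_singleton, not_or] at hk
    have h1 : -t i ≤ (⌈-t i⌉ : ℤ) := Int.le_ceil _
    have h2 : ((⌈-t i⌉ : ℤ) : ℝ) < -t i + 1 := Int.ceil_lt_add_one _
    rcases lt_or_gt_of_ne hk.2 with hl | hl
    · have : (k : ℝ) ≤ ((⌈-t i⌉ : ℤ) : ℝ) - 2 := by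
        exact_mod_cast (show k ≤ ⌈-t i⌉ - 2 by omega)
      linarith
    · have : ((⌈-t i⌉ : ℤ) : ℝ) + 1 ≤ k := by exact_mod_cast (show ⌈-t i⌉ + 1 ≤ k by omega)
      by_cases he : (k : ℝ) + t i = 1
      · exact hne (max_eq_left (by rw [add_comm, he]; simp))
      · have : (k : ℝ) + t i < 1 := lt_of_le_of_ne (by linarith) he
        linarith
  have key : HasSum (fun k : ι → ℤ => ∏ i, hat (t i + k i))
      (∑ k ∈ Fintype.piFinset S, ∏ i, hat (t i + k i)) := by
    refine hasSum_sum_of_ne_finset_zero fun k hk => ?_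
    obtain ⟨i, hi⟩ : ∃ i, k i ∉ S i := by
      by_contra h
      push Not at h
      exact hk (Fintype.mem_piFinset.2 h)
    exact Finset.prod_eq_zero (Finset.mem_univ i) (hz i _ hi)
  convert key
  rw [← Finset.prod_univ_sum S (fun i (k : ℤ) => hat (t i + k))]
  refine (Finset.prod_eq_one fun i _ => ?_).symm
  exact (hasSum_sum_of_ne_finset_zero (hz i)).unique (hasSum_hat (t i))

/-- The decomposition of units. -/
def unitsEquiv (K : Type*) [Field K] [NumberField K] :
    torsion K × (Fin (Units.rank K) → ℤ) ≃ (𝓞 K)ˣ :=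
  Equiv.ofBijective (fun ζe => (ζe.1 : (𝓞 K)ˣ) * ∏ i, (fundSystem K i) ^ (ζe.2 i))
    ⟨fun _ _ hab => (exist_unique_eq_mul_prod K _).unique rfl hab,
     fun x => ⟨(exist_unique_eq_mul_prod K x).choose,
       (exist_unique_eq_mul_prod K x).choose_spec.1.symm⟩⟩

/-- The weight summed over all units is the number of roots of unity. -/
theorem hasSum_weight {x : K} (hx : x ≠ 0) :
    HasSum (fun u : (𝓞 K)ˣ => weight K ((u : K) * x)) (torsionOrder K : ℝ) := by
  rw [← (unitsEquiv K).hasSum_iff]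
  have key : ∀ ζe : torsion K × (Fin (Units.rank K) → ℤ),
      weight K (((unitsEquiv K ζe : (𝓞 K)ˣ) : K) * x) =
        ∏ i, hat (unitCoord K x i + ζe.2 i) := by
    intro ζe
    refine Finset.prod_congr rfl fun i _ => ?_
    rw [← unitCoord_mul_unit ζe.1 ζe.2 hx i]
    rfl
  refine HasSum.congr_fun ?_ key
  have h1 : ∀ ζ : torsion K, HasSum
      (fun k : Fin (Units.rank K) → ℤ => ∏ i, hat (unitCoord K x i + k i)) 1 :=
    fun _ => hasSum_prod_hat _
  have hsumm : Summable (fun ζe : torsion K × (Fin (Units.rank K) → ℤ) =>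
      ∏ i, hat (unitCoord K x i + ζe.2 i)) :=
    (summable_prod_of_nonneg (fun ζe => Finset.prod_nonneg fun _ _ => hat_nonneg _)).2
      ⟨fun ζ => (h1 ζ).summable, Summable.of_finite⟩
  refine hsumm.hasSum_iff.2 ?_
  rw [hsumm.tsum_prod' fun ζ => (h1 ζ).summable, tsum_congr fun ζ => (h1 ζ).tsum_eq]
  simp [torsionOrder]

theorem hasSum_wnorm_units (s : ℝ) {x : K} (hx : x ≠ 0) :
    HasSum (fun u : (𝓞 K)ˣ => wnorm K s ((u : K) * x))
      ((torsionOrder K : ℝ) * Real.exp (-s * lnorm K x)) := by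
  have := (hasSum_weight hx).mul_right (Real.exp (-s * lnorm K x))
  refine this.congr_fun fun u => ?_
  rw [wnorm, if_neg (mul_ne_zero (Units.coe_ne_zero u) hx),
    lnorm_mul (Units.coe_ne_zero u) hx, lnorm_unit, zero_add]

theorem wnorm_nonneg (s : ℝ) (x : K) : 0 ≤ wnorm K s x := by
  rw [wnorm]; split_ifs
  · rfl
  · exact mul_nonneg (weight_nonneg x) (Real.exp_pos _).le

theorem exp_neg_mul_lnorm {x : K} (hx : x ≠ 0) (s : ℝ) :
    Real.exp (-s * lnorm K x) = (|(Algebra.norm ℚ x : ℚ)| : ℝ) ^ (-s) := by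
  rw [lnorm_eq x hx, Real.rpow_def_of_pos, mul_comm]
  simp [hx]

theorem wnorm_le_one {s : ℝ} (hs : 0 ≤ s) (a : 𝓞 K) : wnorm K s (a : K) ≤ 1 := by
  rw [wnorm]; split_ifs with h
  · exact zero_le_one
  · refine mul_le_one₀ (weight_le_one _) (Real.exp_pos _).le ?_
    rw [Real.exp_le_one_iff, neg_mul, neg_nonpos]
    refine mul_nonneg hs ?_
    rw [lnorm_eq _ h]
    refine Real.log_nonneg ?_
    have h0 : Algebra.norm ℤ a ≠ 0 := Algebra.norm_ne_zero_iff.2 fun ha => h (by simp [ha])
    rw [← Algebra.coe_norm_int a]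
    push_cast
    exact_mod_cast Int.one_le_abs h0

end FLTAgent.Thaine
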